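import Mathlib.RingTheory.Henselian
import Mathlib.RingTheory.AdicCompletion.Basic
import Mathlib.RingTheory.AdicCompletion.Noetherian
import Mathlib.RingTheory.Nakayama
import Mathlib.LinearAlgebra.Matrix.NonsingularInverse
import Mathlib.LinearAlgebra.Matrix.GeneralLinearGroup.Defs
import Mathlib.Algebra.Polynomial.Derivative
import Mathlib.Algebra.Polynomial.Degree.SmallDegree
import Mathlib.Tactic.LinearCombination
import Mathlib.Tactic.ComputeDegree

/-!
# Taylor–Wiles primes with distinct Frobenius eigenvalues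

Over a complete local ring a matrix with residually distinct eigenvalues diagonalises, and a
residually trivial matrix which it conjugates to its `q`-th power is diagonal in the same basis,
with diagonal entries killed by `q - 1`.
-/

set_option autoImplicit false

open IsLocalRing Matrix Polynomial

namespace Fermat.Agent.Deform

variable {A : Type*} [CommRing A] [IsLocalRing A] [IsAdicComplete (maximalIdeal A) A]

/-- A matrix with residually distinct eigenvalues diagonalises, in a frame lifting the residual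
eigenbasis. -/
theorem exists_diagonal_frame (Φ : Matrix (Fin 2) (Fin 2) A)
    (g₀ : (Matrix (Fin 2) (Fin 2) (ResidueField A))ˣ) {α β : ResidueField A} (hne : α ≠ β)
    (h₀ : Φ.map (residue A) * g₀.1 = g₀.1 * Matrix.diagonal ![α, β]) :
    ∃ (g : (Matrix (Fin 2) (Fin 2) A)ˣ) (a d : A), residue A a = α ∧ residue A d = β ∧
      Φ * g.1 = g.1 * Matrix.diagonal ![a, d] ∧
      g.1.map (residue A) = g₀.1 * Matrix.diagonal ![α - β, β - α] := by
  have hconj : Φ.map (residue A) =
      g₀.1 * Matrix.diagonal ![α, β] * (g₀⁻¹ : (Matrix (Fin 2) (Fin 2) (ResidueField A))ˣ).1 := by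
    rw [← h₀, mul_assoc, Units.mul_inv, mul_one]
  have htr : residue A Φ.trace = α + β := by
    have : residue A Φ.trace = (Φ.map (residue A)).trace := by
      simp [Matrix.trace_fin_two]
    rw [this, hconj, mul_assoc, Matrix.trace_mul_comm, mul_assoc, Units.inv_mul, mul_one]
    simp
  have hdet : residue A Φ.det = α * β := by
    rw [RingHom.map_det, show (residue A).mapMatrix Φ = Φ.map (residue A) from rfl, hconj,
      Matrix.det_units_conj, Matrix.det_diagonal]
    simp
  obtain ⟨a₀, ha₀⟩ := residue_surjective α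
  obtain ⟨a, hroot, ha⟩ := HenselianRing.is_henselian (I := maximalIdeal A)
    (X ^ 2 - C Φ.trace * X + C Φ.det : A[X]) (by monicity!) a₀
    (by
      rw [← residue_eq_zero_iff]
      simp only [eval_add, eval_sub, eval_pow, eval_mul, eval_X, eval_C, map_add, map_sub, map_pow,
        map_mul, htr, hdet, ha₀]
      ring)
    (by
      show IsUnit (residue A _)
      simp only [derivative_X_pow, derivative_C_mul, derivative_X,
        derivative_C, eval_add, eval_sub, eval_mul, eval_pow, eval_X, eval_C, eval_one, eval_zero,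
        map_add, map_sub, map_mul, map_pow, map_one, map_zero, Nat.cast_ofNat, eval_ofNat,
        map_ofNat, htr, ha₀]
      refine isUnit_iff_ne_zero.mpr fun h => hne ?_
      push_cast at h
      linear_combination h)
  have hα : residue A a = α := by
    rw [← ha₀, ← sub_eq_zero, ← map_sub, residue_eq_zero_iff]
    exact ha
  set d := Φ.trace - a with hd
  have hβ : residue A d = β := by rw [hd, map_sub, htr, hα]; ring
  have had : a * d = Φ.det := by
    simp only [IsRoot.def, eval_add, eval_sub, eval_pow, eval_mul, eval_X, eval_C] at hroot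
    rw [hd]
    linear_combination (-1 : A) * hroot
  choose v hv using fun i j => residue_surjective (g₀.1 i j)
  let M : Matrix (Fin 2) (Fin 2) A := Matrix.of fun i j =>
    ((Φ - ![d, a] j • (1 : Matrix (Fin 2) (Fin 2) A)) * Matrix.of v) i j
  have hMres : M.map (residue A) = g₀.1 * Matrix.diagonal ![α - β, β - α] := by
    ext i j
    have hΦv : ∀ i j, (Φ.map (residue A) * g₀.1) i j = g₀.1 i j * ![α, β] j := fun i j => by
      rw [h₀, Matrix.mul_diagonal]
    have := hΦv i j
    simp only [Matrix.mul_apply, Fin.sum_univ_two, Matrix.map_apply] at this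
    rw [Matrix.mul_diagonal, Matrix.map_apply]
    simp only [M, Matrix.of_apply, Matrix.mul_apply, Fin.sum_univ_two, Matrix.sub_apply,
      Matrix.smul_apply, Matrix.one_apply, smul_eq_mul, map_add, map_mul, map_sub, hv]
    fin_cases i <;> fin_cases j <;> simp [hα, hβ] at this ⊢ <;> linear_combination this
  have hMunit : IsUnit M.det := by
    refine (isUnit_map_iff (residue A) _).mp ?_
    rw [RingHom.map_det, show (residue A).mapMatrix M = M.map (residue A) from rfl, hMres,
      Matrix.det_mul, Matrix.det_diagonal]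
    refine IsUnit.mul ((Matrix.isUnit_iff_isUnit_det _).mp g₀.isUnit) (isUnit_iff_ne_zero.mpr ?_)
    simp [sub_ne_zero, hne, hne.symm]
  refine ⟨((Matrix.isUnit_iff_isUnit_det M).mpr hMunit).unit, a, d, hα, hβ, ?_, hMres⟩
  show Φ * M = M * Matrix.diagonal ![a, d]
  have ht : Φ 0 0 + Φ 1 1 = a + d := by rw [hd, Matrix.trace_fin_two]; ring
  have hD : Φ 0 0 * Φ 1 1 - Φ 0 1 * Φ 1 0 = a * d := by rw [had, Matrix.det_fin_two]
  ext i j
  simp only [M, Matrix.mul_diagonal]
  fin_cases i <;> fin_cases j <;>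
    simp [Matrix.mul_apply, Fin.sum_univ_two, Matrix.one_apply]
  · linear_combination (Φ 0 0 * v 0 0 + Φ 0 1 * v 1 0) * ht - v 0 0 * hD
  · linear_combination (Φ 0 0 * v 0 1 + Φ 0 1 * v 1 1) * ht - v 0 1 * hD
  · linear_combination (Φ 1 0 * v 0 0 + Φ 1 1 * v 1 0) * ht - v 1 0 * hD
  · linear_combination (Φ 1 0 * v 0 1 + Φ 1 1 * v 1 1) * ht - v 1 1 * hD

omit [IsAdicComplete (maximalIdeal A) A] in
theorem pow_offDiag {N : Matrix (Fin 2) (Fin 2) A} (hN : N.map (residue A) = 1) (n : ℕ) {i j : Fin 2}
    (hij : i ≠ j) :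
    (N ^ n) i j - (n : A) * N i j ∈ maximalIdeal A * Ideal.span {N 0 1, N 1 0} ∧
      (N ^ n) i j ∈ Ideal.span {N 0 1, N 1 0} := by
  have hone : ∀ k, ((N ^ k).map (residue A)) = 1 := fun k => by
    rw [show (N ^ k).map (residue A) = (residue A).mapMatrix (N ^ k) from rfl, map_pow,
      show (residue A).mapMatrix N = 1 from hN, one_pow]
  have hdiag : ∀ (k : ℕ) (l : Fin 2), (N ^ k) l l - 1 ∈ maximalIdeal A := fun k l => by
    rw [← residue_eq_zero_iff, map_sub, map_one, sub_eq_zero]
    simpa using congrFun (congrFun (hone k) l) l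
  have hI : ∀ {i j : Fin 2}, i ≠ j → N i j ∈ Ideal.span {N 0 1, N 1 0} := fun {i j} h =>
    Ideal.subset_span (by fin_cases i <;> fin_cases j <;> simp_all)
  induction n with
  | zero => simp [Matrix.one_apply_ne hij]
  | succ n ih =>
    obtain ⟨ih1, ih2⟩ := ih
    have hmul : (N ^ (n + 1)) i j = (N ^ n) i i * N i j + (N ^ n) i j * N j j := by
      rw [pow_succ]
      fin_cases i <;> fin_cases j <;> simp_all [Matrix.mul_apply, Fin.sum_univ_two, add_comm]
    refine ⟨?_, ?_⟩
    · rw [hmul, show (N ^ n) i i * N i j + (N ^ n) i j * N j j - ((n + 1 : ℕ) : A) * N i j =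
          ((N ^ n) i i - 1) * N i j + (N j j - 1) * (N ^ n) i j + ((N ^ n) i j - n * N i j) by
        push_cast; ring]
      exact add_mem (add_mem (Ideal.mul_mem_mul (hdiag n i) (hI hij))
        (Ideal.mul_mem_mul (by simpa using hdiag 1 j) ih2)) ih1
    · rw [hmul]
      exact add_mem (Ideal.mul_mem_left _ _ (hI hij)) (Ideal.mul_mem_right _ _ ih2)

omit [IsAdicComplete (maximalIdeal A) A] in
/-- A residually trivial matrix conjugated to its `q`-th power by a diagonal one is diagonal. -/
theorem isDiag_of_conj_eq_pow [IsNoetherianRing A] {a d : A} {q : ℕ}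
    (hu : IsUnit (a - q * d)) (hu' : IsUnit (d - q * a)) {N : Matrix (Fin 2) (Fin 2) A}
    (hN : N.map (residue A) = 1)
    (hrel : Matrix.diagonal ![a, d] * N = N ^ q * Matrix.diagonal ![a, d]) :
    N 0 1 = 0 ∧ N 1 0 = 0 := by
  set I := Ideal.span {N 0 1, N 1 0}
  have hle : I ≤ maximalIdeal A * I := by
    refine Ideal.span_le.mpr ?_
    rintro x (rfl | rfl)
    · have h := congrFun (congrFun hrel 0) 1
      rw [Matrix.diagonal_mul, Matrix.mul_diagonal] at h
      simp only [Matrix.cons_val_zero, Matrix.cons_val_one] at h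
      refine (Ideal.unit_mul_mem_iff_mem _ hu).mp ?_
      rw [show (a - q * d) * N 0 1 = d * ((N ^ q) 0 1 - q * N 0 1) by linear_combination h]
      exact Ideal.mul_mem_left _ _ (pow_offDiag hN q (by decide)).1
    · have h := congrFun (congrFun hrel 1) 0
      rw [Matrix.diagonal_mul, Matrix.mul_diagonal] at h
      simp only [Matrix.cons_val_zero, Matrix.cons_val_one] at h
      refine (Ideal.unit_mul_mem_iff_mem _ hu').mp ?_
      rw [show (d - q * a) * N 1 0 = a * ((N ^ q) 1 0 - q * N 1 0) by linear_combination h]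
      exact Ideal.mul_mem_left _ _ (pow_offDiag hN q (by decide)).1
  have hI : I = ⊥ := Submodule.eq_bot_of_le_smul_of_le_jacobson_bot (maximalIdeal A) I
    (IsNoetherian.noetherian _) (by rwa [smul_eq_mul]) (IsLocalRing.maximalIdeal_le_jacobson _)
  exact ⟨(Submodule.mem_bot A).mp (hI ▸ Ideal.subset_span (Set.mem_insert _ _)),
    (Submodule.mem_bot A).mp (hI ▸ Ideal.subset_span (Set.mem_insert_of_mem _ rfl))⟩

omit [IsAdicComplete (maximalIdeal A) A] in
/-- In that situation the diagonal entries are killed by `q - 1`. -/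
theorem pow_sub_one_eq_one_of_conj_eq_pow [IsNoetherianRing A] {a d : A} {q : ℕ} (hq : 0 < q)
    (hu : IsUnit (a - q * d)) (hu' : IsUnit (d - q * a)) (ha : IsUnit a) (hd : IsUnit d)
    {N : Matrix (Fin 2) (Fin 2) A} (hN : N.map (residue A) = 1)
    (hrel : Matrix.diagonal ![a, d] * N = N ^ q * Matrix.diagonal ![a, d]) :
    ∃ u v : A, N = Matrix.diagonal ![u, v] ∧ u ^ (q - 1) = 1 ∧ v ^ (q - 1) = 1 := by
  obtain ⟨h01, h10⟩ := isDiag_of_conj_eq_pow hu hu' hN hrel
  have hNd : N = Matrix.diagonal ![N 0 0, N 1 1] := by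
    ext i j
    fin_cases i <;> fin_cases j <;> simp [h01, h10]
  have hres : ∀ i, IsUnit (N i i) := fun i => by
    refine (isUnit_map_iff (residue A) _).mp ?_
    have := congrFun (congrFun hN i) i
    simp only [Matrix.map_apply, Matrix.one_apply_eq] at this
    rw [this]
    exact isUnit_one
  refine ⟨N 0 0, N 1 1, hNd, ?_, ?_⟩
  · have h := congrFun (congrFun hrel 0) 0
    rw [Matrix.diagonal_mul, Matrix.mul_diagonal, hNd, Matrix.diagonal_pow] at h
    simp at h
    rw [mul_comm] at h
    have h3 : N 0 0 ^ (q - 1) * N 0 0 = 1 * N 0 0 := by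
      rw [one_mul, ← pow_succ, Nat.sub_add_cancel hq]
      exact (ha.mul_right_cancel h).symm
    exact (hres 0).mul_right_cancel h3
  · have h := congrFun (congrFun hrel 1) 1
    rw [Matrix.diagonal_mul, Matrix.mul_diagonal, hNd, Matrix.diagonal_pow] at h
    simp at h
    rw [mul_comm] at h
    have h3 : N 1 1 ^ (q - 1) * N 1 1 = 1 * N 1 1 := by
      rw [one_mul, ← pow_succ, Nat.sub_add_cancel hq]
      exact (hd.mul_right_cancel h).symm
    exact (hres 1).mul_right_cancel h3

/-- **Shape at a Taylor–Wiles prime.** A representation whose inertia is residually trivial, on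
which Frobenius acts by `q`-th powers, and whose Frobenius has residual eigenvalues `α, β` with
`α ≠ β`, `α ≠ qβ`, `β ≠ qα`, is diagonal in one frame on inertia and Frobenius, and the two
characters of inertia are killed by `q - 1`. -/
theorem exists_diagonal_characters [IsNoetherianRing A] {H : Type*} [Group H] (J : Subgroup H)
    (N : H →* Matrix (Fin 2) (Fin 2) A) (Fr : H) {q : ℕ} (hq : 0 < q)
    (hJ : ∀ s ∈ J, (N s).map (residue A) = 1) (hrel : ∀ s ∈ J, N (Fr * s * Fr⁻¹) = N s ^ q)
    (g₀ : (Matrix (Fin 2) (Fin 2) (ResidueField A))ˣ) {α β : ResidueField A}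
    (hne : α ≠ β) (hq1 : α ≠ q * β) (hq2 : β ≠ q * α)
    (h₀ : (N Fr).map (residue A) * g₀.1 = g₀.1 * Matrix.diagonal ![α, β]) :
    ∃ (g : (Matrix (Fin 2) (Fin 2) A)ˣ) (a d : A) (χ₁ χ₂ : J →* Aˣ),
      residue A a = α ∧ residue A d = β ∧
      g.1.map (residue A) = g₀.1 * Matrix.diagonal ![α - β, β - α] ∧
      N Fr * g.1 = g.1 * Matrix.diagonal ![a, d] ∧
      (∀ s : J, N s.1 * g.1 = g.1 * Matrix.diagonal ![(χ₁ s : A), (χ₂ s : A)]) ∧
      (∀ s, χ₁ s ^ (q - 1) = 1 ∧ χ₂ s ^ (q - 1) = 1) ∧
      ∀ s, residue A (χ₁ s : A) = 1 ∧ residue A (χ₂ s : A) = 1 := by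
  obtain ⟨g, a, d, ha, hd, hg, hgres⟩ := exists_diagonal_frame (N Fr) g₀ hne h₀
  have had : (N Fr).det = a * d := by
    have h : N Fr = g.1 * Matrix.diagonal ![a, d] * (g⁻¹ : (Matrix (Fin 2) (Fin 2) A)ˣ).1 := by
      rw [← hg, mul_assoc, Units.mul_inv, mul_one]
    rw [h, Matrix.det_units_conj, Matrix.det_diagonal]
    simp
  have hunit : IsUnit (a * d) := had ▸ IsUnit.of_mul_eq_one (N Fr⁻¹).det (by
    rw [← Matrix.det_mul, ← map_mul, mul_inv_cancel, map_one, Matrix.det_one])
  have hua : IsUnit a := isUnit_of_mul_isUnit_left hunit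
  have hud : IsUnit d := isUnit_of_mul_isUnit_right hunit
  have hu : IsUnit (a - q * d) := (isUnit_map_iff (residue A) _).mp
    (isUnit_iff_ne_zero.mpr (by simpa [ha, hd, sub_eq_zero] using hq1))
  have hu' : IsUnit (d - q * a) := (isUnit_map_iff (residue A) _).mp
    (isUnit_iff_ne_zero.mpr (by simpa [ha, hd, sub_eq_zero] using hq2))
  let gi := ((g⁻¹ : (Matrix (Fin 2) (Fin 2) A)ˣ) : Matrix (Fin 2) (Fin 2) A)
  have hgg : g.1 * gi = 1 := g.mul_inv
  have hgg' : gi * g.1 = 1 := g.inv_mul
  have hshape : ∀ s : J, ∃ u v : A, gi * N s.1 * g.1 = Matrix.diagonal ![u, v] ∧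
      u ^ (q - 1) = 1 ∧ v ^ (q - 1) = 1 := by
    intro s
    refine pow_sub_one_eq_one_of_conj_eq_pow hq hu hu' hua hud ?_ ?_
    · have h1 : ∀ X Y : Matrix (Fin 2) (Fin 2) A,
          (X * Y).map (residue A) = X.map (residue A) * Y.map (residue A) :=
        fun X Y => Matrix.map_mul
      rw [h1, h1, hJ s.1 s.2, mul_one, ← h1, hgg', Matrix.map_one _ (map_zero _) (map_one _)]
    · have hpow : ∀ k : ℕ, (gi * N s.1 * g.1) ^ k = gi * N s.1 ^ k * g.1 := by
        intro k
        induction k with
        | zero => simp [hgg']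
        | succ k ih =>
          rw [pow_succ, ih, pow_succ]
          simp only [mul_assoc]
          rw [← mul_assoc g.1, hgg, one_mul]
      have hdiag : Matrix.diagonal ![a, d] = gi * N Fr * g.1 := by
        rw [mul_assoc, hg, ← mul_assoc, hgg', one_mul]
      have h2 := hrel s.1 s.2
      rw [map_mul, map_mul] at h2
      have hinv : N Fr⁻¹ * N Fr = 1 := by rw [← map_mul, inv_mul_cancel, map_one]
      have h3 : N Fr * N s.1 = N s.1 ^ q * N Fr := by
        rw [← h2, mul_assoc (N Fr * N s.1), hinv, mul_one]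
      rw [hpow, hdiag]
      simp only [mul_assoc]
      rw [← mul_assoc g.1 gi, hgg, one_mul, ← mul_assoc g.1 gi, hgg, one_mul, ← mul_assoc (N Fr),
        h3, mul_assoc]
  choose u v huv hu1 hv1 using hshape
  have hone : Matrix.diagonal ![u 1, v 1] = (1 : Matrix (Fin 2) (Fin 2) A) := by
    rw [← huv, OneMemClass.coe_one, map_one, mul_one, hgg']
  have hmul : ∀ s t, Matrix.diagonal ![u (s * t), v (s * t)] =
      (Matrix.diagonal ![u s * u t, v s * v t] : Matrix (Fin 2) (Fin 2) A) := by
    intro s t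
    rw [← huv, Subgroup.coe_mul, map_mul]
    have : (Matrix.diagonal ![u s * u t, v s * v t] : Matrix (Fin 2) (Fin 2) A) =
        Matrix.diagonal ![u s, v s] * Matrix.diagonal ![u t, v t] := by
      rw [Matrix.diagonal_mul_diagonal]
      congr 1
      funext i
      fin_cases i <;> rfl
    rw [this, ← huv, ← huv]
    simp only [mul_assoc]
    rw [← mul_assoc g.1 gi, hgg, one_mul]
  let mk : ∀ w : J → A, w 1 = 1 → (∀ s t, w (s * t) = w s * w t) → (J →* Aˣ) :=
    fun w h1 h2 => MonoidHom.toHomUnits ⟨⟨w, h1⟩, h2⟩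
  refine ⟨g, a, d,
    mk u (by simpa using congrFun (congrFun hone 0) 0)
      (fun s t => by simpa using congrFun (congrFun (hmul s t) 0) 0),
    mk v (by simpa using congrFun (congrFun hone 1) 1)
      (fun s t => by simpa using congrFun (congrFun (hmul s t) 1) 1),
    ha, hd, hgres, hg, fun s => ?_, fun s => ⟨Units.ext ?_, Units.ext ?_⟩, fun s => ?_⟩
  · show N s.1 * g.1 = g.1 * Matrix.diagonal ![u s, v s]
    rw [← huv, ← mul_assoc, ← mul_assoc, hgg, one_mul]
  · exact hu1 s
  · exact hv1 s
  · have h1 : (gi * N s.1 * g.1).map (residue A) = 1 := by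
      rw [Matrix.map_mul, Matrix.map_mul, hJ s.1 s.2, mul_one, ← Matrix.map_mul, hgg',
        Matrix.map_one _ (map_zero _) (map_one _)]
    rw [huv] at h1
    exact ⟨by simpa [mk] using congrFun (congrFun h1 0) 0,
      by simpa [mk] using congrFun (congrFun h1 1) 1⟩

end Fermat.Agent.Deform
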