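import Fermat.Agent.DefRing.MatrixRep
import Fermat.Agent.Deform.TWPrime
import Fermat.Agent.TameInertia.Adic
import Fermat.Agent.EllLocal.TameChar
import Fermat.Agent.Frobenius.Exists
import Fermat.Agent.FreyReducible.InertiaLift

/-!
# Inertia characters at a Taylor–Wiles prime

Characters of the inertia group at `q` killed by `q - 1` factor through the cyclotomic character
modulo `q`, so the two characters at a Taylor–Wiles prime are characters of `(ℤ/q)ˣ`.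
-/

set_option autoImplicit false

open IsLocalRing Matrix Fermat.Agent.DefRing

noncomputable section

namespace Fermat.Agent.Deform

local notation "Ω" => AlgebraicClosure ℚ

local instance isAlgebraicQbar_twi : Algebra.IsAlgebraic ℚ (AlgebraicClosure ℚ) :=
  AlgebraicClosure.isAlgebraic ℚ
local instance isGaloisQbar_twi : IsGalois ℚ (AlgebraicClosure ℚ) :=
  have : IsAlgClosure ℚ (AlgebraicClosure ℚ) := ⟨inferInstance, inferInstance⟩
  have : Normal ℚ (AlgebraicClosure ℚ) := IsAlgClosure.normal ℚ (AlgebraicClosure ℚ)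
  IsGalois.mk

/-- `c` is the cyclotomic character modulo `q`. -/
def IsCycloMod (q : ℕ) (c : GQ →* (ZMod q)ˣ) : Prop :=
  ∀ (σ : GQ) (μ : Ω), μ ^ q = 1 → σ μ = μ ^ ((c σ : ZMod q)).val

theorem exists_isCycloMod (q : ℕ) [NeZero q] : ∃ c, IsCycloMod q c := by
  have : NeZero (q : Ω) := ⟨Nat.cast_ne_zero.mpr (NeZero.ne q)⟩
  have hn : Nat.card (rootsOfUnity q Ω) = q := HasEnoughRootsOfUnity.natCard_rootsOfUnity Ω q
  refine ⟨(modularCyclotomicCharacter Ω hn).comp (MulSemiringAction.toRingAut GQ Ω), ?_⟩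
  intro σ μ hμ
  have hμ0 : μ ≠ 0 := fun h => by
    rw [h, zero_pow (NeZero.ne q)] at hμ
    exact zero_ne_one hμ
  exact modularCyclotomicCharacter.spec Ω hn (MulSemiringAction.toRingAut GQ Ω σ)
    (t := Units.mk0 μ hμ0) ((mem_rootsOfUnity q _).mpr (Units.ext (by simpa using hμ)))

variable {q : ℕ} {c : GQ →* (ZMod q)ˣ}

theorem IsCycloMod.eq_one_iff [NeZero q] (hc : IsCycloMod q c) {ζ : Ω} (hζ : IsPrimitiveRoot ζ q)
    (σ : GQ) : c σ = 1 ↔ σ ζ = ζ := by
  constructor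
  · intro h
    rw [hc σ ζ hζ.pow_eq_one, h, Units.val_one]
    rcases eq_or_ne q 1 with rfl | hq1
    · rw [show ζ = 1 by simpa using hζ.pow_eq_one, one_pow]
    · rw [ZMod.val_one_eq_one_mod, Nat.one_mod_eq_one.mpr hq1, pow_one]
  · intro h
    have h1 := hc σ ζ hζ.pow_eq_one
    rw [h] at h1
    refine Units.ext ?_
    rw [Units.val_one]
    rcases eq_or_ne q 1 with rfl | hq1
    · exact Subsingleton.elim _ _
    · have h2 := hζ.pow_inj (i := 1) (j := ((c σ : ZMod q)).val) (by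
        have := NeZero.ne q; omega) (ZMod.val_lt _) (by rw [pow_one]; exact h1)
      rw [← ZMod.natCast_zmod_val ((c σ : ZMod q)), ← h2, Nat.cast_one]

/-- The cyclotomic character is onto. -/
theorem IsCycloMod.surjective [NeZero q] (hc : IsCycloMod q c) : Function.Surjective c := by
  intro u
  have : NeZero (q : Ω) := ⟨Nat.cast_ne_zero.mpr (NeZero.ne q)⟩
  obtain ⟨ζ, hζ⟩ := HasEnoughRootsOfUnity.exists_primitiveRoot Ω q
  have hζ' := hζ.pow_of_coprime ((u : ZMod q)).val (ZMod.val_coe_unit_coprime u)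
  have hmin : minpoly ℚ ζ = minpoly ℚ (ζ ^ ((u : ZMod q)).val) := by
    rw [← Polynomial.cyclotomic_eq_minpoly_rat hζ (Nat.pos_of_ne_zero (NeZero.ne q)),
      ← Polynomial.cyclotomic_eq_minpoly_rat hζ' (Nat.pos_of_ne_zero (NeZero.ne q))]
  obtain ⟨σ, hσ⟩ := Normal.minpoly_eq_iff_mem_orbit (F := ℚ) (E := Ω) |>.mp hmin.symm
  refine ⟨σ, Units.ext ?_⟩
  have h1 := hc σ ζ hζ.pow_eq_one
  have h2 := hζ.pow_inj (ZMod.val_lt _) (ZMod.val_lt _) (h1.symm.trans hσ)
  rw [← ZMod.natCast_zmod_val ((c σ : ZMod q)), h2, ZMod.natCast_zmod_val]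

/-- Inertia at `q` maps onto `(ℤ/q)ˣ`. -/
theorem exists_inertia_cyclo_eq (hq : q.Prime) (hc : IsCycloMod q c) {A : ValuationSubring Ω}
    (hA : A.LiesOverPrime q) (u : (ZMod q)ˣ) : ∃ σ ∈ A.inertiaSubgroupIn ℚ, c σ = u := by
  have : NeZero q := ⟨hq.ne_zero⟩
  have : NeZero (q : Ω) := ⟨Nat.cast_ne_zero.mpr hq.ne_zero⟩
  obtain ⟨ζ, hζ⟩ := HasEnoughRootsOfUnity.exists_primitiveRoot Ω q
  let H : Subgroup GQ := ((A.inertiaSubgroupIn ℚ).map c).comap c
  have hN : H.Normal := (Subgroup.normal_of_isMulCommutative _).comap c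
  have hopen : ∃ F₀ : IntermediateField ℚ Ω, FiniteDimensional ℚ F₀ ∧ F₀.fixingSubgroup ≤ H := by
    refine ⟨IntermediateField.adjoin ℚ {ζ},
      IntermediateField.adjoin.finiteDimensional (Algebra.IsIntegral.isIntegral ζ), fun σ hσ => ?_⟩
    rw [Subgroup.mem_comap, (hc.eq_one_iff hζ σ).mpr
      ((IntermediateField.mem_fixingSubgroup_iff _ σ).mp hσ ζ
        (IntermediateField.mem_adjoin_simple_self ℚ ζ))]
    exact one_mem _
  have htop := FreyReducible.subgroup_eq_top_of_inertia_le H hopen fun l hl => by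
    rcases eq_or_ne l q with rfl | hlq
    · exact ⟨A, hA, fun σ hσ => ⟨σ, hσ, rfl⟩⟩
    · obtain ⟨B, hB⟩ := Frobenius.exists_liesOverPrime Ω hl
      refine ⟨B, hB, fun σ hσ => ?_⟩
      rw [Subgroup.mem_comap, (hc.eq_one_iff hζ σ).mpr (EllLocal.inertia_rootOfUnity hl hB
        (fun h => hlq ((Nat.prime_dvd_prime_iff_eq hl hq).mp h)) hσ hζ.pow_eq_one)]
      exact one_mem _
  obtain ⟨σ₀, hσ₀⟩ := hc.surjective u
  obtain ⟨σ, hσ, hσu⟩ := (Subgroup.mem_comap.mp (htop ▸ Subgroup.mem_top σ₀ : σ₀ ∈ H))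
  exact ⟨σ, hσ, hσu.trans hσ₀⟩

/-- A finite level character of inertia at `q` killed by `q - 1` is trivial on the kernel of the
cyclotomic character. -/
theorem hom_eq_one_of_cyclo_eq_one {G : Type*} [Group G] (hq : q.Prime) (hc : IsCycloMod q c)
    {A : ValuationSubring Ω} (hA : A.LiesOverPrime q) (f : A.inertiaSubgroupIn ℚ →* G)
    (hf : ∃ F₀ : IntermediateField ℚ Ω, FiniteDimensional ℚ F₀ ∧
      ∀ σ : A.inertiaSubgroupIn ℚ, (σ : GQ) ∈ F₀.fixingSubgroup → f σ = 1)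
    (hexp : ∀ σ, f σ ^ (q - 1) = 1) {σ : A.inertiaSubgroupIn ℚ} (hσ : c σ = 1) : f σ = 1 := by
  have : NeZero q := ⟨hq.ne_zero⟩
  have : NeZero (q : Ω) := ⟨Nat.cast_ne_zero.mpr hq.ne_zero⟩
  obtain ⟨ζ, hζ⟩ := HasEnoughRootsOfUnity.exists_primitiveRoot Ω q
  obtain ⟨F₀, hF₀, hf⟩ := hf
  have := hF₀
  have : Fact q.Prime := ⟨hq⟩
  have hfin : FiniteDimensional ℚ (IntermediateField.adjoin ℚ {ζ}) :=
    IntermediateField.adjoin.finiteDimensional (Algebra.IsIntegral.isIntegral ζ)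
  have hcop : (q - 1).Coprime q := by
    have hq1 := hq.one_lt
    exact Nat.Coprime.symm ((Nat.Prime.coprime_iff_not_dvd hq).mpr fun h =>
      absurd (Nat.le_of_dvd (by omega) h) (by omega))
  have hcard : ∀ v : (ZMod q)ˣ, v ^ (q - 1) = 1 := fun v => ZMod.units_pow_card_sub_one_eq_one q v
  obtain ⟨⟨d₀, -, hgen⟩, -⟩ := TameInertia.local_tame_inertia (A.inertiaSubgroupIn ℚ).subtype
    (ρ := f.prod (c.comp (A.inertiaSubgroupIn ℚ).subtype))
    ⟨F₀ ⊔ IntermediateField.adjoin ℚ {ζ}, IntermediateField.finiteDimensional_sup F₀ _,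
      fun d hd => by
        rw [Subgroup.mem_comap, IntermediateField.fixingSubgroup_sup, Subgroup.mem_inf] at hd
        refine Prod.ext (hf d hd.1) ((hc.eq_one_iff hζ _).mpr ?_)
        exact (IntermediateField.mem_fixingSubgroup_iff _ _).mp hd.2 ζ
          (IntermediateField.mem_adjoin_simple_self ℚ ζ)⟩
    hq hA hcop fun d _ => Prod.ext (hexp d) (hcard _)
  obtain ⟨n, hn⟩ := hgen σ σ.2
  have h1 : f σ = f d₀ ^ n := congrArg Prod.fst hn
  have h2 : c σ = c d₀ ^ n := congrArg Prod.snd hn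
  have hord : orderOf (c d₀) = q - 1 := by
    rw [orderOf_eq_card_of_forall_mem_zpowers (g := c d₀) (fun v => ?_), Nat.card_eq_fintype_card,
      ZMod.card_units_eq_totient, Nat.totient_prime hq]
    obtain ⟨τ, hτ, hτv⟩ := exists_inertia_cyclo_eq hq hc hA v
    obtain ⟨i, hi⟩ := hgen ⟨τ, hτ⟩ hτ
    have hi' : c τ = c d₀ ^ i := congrArg Prod.snd hi
    exact ⟨i, by rw [← hτv, hi']; simp⟩
  rw [hσ, eq_comm, ← orderOf_dvd_iff_pow_eq_one, hord] at h2
  obtain ⟨j, rfl⟩ := h2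
  rw [h1, pow_mul, hexp, one_pow]

/-- **The shape of a deformation at a Taylor–Wiles prime.** -/
theorem exists_twPrime_shape {R : Type} [CommRing R] [IsLocalRing R] [IsNoetherianRing R]
    [IsAdicComplete (maximalIdeal R) R] {N : MRep R} (hN : IsCont N) {p : ℕ} (hp : p.Prime)
    (hpR : (p : R) ∈ maximalIdeal R) (hq : q.Prime) (hpq : p ≠ q) (hc : IsCycloMod q c)
    {A : ValuationSubring Ω} (hA : A.LiesOverPrime q)
    (hunr : ∀ σ ∈ A.inertiaSubgroupIn ℚ, (N σ).map (residue R) = 1) {Fr : GQ}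
    (hFr : A.IsFrobeniusAt Fr q) (g₀ : (Matrix (Fin 2) (Fin 2) (ResidueField R))ˣ)
    {α β : ResidueField R} (hne : α ≠ β) (hq1 : α ≠ q * β) (hq2 : β ≠ q * α)
    (h₀ : (N Fr).map (residue R) * g₀.1 = g₀.1 * Matrix.diagonal ![α, β]) :
    ∃ (g : (Matrix (Fin 2) (Fin 2) R)ˣ) (a d : R) (θ₁ θ₂ : (ZMod q)ˣ →* Rˣ),
      residue R a = α ∧ residue R d = β ∧
      g.1.map (residue R) = g₀.1 * Matrix.diagonal ![α - β, β - α] ∧
      N Fr * g.1 = g.1 * Matrix.diagonal ![a, d] ∧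
      (∀ σ ∈ A.inertiaSubgroupIn ℚ,
        N σ * g.1 = g.1 * Matrix.diagonal ![(θ₁ (c σ) : R), (θ₂ (c σ) : R)]) ∧
      (∀ u, residue R (θ₁ u : R) = 1 ∧ residue R (θ₂ u : R) = 1) ∧
      ∀ σ ∈ A.inertiaSubgroupIn ℚ, (N σ).det = (θ₁ (c σ) * θ₂ (c σ) : R) := by
  have hq0 : NeZero q := ⟨hq.ne_zero⟩
  let J := A.inertiaSubgroupIn ℚ
  have hres1 : ∀ σ ∈ J, ∀ a b, (N σ - 1) a b ∈ maximalIdeal R := fun σ hσ a b => by
    rw [← residue_eq_zero_iff, Matrix.sub_apply, map_sub, sub_eq_zero]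
    have := congrFun (congrFun (hunr σ hσ) a) b
    rw [Matrix.map_apply] at this
    rw [this, Matrix.one_apply, Matrix.one_apply]
    split_ifs <;> simp
  obtain ⟨d₀, -, -, hfrob⟩ := TameInertia.exists_tame_generator (MonoidHom.id GQ) N (fun k => by
    obtain ⟨L, hL, h⟩ := hN k
    exact ⟨L, hL, fun σ hσ a b =>
      h σ (fun x hx => (IntermediateField.mem_fixingSubgroup_iff L σ).mp hσ x hx) a b⟩)
    hp hpR hq hpq hA hres1
  have hrel : ∀ s ∈ J, N (Fr * s * Fr⁻¹) = N s ^ q := by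
    intro s hs
    rw [map_mul, map_mul, TameInertia.frobenius_relation (hfrob Fr hFr s hs), mul_assoc, ← map_mul,
      mul_inv_cancel, map_one, mul_one]
  obtain ⟨g, a, d, χ₁, χ₂, ha, hd, hgres, hgF, hgJ, hexp, hone⟩ :=
    exists_diagonal_characters J N Fr hq.pos hunr hrel g₀ hne hq1 hq2 h₀
  have hkill : ∀ σ : J, c σ = 1 → χ₁ σ = 1 ∧ χ₂ σ = 1 := by
    intro σ hσ
    have hlev : ∀ k : ℕ, (χ₁ σ : R) - 1 ∈ maximalIdeal R ^ k ∧ (χ₂ σ : R) - 1 ∈ maximalIdeal R ^ k := by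
      intro k
      let π := Ideal.Quotient.mk (maximalIdeal R ^ k)
      obtain ⟨L, hL, h⟩ := hN k
      have hlevel : ∀ τ : J, (τ : GQ) ∈ L.fixingSubgroup →
          π (χ₁ τ) = 1 ∧ π (χ₂ τ) = 1 := by
        intro τ hτ
        have h1 := h τ fun x hx => (IntermediateField.mem_fixingSubgroup_iff L _).mp hτ x hx
        have h2 : (Matrix.diagonal ![(χ₁ τ : R), (χ₂ τ : R)] - 1) =
            (g⁻¹ : (Matrix (Fin 2) (Fin 2) R)ˣ).1 * (N τ.1 - 1) * g.1 := by
          rw [mul_sub, sub_mul, mul_one, Units.inv_mul, mul_assoc, hgJ τ, ← mul_assoc,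
            Units.inv_mul, one_mul]
        have h3 : ∀ i, (Matrix.diagonal ![(χ₁ τ : R), (χ₂ τ : R)] - 1) i i ∈ maximalIdeal R ^ k := by
          intro i
          rw [h2]
          simp only [Matrix.mul_apply]
          exact Submodule.sum_mem _ fun j _ => Ideal.mul_mem_right _ _
            (Submodule.sum_mem _ fun l _ => Ideal.mul_mem_left _ _ (h1 l j))
        exact ⟨sub_eq_zero.mp (by
            rw [← map_one π, ← map_sub]
            exact Ideal.Quotient.eq_zero_iff_mem.mpr (by simpa using h3 0)),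
          sub_eq_zero.mp (by
            rw [← map_one π, ← map_sub]
            exact Ideal.Quotient.eq_zero_iff_mem.mpr (by simpa using h3 1))⟩
      have e1 := hom_eq_one_of_cyclo_eq_one hq hc hA
        (((Units.map π.toMonoidHom).comp χ₁).prod ((Units.map π.toMonoidHom).comp χ₂))
        ⟨L, hL, fun τ hτ => Prod.ext (Units.ext (hlevel τ hτ).1) (Units.ext (hlevel τ hτ).2)⟩
        (fun τ => Prod.ext (by simp [← map_pow, (hexp τ).1]) (by simp [← map_pow, (hexp τ).2])) hσ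
      have e2 : π (χ₁ σ) = 1 := congrArg (fun x => (x.1 : R ⧸ maximalIdeal R ^ k)) e1
      have e3 : π (χ₂ σ) = 1 := congrArg (fun x => (x.2 : R ⧸ maximalIdeal R ^ k)) e1
      rw [← map_one π, Ideal.Quotient.mk_eq_mk_iff_sub_mem] at e2 e3
      exact ⟨e2, e3⟩
    have hz : ∀ z : R, (∀ k, z - 1 ∈ maximalIdeal R ^ k) → z = 1 := fun z hz => sub_eq_zero.mp
      (IsHausdorff.haus (inferInstance : IsHausdorff (maximalIdeal R) R) _ fun k => by
        rw [SModEq.zero, smul_eq_mul, Ideal.mul_top]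
        exact hz k)
    exact ⟨Units.ext (hz _ fun k => (hlev k).1), Units.ext (hz _ fun k => (hlev k).2)⟩
  have hsurj : Function.Surjective (c.comp J.subtype) := fun u => by
    obtain ⟨σ, hσ, h⟩ := exists_inertia_cyclo_eq hq hc hA u
    exact ⟨⟨σ, hσ⟩, h⟩
  let θ₁ : (ZMod q)ˣ →* Rˣ := (c.comp J.subtype).liftOfRightInverse
    (Function.surjInv hsurj) (Function.rightInverse_surjInv hsurj)
    ⟨χ₁, fun σ hσ => (hkill σ hσ).1⟩
  let θ₂ : (ZMod q)ˣ →* Rˣ := (c.comp J.subtype).liftOfRightInverse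
    (Function.surjInv hsurj) (Function.rightInverse_surjInv hsurj)
    ⟨χ₂, fun σ hσ => (hkill σ hσ).2⟩
  have h1 : ∀ σ : J, θ₁ (c σ) = χ₁ σ := fun σ =>
    MonoidHom.liftOfRightInverse_comp_apply _ _ _ _ σ
  have h2 : ∀ σ : J, θ₂ (c σ) = χ₂ σ := fun σ =>
    MonoidHom.liftOfRightInverse_comp_apply _ _ _ _ σ
  refine ⟨g, a, d, θ₁, θ₂, ha, hd, hgres, hgF, fun σ hσ => ?_, fun u => ?_, fun σ hσ => ?_⟩
  · rw [show c σ = c ((⟨σ, hσ⟩ : J) : GQ) from rfl, h1, h2]
    exact hgJ ⟨σ, hσ⟩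
  · obtain ⟨σ, rfl⟩ := hsurj u
    show residue R (θ₁ (c σ) : R) = 1 ∧ residue R (θ₂ (c σ) : R) = 1
    rw [h1, h2]
    exact hone σ
  · rw [show c σ = c ((⟨σ, hσ⟩ : J) : GQ) from rfl, h1, h2]
    have h := congrArg Matrix.det (hgJ ⟨σ, hσ⟩)
    rw [Matrix.det_mul, Matrix.det_mul, Matrix.det_diagonal, mul_comm g.1.det] at h
    simp only [Fin.prod_univ_two, Matrix.cons_val_zero, Matrix.cons_val_one] at h
    exact ((Matrix.isUnit_iff_isUnit_det _).mp g.isUnit).mul_right_cancel h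

end Fermat.Agent.Deform
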