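import Fermat.Agent.Deform.Conditions
import Fermat.Prelude.Def_GaloisRep_LocalConditions

/-!
# Cyclotomic determinant is a deformation condition

Over an Artinian ring with `p` nilpotent the condition fixes the determinant as a natural number.
-/

set_option autoImplicit false

open IsLocalRing GaloisRep Fermat.Agent.DefRing

namespace Fermat.Agent.Deform

variable {𝒪 : Type} [CommRing 𝒪] [IsLocalRing 𝒪] {p : ℕ}

theorem det_eq_of_isEquiv {A : Type} [CommRing A] [IsLocalRing A] {ρ ρ' : GaloisRepAdic A}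
    (h : ρ.IsEquiv ρ') (σ : GQ) : LinearMap.det (ρ'.ρ σ) = LinearMap.det (ρ.ρ σ) := by
  obtain ⟨g, hg⟩ := (isEquiv_iff_exists_GL (repBasis ρ) (repBasis ρ')).mp h
  rw [det_eq_matrixRep_det, det_eq_matrixRep_det, (conj_det g (hg σ)).1]

theorem det_baseChangeAlong {A B : Type} [CommRing A] [IsLocalRing A] [CommRing B] [IsLocalRing B]
    (φ : A →+* B) (hφ : IsLocalHom φ) (ρ : GaloisRepAdic A) (σ : GQ) :
    LinearMap.det ((ρ.baseChangeAlong φ hφ).ρ σ) = φ (LinearMap.det (ρ.ρ σ)) := by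
  let : Algebra A B := φ.toAlgebra
  exact LinearMap.det_baseChange (ρ.ρ σ)

/-- A primitive description of a level: exponents of roots of unity agree modulo the order. -/
theorem exists_exponent_level (hp : p.Prime) (σ : GQ) (N : ℕ) :
    ∃ a : ℕ, ∀ μ : AlgebraicClosure ℚ, μ ^ p ^ N = 1 → σ μ = μ ^ a := by
  have : NeZero (p ^ N) := ⟨(pow_pos hp.pos N).ne'⟩
  have : NeZero ((p ^ N : ℕ) : AlgebraicClosure ℚ) := NeZero.charZero
  obtain ⟨ζ, hζ⟩ : ∃ ζ : AlgebraicClosure ℚ, IsPrimitiveRoot ζ (p ^ N) := by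
    obtain ⟨ζ, hζ⟩ := IsAlgClosed.exists_root _
      (Polynomial.degree_cyclotomic_pos (p ^ N) (AlgebraicClosure ℚ) (pow_pos hp.pos N)).ne'
    exact ⟨ζ, Polynomial.isRoot_cyclotomic_iff.1 hζ⟩
  have hσζ : (σ ζ) ^ p ^ N = 1 := by rw [← map_pow, hζ.pow_eq_one, map_one]
  obtain ⟨a, -, ha⟩ := hζ.eq_pow_of_pow_eq_one hσζ
  refine ⟨a, fun μ hμ => ?_⟩
  obtain ⟨i, -, rfl⟩ := hζ.eq_pow_of_pow_eq_one hμ
  rw [map_pow, ← ha, ← pow_mul, ← pow_mul, mul_comm]

theorem modEq_of_exponents (hp : p.Prime) {σ : GQ} {n a b : ℕ}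
    (ha : ∀ μ : AlgebraicClosure ℚ, μ ^ p ^ n = 1 → σ μ = μ ^ a)
    (hb : ∀ μ : AlgebraicClosure ℚ, μ ^ p ^ n = 1 → σ μ = μ ^ b) : a ≡ b [MOD p ^ n] := by
  have : NeZero (p ^ n) := ⟨(pow_pos hp.pos n).ne'⟩
  have : NeZero ((p ^ n : ℕ) : AlgebraicClosure ℚ) := NeZero.charZero
  obtain ⟨ζ, hζ⟩ : ∃ ζ : AlgebraicClosure ℚ, IsPrimitiveRoot ζ (p ^ n) := by
    obtain ⟨ζ, hζ⟩ := IsAlgClosed.exists_root _
      (Polynomial.degree_cyclotomic_pos (p ^ n) (AlgebraicClosure ℚ) (pow_pos hp.pos n)).ne'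
    exact ⟨ζ, Polynomial.isRoot_cyclotomic_iff.1 hζ⟩
  have h := (ha ζ hζ.pow_eq_one).symm.trans (hb ζ hζ.pow_eq_one)
  rw [pow_eq_pow_mod a hζ.pow_eq_one, pow_eq_pow_mod b hζ.pow_eq_one] at h
  exact hζ.pow_inj (Nat.mod_lt _ (pow_pos hp.pos n)) (Nat.mod_lt _ (pow_pos hp.pos n)) h

/-- Over a ring in which `p ^ N = 0` only the exponent at level `N` matters. -/
theorem detIsCyclotomic_iff_of_pow_eq_zero (hp : p.Prime) {A : Type} [CommRing A] [IsLocalRing A]
    (hpA : (p : A) ∈ maximalIdeal A) {N : ℕ} (hN : (p : A) ^ N = 0) (ρ : GaloisRepAdic A) :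
    ρ.DetIsCyclotomic p ↔ ∀ (σ : GQ) (a : ℕ),
      (∀ μ : AlgebraicClosure ℚ, μ ^ p ^ N = 1 → σ μ = μ ^ a) →
        LinearMap.det (ρ.ρ σ) = (a : A) := by
  constructor
  · intro h σ a ha
    have h1 := h.2 N σ a ha
    rw [Nat.cast_pow, hN, Ideal.span_singleton_zero, Ideal.mem_bot, sub_eq_zero] at h1
    exact h1
  · intro h
    refine ⟨hpA, fun n σ a ha => ?_⟩
    obtain ⟨b, hb⟩ := exists_exponent_level hp σ (n + N)
    have hbN : ∀ μ : AlgebraicClosure ℚ, μ ^ p ^ N = 1 → σ μ = μ ^ b := fun μ hμ => hb μ (by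
      rw [pow_add, mul_comm, pow_mul, hμ, one_pow])
    have hbn : ∀ μ : AlgebraicClosure ℚ, μ ^ p ^ n = 1 → σ μ = μ ^ b := fun μ hμ => hb μ (by
      rw [pow_add, pow_mul, hμ, one_pow])
    rw [h σ b hbN, Ideal.mem_span_singleton]
    obtain ⟨k, hk⟩ := (modEq_of_exponents hp ha hbn).dvd
    refine ⟨(k : A), ?_⟩
    have h2 := congrArg (Int.cast : ℤ → A) hk
    push_cast at h2 ⊢
    exact h2

/-- Cyclotomic determinant is a deformation condition. -/
theorem isDeformationCondition_detIsCyclotomic (hp : p.Prime) :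
    IsDeformationCondition 𝒪 fun _A _ _ _ ρ => ρ.DetIsCyclotomic p where
  of_isEquiv A _ _ _ _ ρ ρ' h hρ := by
    refine ⟨hρ.1, fun n σ a ha => ?_⟩
    rw [det_eq_of_isEquiv h σ]
    exact hρ.2 n σ a ha
  baseChangeAlong A B _ _ _ _ _ _ _ _ φ hφ ρ hρ := by
    refine ⟨?_, fun n σ a ha => ?_⟩
    · have := mem_pow_of_algHom (φ : A →+* B) hφ (n := 1) (by rw [pow_one]; exact hρ.1)
      simpa using this
    · rw [det_baseChangeAlong]
      have h1 := Ideal.mem_map_of_mem (φ : A →+* B) (hρ.2 n σ a ha)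
      simpa [Ideal.map_span] using h1
  of_baseChangeAlong_injective A B _ _ _ _ _ _ hA hB φ hφ hinj ρ hρ := by
    have := hA.isArtinian
    have := hB.isArtinian
    have hpA : (p : A) ∈ maximalIdeal A := fun hu => hρ.1 (by simpa using hu.map (φ : A →+* B))
    obtain ⟨N, hN⟩ := isNilpotent_maximalIdeal_of_isArtinianRing (A := A)
    have hN' : (p : A) ^ N = 0 := by
      have := Ideal.pow_mem_pow hpA N
      rwa [hN, Ideal.zero_eq_bot, Ideal.mem_bot] at this
    have hNB : (p : B) ^ N = 0 := by simpa using congrArg φ hN'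
    rw [detIsCyclotomic_iff_of_pow_eq_zero hp hpA hN']
    intro σ a ha
    have h1 := (detIsCyclotomic_iff_of_pow_eq_zero hp hρ.1 hNB _).mp hρ σ a ha
    rw [det_baseChangeAlong] at h1
    exact hinj (h1.trans (map_natCast φ a).symm)
  of_fibreProduct A B C P _ _ _ _ _ _ _ _ _ _ _ _ hA hB _ hP f g pA pB hpA hpB _ hinj _ ρ h h' := by
    have := hP.isArtinian
    have hpP : (p : P) ∈ maximalIdeal P := fun hu => h.1 (by simpa using hu.map (pA : P →+* A))
    obtain ⟨N, hN⟩ := isNilpotent_maximalIdeal_of_isArtinianRing (A := P)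
    have hN' : (p : P) ^ N = 0 := by
      have := Ideal.pow_mem_pow hpP N
      rwa [hN, Ideal.zero_eq_bot, Ideal.mem_bot] at this
    rw [detIsCyclotomic_iff_of_pow_eq_zero hp hpP hN']
    intro σ a ha
    have h1 := (detIsCyclotomic_iff_of_pow_eq_zero hp h.1 (by simpa using congrArg pA hN') _).mp
      h σ a ha
    have h2 := (detIsCyclotomic_iff_of_pow_eq_zero hp h'.1 (by simpa using congrArg pB hN') _).mp
      h' σ a ha
    rw [det_baseChangeAlong] at h1 h2
    refine hinj ?_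
    show (pA _, pB _) = (pA _, pB _)
    rw [show pA (LinearMap.det (ρ.ρ σ)) = _ from h1, show pB (LinearMap.det (ρ.ρ σ)) = _ from h2,
      map_natCast, map_natCast]
  iff_forall_surjective A _ _ _ _ _ hl hs ρ := by
    constructor
    · intro hρ B _ _ _ _ q hq _
      refine ⟨?_, fun n σ a ha => ?_⟩
      · have := mem_pow_of_algHom (q : A →+* B) hq (n := 1) (by rw [pow_one]; exact hρ.1)
        simpa using this
      · rw [det_baseChangeAlong]
        have h1 := Ideal.mem_map_of_mem (q : A →+* B) (hρ.2 n σ a ha)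
        simpa [Ideal.map_span] using h1
    · intro h
      have hlev : ∀ k, ∃ (B : Type) (_ : CommRing B) (_ : IsLocalRing B) (_ : Algebra 𝒪 B)
          (q : A →ₐ[𝒪] B) (hq : IsLocalHom (q : A →+* B)),
          Function.Surjective q ∧ (∀ x, q x = 0 ↔ x ∈ maximalIdeal A ^ (k + 1)) ∧
            (ρ.baseChangeAlong (q : A →+* B) hq).DetIsCyclotomic p := by
        intro k
        have : Nontrivial (A ⧸ maximalIdeal A ^ (k + 1)) := Ideal.Quotient.nontrivial_iff.mpr
          fun htop => (maximalIdeal.isMaximal A).ne_top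
            (top_le_iff.mp (htop ▸ Ideal.pow_le_self (by omega)))
        have : IsLocalRing (A ⧸ maximalIdeal A ^ (k + 1)) :=
          IsLocalRing.of_surjective' (Ideal.Quotient.mk _) Ideal.Quotient.mk_surjective
        have hq : IsLocalHom (Ideal.Quotient.mkₐ 𝒪 (maximalIdeal A ^ (k + 1)) :
            A →+* A ⧸ maximalIdeal A ^ (k + 1)) :=
          isLocalHom_of_surjective' _ Ideal.Quotient.mk_surjective
        exact ⟨_, inferInstance, this, inferInstance, Ideal.Quotient.mkₐ 𝒪 _, hq,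
          Ideal.Quotient.mk_surjective, fun x => Ideal.Quotient.eq_zero_iff_mem,
          h (EquationFamily.isArtinianTestAlgebra_quotient_pow hl hs k) _ hq
            Ideal.Quotient.mk_surjective⟩
      refine ⟨fun hu => ?_, fun n σ a ha => ?_⟩
      · obtain ⟨B, _, _, _, q, hq, -, -, hρ⟩ := hlev 0
        exact hρ.1 (by simpa using hu.map (q : A →+* B))
      have hkrull := Ideal.iInf_pow_smul_eq_bot_of_isLocalRing (R := A)
        (M := A ⧸ Ideal.span {((p ^ n : ℕ) : A)}) (maximalIdeal A) (maximalIdeal.isMaximal A).ne_top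
      rw [← Ideal.Quotient.eq_zero_iff_mem, ← Submodule.mem_bot A, ← hkrull, Submodule.mem_iInf]
      intro k
      obtain ⟨B, _, _, _, q, hq, hqs, hker, hρ⟩ := hlev k
      have hq' := hρ.2 n σ a ha
      rw [det_baseChangeAlong, Ideal.mem_span_singleton] at hq'
      obtain ⟨c, hc⟩ := hq'
      obtain ⟨c', rfl⟩ := hqs c
      set y := LinearMap.det (ρ.ρ σ) - (a : A) - ((p ^ n : ℕ) : A) * c'
      have hy : y ∈ maximalIdeal A ^ (k + 1) := by
        rw [← hker]
        simp only [y, map_sub, map_mul, map_natCast]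
        exact sub_eq_zero.mpr hc
      have he : Ideal.Quotient.mk (Ideal.span {((p ^ n : ℕ) : A)})
          (LinearMap.det (ρ.ρ σ) - (a : A)) = y • (1 : A ⧸ Ideal.span {((p ^ n : ℕ) : A)}) := by
        rw [Algebra.smul_def, mul_one]
        refine (Ideal.Quotient.mk_eq_mk_iff_sub_mem _ _).mpr ?_
        rw [show LinearMap.det (ρ.ρ σ) - (a : A) - y = ((p ^ n : ℕ) : A) * c' by simp [y]]
        exact Ideal.mul_mem_right _ _ (Ideal.mem_span_singleton_self _)
      rw [he]
      exact Submodule.smul_mem_smul (Ideal.pow_le_pow_right k.le_succ hy) Submodule.mem_top
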