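import Fermat.Agent.Deform.Functor
import Fermat.Prelude.Thm_IsLocalRing_isAdicComplete_of_module_finite
import Fermat.Prelude.Thm_IsAdicComplete_of_module_finite

/-!
# Representability of point functors
-/

set_option autoImplicit false

open IsLocalRing GaloisRep Fermat.Agent.DefRing

namespace Fermat.Agent.Deform

variable {𝒪 : Type} [CommRing 𝒪] [IsLocalRing 𝒪] {ι : Type}

namespace PointFunctor

/-- A complete Noetherian local algebra carrying the universal point of a point functor. -/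
structure UniversalPoint (F : PointFunctor 𝒪 ι) : Type 1 where
  R : Type
  [instCommRing : CommRing R]
  [instIsLocalRing : IsLocalRing R]
  [instAlgebra : Algebra 𝒪 R]
  [instIsNoetherianRing : IsNoetherianRing R]
  [instIsAdicComplete : IsAdicComplete (maximalIdeal R) R]
  [instIsLocalHom : IsLocalHom (algebraMap 𝒪 R)]
  residue_surjective : Function.Surjective (residue R ∘ algebraMap 𝒪 R)
  finite_quotient : ∀ n : ℕ, Finite (R ⧸ maximalIdeal R ^ n)
  point : ι → R
  residue_point : ∀ i, toResidue instIsLocalHom residue_surjective (point i) = F.base i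
  mem' : F.Mem' point
  topGen : ∀ (r : R) (n : ℕ), ∃ s ∈ Algebra.adjoin 𝒪 (Set.range point), r - s ∈ maximalIdeal R ^ n
  universal : ∀ (A : Type) [CommRing A] [IsLocalRing A] [IsNoetherianRing A]
    [IsAdicComplete (maximalIdeal A) A] [Algebra 𝒪 A] [IsLocalHom (algebraMap 𝒪 A)],
    Function.Surjective (residue A ∘ algebraMap 𝒪 A) → ∀ e : ι → A, F.Mem' e →
      ∃! φ : R →ₐ[𝒪] A, IsLocalHom (φ : R →+* A) ∧ ∀ i, φ (point i) = e i

attribute [instance] UniversalPoint.instCommRing UniversalPoint.instIsLocalRing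
  UniversalPoint.instAlgebra UniversalPoint.instIsNoetherianRing
  UniversalPoint.instIsAdicComplete UniversalPoint.instIsLocalHom

/-- Compatible universal levels covered by a power series ring. -/
structure Levels (F : PointFunctor 𝒪 ι) (σ : Type) : Type 1 where
  lev : ∀ n, F.LevelAlg (n + 2)
  max : ∀ n, ∀ Y : F.LevelAlg (n + 2), Nat.card Y.carrier ≤ Nat.card (lev n).carrier
  trans : ∀ n, (lev (n + 1)).carrier →ₐ[𝒪] (lev n).carrier
  trans_point : ∀ n i, trans n ((lev (n + 1)).point i) = (lev n).point i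
  ψ : ∀ n, MvPowerSeries σ 𝒪 →ₐ[𝒪] (lev n).carrier
  ψ_surjective : ∀ n, Function.Surjective (ψ n)
  trans_ψ : ∀ n, (trans n).comp (ψ (n + 1)) = ψ n

variable [Finite (ResidueField 𝒪)] [IsNoetherianRing 𝒪] {F : PointFunctor 𝒪 ι}

omit [IsNoetherianRing 𝒪] in
theorem mem_pow_of_trans_eq_zero {n : ℕ} (X' : F.LevelAlg (n + 3)) (X : F.LevelAlg (n + 2))
    (hX : ∀ Y : F.LevelAlg (n + 2), Nat.card Y.carrier ≤ Nat.card X.carrier)
    (τ : X'.carrier →ₐ[𝒪] X.carrier) (hτ : ∀ i, τ (X'.point i) = X.point i) {a : X'.carrier}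
    (ha : τ a = 0) : a ∈ maximalIdeal X'.carrier ^ (n + 2) := by
  set I := maximalIdeal X'.carrier ^ (n + 2) with hI
  have := X'.finite
  have hI1 : I ≤ maximalIdeal X'.carrier := Ideal.pow_le_self (by omega)
  have : Nontrivial (X'.carrier ⧸ I) := Ideal.Quotient.nontrivial_iff.mpr fun h =>
    (maximalIdeal.isMaximal X'.carrier).ne_top (top_le_iff.mp (h ▸ hI1))
  have : IsLocalRing (X'.carrier ⧸ I) :=
    IsLocalRing.of_surjective' (Ideal.Quotient.mk I) Ideal.Quotient.mk_surjective
  have : Finite (X'.carrier ⧸ I) := Finite.of_surjective _ Ideal.Quotient.mk_surjective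
  let π : X'.carrier ⧸ I →ₐ[𝒪] ResidueField 𝒪 :=
    Ideal.Quotient.liftₐ I (toResidue X'.test.isLocalHom X'.test.residue_surjective)
      fun x hx => (toResidue_eq_zero_iff _ _).mpr (hI1 hx)
  have hB : IsArtinianTestAlgebra 𝒪 (X'.carrier ⧸ I) := by
    refine isArtinianTestAlgebra_of_toField π fun c hc => ⟨n + 2, ?_⟩
    obtain ⟨x, rfl⟩ := Ideal.Quotient.mk_surjective c
    rw [← map_pow, Ideal.Quotient.eq_zero_iff_mem]
    exact Ideal.pow_mem_pow
      ((toResidue_eq_zero_iff X'.test.isLocalHom X'.test.residue_surjective).mp hc) _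
  have hpow : maximalIdeal (X'.carrier ⧸ I) ^ (n + 2) = ⊥ := by
    rw [← DefRing.map_maximalIdeal_of_surjective _ (Ideal.Quotient.mk_surjective (I := I))]
    exact Ideal.map_quotient_self I
  obtain ⟨g, hg⟩ := LevelAlg.exists_algHom_of_max X hX hB
    (F.map X'.test hB (Ideal.Quotient.mkₐ 𝒪 I) X'.mem) hpow
  have : g.comp τ = Ideal.Quotient.mkₐ 𝒪 I :=
    algHom_eq_of_point X'.gen fun i => by rw [AlgHom.comp_apply, hτ, hg]
  have h0 := DFunLike.congr_fun this a
  rw [AlgHom.comp_apply, ha, map_zero] at h0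
  exact Ideal.Quotient.eq_zero_iff_mem.mp h0.symm

omit [IsNoetherianRing 𝒪] in
theorem exists_lift_psi {σ : Type} [Finite σ] {n : ℕ} (X' : F.LevelAlg (n + 3))
    (X : F.LevelAlg (n + 2))
    (hX : ∀ Y : F.LevelAlg (n + 2), Nat.card Y.carrier ≤ Nat.card X.carrier)
    (τ : X'.carrier →ₐ[𝒪] X.carrier) (hτ : ∀ i, τ (X'.point i) = X.point i)
    (ψ : MvPowerSeries σ 𝒪 →ₐ[𝒪] X.carrier) (hψ : Function.Surjective ψ) :
    ∃ ψ' : MvPowerSeries σ 𝒪 →ₐ[𝒪] X'.carrier, Function.Surjective ψ' ∧ τ.comp ψ' = ψ := by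
  have := X'.test.isArtinian
  have := X.test.isArtinian
  have hτs := surjective_of_point X.gen τ hτ
  have hψl : IsLocalHom (ψ : MvPowerSeries σ 𝒪 →+* X.carrier) := isLocalHom_of_surjective' _ hψ
  have hψm : ∀ i, ψ (MvPowerSeries.X i) ∈ maximalIdeal X.carrier := fun i => by
    simpa using mem_pow_of_algHom (ψ : MvPowerSeries σ 𝒪 →+* X.carrier) hψl
      (n := 1) (by simpa using X_mem_maximalIdeal i)
  choose y hy using fun i => hτs (ψ (MvPowerSeries.X i))
  have hym : ∀ i, y i ∈ maximalIdeal X'.carrier := fun i => (mem_maximalIdeal _).mpr fun hu =>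
    (mem_maximalIdeal _).mp (hψm i) (hy i ▸ hu.map τ)
  have hnil := isNilpotent_maximalIdeal_of_isArtinianRing (A := X'.carrier)
  obtain ⟨ψ', hψ'⟩ := exists_algHom_X_eq (O := 𝒪) hnil y hym
  have hcomp : τ.comp ψ' = ψ := by
    refine algHom_ext_of_X (isNilpotent_maximalIdeal_of_isArtinianRing (A := X.carrier))
      (fun i => ?_) (fun i => ?_)
    · rw [AlgHom.comp_apply, hψ', hy]; exact hψm i
    · rw [AlgHom.comp_apply, hψ', hy]
  refine ⟨ψ', ?_, hcomp⟩
  rw [← AlgHom.range_eq_top]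
  refine subalgebra_eq_top hnil X'.test.residue_surjective _ fun a _ => ?_
  obtain ⟨p, hp⟩ := hψ (τ a)
  refine ⟨ψ' p, ⟨p, rfl⟩, Ideal.pow_le_pow_right (show 2 ≤ n + 2 by omega)
    (mem_pow_of_trans_eq_zero X' X hX τ hτ ?_)⟩
  rw [map_sub, ← AlgHom.comp_apply, hcomp, hp, sub_self]

theorem exists_levels (F : PointFunctor 𝒪 ι) [Finite F.Tangent] :
    Nonempty (Levels F (F.Tangent → ResidueField 𝒪)) := by
  choose lev hmax using fun n => LevelAlg.exists_max (F := F) (n := n + 2) (by omega)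
  have hpow : ∀ n, maximalIdeal (lev n).carrier ^ (n + 3) = ⊥ := fun n => by
    rw [pow_succ, (lev n).pow, Ideal.bot_mul]
  choose trans htrans using fun n =>
    LevelAlg.exists_algHom_of_max (lev (n + 1)) (hmax (n + 1)) (lev n).test (lev n).mem (hpow n)
  obtain ⟨ψ₀, hψ₀⟩ := (lev 0).exists_surjective
  choose next hnext hnext' using fun n ψ hψ =>
    exists_lift_psi (σ := F.Tangent → ResidueField 𝒪) (lev (n + 1)) (lev n) (hmax n)
      (trans n) (htrans n) ψ hψ
  let ψ : ∀ n, {f : MvPowerSeries (F.Tangent → ResidueField 𝒪) 𝒪 →ₐ[𝒪] (lev n).carrier //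
      Function.Surjective f} :=
    fun n => Nat.rec ⟨ψ₀, hψ₀⟩ (fun m f => ⟨next m f.1 f.2, hnext m f.1 f.2⟩) n
  exact ⟨⟨lev, hmax, trans, htrans, fun n => (ψ n).1, fun n => (ψ n).2,
    fun n => hnext' n (ψ n).1 (ψ n).2⟩⟩

namespace Levels

variable {σ : Type} (T : Levels F σ)

omit [Finite (ResidueField 𝒪)] [IsNoetherianRing 𝒪] in
theorem ψ_eq_zero_of_mem_pow {n m : ℕ} (hm : n + 2 ≤ m) {f : MvPowerSeries σ 𝒪}
    (hf : f ∈ maximalIdeal (MvPowerSeries σ 𝒪) ^ m) : T.ψ n f = 0 := by
  have := mem_pow_of_algHom (T.ψ n : MvPowerSeries σ 𝒪 →+* (T.lev n).carrier)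
    (isLocalHom_of_surjective' _ (T.ψ_surjective n)) (Ideal.pow_le_pow_right hm hf)
  rwa [(T.lev n).pow, Ideal.mem_bot] at this

theorem exists_lift_from [Finite σ] [IsAdicComplete (maximalIdeal 𝒪) 𝒪]
    (a : ∀ n, (T.lev n).carrier) (ha : ∀ n, T.trans n (a (n + 1)) = a n) (n : ℕ)
    (q : MvPowerSeries σ 𝒪) (hq : T.ψ n q = a n) :
    ∃ y, (∀ m, T.ψ m y = a m) ∧ y - q ∈ maximalIdeal (MvPowerSeries σ 𝒪) ^ (n + 2) := by
  have : IsAdicComplete (maximalIdeal (MvPowerSeries σ 𝒪)) (MvPowerSeries σ 𝒪) :=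
    isAdicComplete_mvPowerSeries
  have hstep : ∀ m (p : MvPowerSeries σ 𝒪), T.ψ m p = a m → ∃ p', T.ψ (m + 1) p' = a (m + 1) ∧
      p' - p ∈ maximalIdeal (MvPowerSeries σ 𝒪) ^ (m + 2) := by
    intro m p hp
    have h0 : T.trans m (T.ψ (m + 1) p - a (m + 1)) = 0 := by
      rw [map_sub, ← AlgHom.comp_apply, T.trans_ψ, hp, ha, sub_self]
    have h1 := mem_pow_of_trans_eq_zero _ _ (T.max m) (T.trans m) (T.trans_point m) h0
    rw [← DefRing.map_maximalIdeal_of_surjective
      (T.ψ (m + 1) : MvPowerSeries σ 𝒪 →+* (T.lev (m + 1)).carrier) (T.ψ_surjective _)] at h1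
    obtain ⟨e, he, he'⟩ := (Ideal.mem_map_iff_of_surjective
      (T.ψ (m + 1) : MvPowerSeries σ 𝒪 →+* (T.lev (m + 1)).carrier) (T.ψ_surjective _)).mp h1
    replace he' : T.ψ (m + 1) e = T.ψ (m + 1) p - a (m + 1) := he'
    refine ⟨p - e, ?_, by simpa using neg_mem he⟩
    rw [map_sub]
    linear_combination (-1 : (T.lev (m + 1)).carrier) * he'
  choose next hnext hdiff using hstep
  let seq : ∀ i, {p : MvPowerSeries σ 𝒪 // T.ψ (n + i) p = a (n + i)} :=
    fun i => Nat.rec ⟨q, hq⟩ (fun j p => ⟨next (n + j) p.1 p.2, hnext (n + j) p.1 p.2⟩) i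
  have hsucc : ∀ i, (seq (i + 1)).1 - (seq i).1 ∈
      maximalIdeal (MvPowerSeries σ 𝒪) ^ (n + i + 2) := fun i =>
    hdiff (n + i) (seq i).1 (seq i).2
  have hmono : ∀ i j, i ≤ j → (seq j).1 - (seq i).1 ∈
      maximalIdeal (MvPowerSeries σ 𝒪) ^ (n + i + 2) := by
    intro i j hij
    induction j, hij using Nat.le_induction with
    | base => simp
    | succ j hij ih =>
      have := add_mem (Ideal.pow_le_pow_right (show n + i + 2 ≤ n + j + 2 by omega) (hsucc j)) ih
      simpa using this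
  obtain ⟨y, hy⟩ := IsPrecomplete.prec
    (inferInstance : IsPrecomplete (maximalIdeal (MvPowerSeries σ 𝒪)) (MvPowerSeries σ 𝒪))
    (f := fun i => (seq i).1) fun {i j} hij => by
      rw [SModEq.sub_mem, smul_eq_mul, Ideal.mul_top]
      simpa using neg_mem (Ideal.pow_le_pow_right (show i ≤ n + i + 2 by omega) (hmono i j hij))
  have hclose : ∀ i, y - (seq i).1 ∈ maximalIdeal (MvPowerSeries σ 𝒪) ^ (n + i + 2) := by
    intro i
    have h1 := hy (n + i + 2)
    rw [SModEq.sub_mem, smul_eq_mul, Ideal.mul_top] at h1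
    have := sub_mem (hmono i (n + i + 2) (by omega)) h1
    simpa using this
  have hval : ∀ m, n ≤ m → T.ψ m y = a m := by
    intro m hm
    obtain ⟨i, rfl⟩ := Nat.exists_eq_add_of_le hm
    have := T.ψ_eq_zero_of_mem_pow (le_refl (n + i + 2)) (hclose i)
    rwa [map_sub, (seq i).2, sub_eq_zero] at this
  refine ⟨y, fun m => ?_, hclose 0⟩
  obtain ⟨d, hd⟩ : ∃ d, n ≤ m + d := ⟨n, by omega⟩
  induction d generalizing m with
  | zero => exact hval m hd
  | succ d ih =>
    have := ih (m + 1) (by omega)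
    rw [← ha m, ← this, ← AlgHom.comp_apply, T.trans_ψ]

end Levels

variable [IsAdicComplete (maximalIdeal 𝒪) 𝒪]

/-- Representability. -/
theorem nonempty_universalPoint (F : PointFunctor 𝒪 ι) [Finite F.Tangent] :
    Nonempty (UniversalPoint F) := by
  obtain ⟨T⟩ := exists_levels F
  let σ := F.Tangent → ResidueField 𝒪
  let P := MvPowerSeries σ 𝒪
  let J : Ideal P := ⨅ n, RingHom.ker (T.ψ n)
  have hJm : J ≤ maximalIdeal P := (iInf_le _ 0).trans (le_maximalIdeal (RingHom.ker_ne_top _))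
  let R := P ⧸ J
  have : Nontrivial R := Ideal.Quotient.nontrivial_iff.mpr fun h =>
    (maximalIdeal.isMaximal P).ne_top (top_le_iff.mp (h ▸ hJm))
  have hR : IsLocalRing R :=
    IsLocalRing.of_surjective' (Ideal.Quotient.mk J) Ideal.Quotient.mk_surjective
  have hmk : IsLocalHom (Ideal.Quotient.mk J) :=
    isLocalHom_of_surjective' _ Ideal.Quotient.mk_surjective
  have : IsAdicComplete (maximalIdeal P) P := isAdicComplete_mvPowerSeries
  have : IsLocalHom (algebraMap P R) := hmk
  have hcomp : IsAdicComplete (maximalIdeal R) R :=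
    IsLocalRing.isAdicComplete_of_module_finite (𝒪 := P) (T := R)
  let proj : ∀ n, R →ₐ[𝒪] (T.lev n).carrier := fun n =>
    Ideal.Quotient.liftₐ J (T.ψ n) fun _ hf => (Ideal.mem_iInf.mp hf n : _)
  have hproj : ∀ n f, proj n (Ideal.Quotient.mk J f) = T.ψ n f := fun n f => rfl
  have hprojs : ∀ n, Function.Surjective (proj n) := fun n y =>
    ⟨Ideal.Quotient.mk J (T.ψ_surjective n y).choose, (T.ψ_surjective n y).choose_spec⟩
  have hprojl : ∀ n, IsLocalHom (proj n : R →+* (T.lev n).carrier) := fun n =>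
    isLocalHom_of_surjective' _ (hprojs n)
  have hext : ∀ {r r' : R}, (∀ n, proj n r = proj n r') → r = r' := by
    intro r r' h
    obtain ⟨f, rfl⟩ := Ideal.Quotient.mk_surjective r
    obtain ⟨f', rfl⟩ := Ideal.Quotient.mk_surjective r'
    rw [Ideal.Quotient.mk_eq_mk_iff_sub_mem]
    refine Ideal.mem_iInf.mpr fun n => ?_
    rw [RingHom.mem_ker, map_sub, sub_eq_zero]
    exact h n
  have hker : ∀ {n : ℕ} {r : R}, proj n r = 0 → r ∈ maximalIdeal R ^ (n + 2) := by
    intro n r hr
    obtain ⟨f, rfl⟩ := Ideal.Quotient.mk_surjective r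
    obtain ⟨y, hy, hyf⟩ := T.exists_lift_from (fun _ => 0) (fun m => map_zero _) n f hr
    have h1 := mem_pow_of_algHom (Ideal.Quotient.mk J) hmk hyf
    rw [map_sub, (Ideal.Quotient.eq_zero_iff_mem (I := J)).mpr
      (Ideal.mem_iInf.mpr fun m => hy m), zero_sub, neg_mem_iff] at h1
    exact h1
  have htransproj : ∀ n r, T.trans n (proj (n + 1) r) = proj n r := by
    intro n r
    obtain ⟨f, rfl⟩ := Ideal.Quotient.mk_surjective r
    exact DFunLike.congr_fun (T.trans_ψ n) f
  have hlift : ∀ i, ∃ r : R, ∀ n, proj n r = (T.lev n).point i := by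
    intro i
    obtain ⟨q, hq⟩ := T.ψ_surjective 0 ((T.lev 0).point i)
    obtain ⟨y, hy, -⟩ := T.exists_lift_from (fun n => (T.lev n).point i)
      (fun n => T.trans_point n i) 0 q hq
    exact ⟨Ideal.Quotient.mk J y, hy⟩
  choose point hpoint using hlift
  have hres : Function.Surjective (residue R ∘ algebraMap 𝒪 R) := by
    intro y
    obtain ⟨r, rfl⟩ := IsLocalRing.residue_surjective y
    obtain ⟨f, rfl⟩ := Ideal.Quotient.mk_surjective r
    refine ⟨MvPowerSeries.constantCoeff f, (Ideal.Quotient.mk_eq_mk_iff_sub_mem _ _).mpr ?_⟩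
    rw [show algebraMap 𝒪 R (MvPowerSeries.constantCoeff f) =
      Ideal.Quotient.mk J (algebraMap 𝒪 P (MvPowerSeries.constantCoeff f)) from rfl, ← map_sub]
    have h : algebraMap 𝒪 P (MvPowerSeries.constantCoeff f) - f ∈ maximalIdeal P ^ 1 := by
      rw [pow_one, mem_maximalIdeal_iff_constantCoeff, MvPowerSeries.algebraMap_apply, map_sub,
        MvPowerSeries.constantCoeff_C]
      simp
    simpa using mem_pow_of_algHom (Ideal.Quotient.mk J) hmk h
  have hloc : IsLocalHom (algebraMap 𝒪 R) :=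
    ⟨fun o ho => (T.lev 0).test.isLocalHom.map_nonunit o (by simpa using ho.map (proj 0))⟩
  have hdense : ∀ (r : R) (n : ℕ),
      ∃ s ∈ Algebra.adjoin 𝒪 (Set.range point), r - s ∈ maximalIdeal R ^ n := by
    intro r n
    have h : proj n r ∈ (Algebra.adjoin 𝒪 (Set.range point)).map (proj n) := by
      rw [AlgHom.map_adjoin, show proj n '' Set.range point = Set.range (T.lev n).point by
        rw [← Set.range_comp]; exact congrArg Set.range (funext fun i => hpoint i n), (T.lev n).gen]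
      exact Algebra.mem_top
    obtain ⟨s, hs, hsr⟩ := h
    refine ⟨s, hs, Ideal.pow_le_pow_right (show n ≤ n + 2 by omega) (hker ?_)⟩
    rw [map_sub, sub_eq_zero]
    exact hsr.symm
  refine ⟨{
    R := R
    instIsLocalHom := hloc
    residue_surjective := hres
    finite_quotient := fun n => by
      have := finite_quotient_pow_maximalIdeal (O := 𝒪) (σ := σ) n
      refine Finite.of_surjective (Ideal.quotientMap (maximalIdeal R ^ n) (Ideal.Quotient.mk J)
        fun f hf => mem_pow_of_algHom (Ideal.Quotient.mk J) hmk hf) ?_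
      intro y
      obtain ⟨r, rfl⟩ := Ideal.Quotient.mk_surjective y
      obtain ⟨f, rfl⟩ := Ideal.Quotient.mk_surjective r
      exact ⟨Ideal.Quotient.mk _ f, rfl⟩
    point := point
    residue_point := fun i => by
      rw [← toResidue_comp hloc hres (T.lev 0).test.isLocalHom (T.lev 0).test.residue_surjective
        (proj 0) (hprojl 0), AlgHom.comp_apply, hpoint, F.residue_eq (T.lev 0).test (T.lev 0).mem]
    mem' := ?_
    topGen := hdense
    universal := ?_ }⟩
  · intro B _ _ _ hB q hq hqs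
    have := hB.isArtinian
    obtain ⟨N, hN⟩ := isNilpotent_maximalIdeal_of_isArtinianRing (A := B)
    obtain ⟨θ, hθ⟩ := exists_comp_eq (hprojs N) q fun r hr => by
      have h1 := mem_pow_of_algHom (q : R →+* B) hq
        (Ideal.pow_le_pow_right (show N ≤ N + 2 by omega) (hker hr))
      rw [hN, Ideal.zero_eq_bot, Ideal.mem_bot] at h1
      exact h1
    have := F.map (T.lev N).test hB θ (T.lev N).mem
    convert this using 2 with i
    rw [← hθ, AlgHom.comp_apply, hpoint]
  · intro A _ _ _ _ _ hlA hsA e he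
    have hfinres : Finite (A ⧸ maximalIdeal A) := by
      refine Finite.of_surjective
        (fun x : ResidueField 𝒪 => ResidueField.map (algebraMap 𝒪 A) x) fun y => ?_
      obtain ⟨x, rfl⟩ := hsA y
      exact ⟨residue 𝒪 x, ResidueField.map_residue _ x⟩
    have hI1 : ∀ n, maximalIdeal A ^ (n + 2) ≤ maximalIdeal A := fun n =>
      Ideal.pow_le_self (by omega)
    have hnt : ∀ n, Nontrivial (A ⧸ maximalIdeal A ^ (n + 2)) := fun n =>
      Ideal.Quotient.nontrivial_iff.mpr fun h =>
        (maximalIdeal.isMaximal A).ne_top (top_le_iff.mp (h ▸ hI1 n))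
    have hlr : ∀ n, IsLocalRing (A ⧸ maximalIdeal A ^ (n + 2)) := fun n =>
      IsLocalRing.of_surjective' (Ideal.Quotient.mk _) Ideal.Quotient.mk_surjective
    have hmkA : ∀ n, IsLocalHom (Ideal.Quotient.mkₐ 𝒪 (maximalIdeal A ^ (n + 2)) :
        A →+* A ⧸ maximalIdeal A ^ (n + 2)) := fun n =>
      isLocalHom_of_surjective' _ Ideal.Quotient.mk_surjective
    have hB : ∀ n, IsArtinianTestAlgebra 𝒪 (A ⧸ maximalIdeal A ^ (n + 2)) := by
      intro n
      have := Ideal.finite_quotient_pow (IsNoetherian.noetherian (maximalIdeal A)) (n + 2)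
      let π : A ⧸ maximalIdeal A ^ (n + 2) →ₐ[𝒪] ResidueField 𝒪 :=
        Ideal.Quotient.liftₐ _ (toResidue hlA hsA)
          fun x hx => (toResidue_eq_zero_iff hlA hsA).mpr (hI1 n hx)
      refine isArtinianTestAlgebra_of_toField π fun c hc => ⟨n + 2, ?_⟩
      obtain ⟨x, rfl⟩ := Ideal.Quotient.mk_surjective c
      rw [← map_pow, Ideal.Quotient.eq_zero_iff_mem]
      exact Ideal.pow_mem_pow ((toResidue_eq_zero_iff hlA hsA).mp hc) _
    have hpow : ∀ n, maximalIdeal (A ⧸ maximalIdeal A ^ (n + 2)) ^ (n + 2) = ⊥ := fun n => by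
      rw [← DefRing.map_maximalIdeal_of_surjective (Ideal.Quotient.mk (maximalIdeal A ^ (n + 2)))
        Ideal.Quotient.mk_surjective]
      exact Ideal.map_quotient_self _
    choose g hg using fun n => LevelAlg.exists_algHom_of_max (T.lev n) (T.max n) (hB n)
      (he (hB n) (Ideal.Quotient.mkₐ 𝒪 _) (hmkA n) Ideal.Quotient.mk_surjective) (hpow n)
    have hcompat : ∀ n, (Ideal.Quotient.factorₐ 𝒪
        (Ideal.pow_le_pow_right (I := maximalIdeal A) (show n + 2 ≤ n + 3 by omega))).comp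
          (g (n + 1)) = (g n).comp (T.trans n) := by
      intro n
      refine algHom_eq_of_point (T.lev (n + 1)).gen fun i => ?_
      rw [AlgHom.comp_apply, AlgHom.comp_apply, hg, T.trans_point, hg]
      rfl
    let f : ∀ n, R →ₐ[𝒪] A ⧸ maximalIdeal A ^ (n + 2) := fun n => (g n).comp (proj n)
    have hf : ∀ {m n : ℕ} (hle : m ≤ n),
        (Ideal.Quotient.factorPow (maximalIdeal A) (show m + 2 ≤ n + 2 by omega)).comp
          (f n : R →+* A ⧸ maximalIdeal A ^ (n + 2)) =
            (f m : R →+* A ⧸ maximalIdeal A ^ (m + 2)) := by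
      intro m n hle
      induction n, hle using Nat.le_induction with
      | base =>
        refine RingHom.ext fun r => ?_
        show Ideal.Quotient.factor (le_refl (maximalIdeal A ^ (m + 2))) (f m r) = f m r
        obtain ⟨c, hc⟩ := Ideal.Quotient.mk_surjective (f m r)
        rw [← hc, Ideal.Quotient.factor_mk]
      | succ n hle ih =>
        rw [← ih]
        refine RingHom.ext fun r => ?_
        have h := DFunLike.congr_fun (hcompat n) (proj (n + 1) r)
        rw [AlgHom.comp_apply, AlgHom.comp_apply, htransproj] at h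
        show Ideal.Quotient.factor (Ideal.pow_le_pow_right (show m + 2 ≤ n + 1 + 2 by omega))
          (g (n + 1) (proj (n + 1) r)) = Ideal.Quotient.factor
            (Ideal.pow_le_pow_right (show m + 2 ≤ n + 2 by omega)) (g n (proj n r))
        rw [← h]
        exact (Ideal.Quotient.factor_comp_apply
          (Ideal.pow_le_pow_right (I := maximalIdeal A) (show n + 2 ≤ n + 3 by omega))
          (Ideal.pow_le_pow_right (show m + 2 ≤ n + 2 by omega)) _).symm
    have ha : StrictMono fun n : ℕ => n + 2 := fun a b hab => by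
      show a + 2 < b + 2; omega
    let φ₀ := IsAdicComplete.StrictMono.liftRingHom (maximalIdeal A) ha
      (fun n => (f n : R →+* A ⧸ maximalIdeal A ^ (n + 2))) (fun {m} => hf m.le_succ)
    have hφ₀ : ∀ n r, Ideal.Quotient.mk (maximalIdeal A ^ (n + 2)) (φ₀ r) = f n r :=
      fun n r => IsAdicComplete.StrictMono.mk_liftRingHom (maximalIdeal A) ha _ _ r
    have hzero : ∀ {z : A}, (∀ n, Ideal.Quotient.mk (maximalIdeal A ^ (n + 2)) z = 0) → z = 0 := by
      intro z hz
      refine IsHausdorff.haus (inferInstance : IsHausdorff (maximalIdeal A) A) _ fun n => ?_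
      rw [SModEq.zero, smul_eq_mul, Ideal.mul_top]
      exact Ideal.pow_le_pow_right (show n ≤ n + 2 by omega)
        (Ideal.Quotient.eq_zero_iff_mem.mp (hz n))
    let φ : R →ₐ[𝒪] A :=
      { φ₀ with
        commutes' := fun o => sub_eq_zero.mp (hzero fun n => by
          show Ideal.Quotient.mk _ (φ₀ (algebraMap 𝒪 R o) - algebraMap 𝒪 A o) = 0
          rw [map_sub, hφ₀, AlgHom.commutes, sub_eq_zero]
          rfl) }
    refine ⟨φ, ⟨⟨fun r hr => ?_⟩, fun i => sub_eq_zero.mp (hzero fun n => ?_)⟩, ?_⟩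
    · have h0 : IsUnit (f 0 r) := by
        rw [← hφ₀]
        exact hr.map _
      have := (T.lev 0).test.isArtinian
      have hl := isLocalHom_of_isArtinianRing
        (g 0 : (T.lev 0).carrier →+* A ⧸ maximalIdeal A ^ (0 + 2))
      exact (hprojl 0).map_nonunit r (hl.map_nonunit _ h0)
    · show Ideal.Quotient.mk _ (φ₀ (point i) - e i) = 0
      rw [map_sub, hφ₀, sub_eq_zero]
      show g n (proj n (point i)) = _
      rw [hpoint, hg]
      rfl
    · rintro φ' ⟨hφ', hφ'e⟩
      refine AlgHom.ext fun r => sub_eq_zero.mp (hzero fun n => ?_)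
      obtain ⟨s, hs, hsr⟩ := hdense r (n + 2)
      have heq : φ' s = φ s := by
        refine (AlgHom.eqOn_adjoin_iff.mpr ?_) hs
        rintro _ ⟨i, rfl⟩
        rw [hφ'e]
        refine (sub_eq_zero.mp (hzero fun m => ?_)).symm
        show Ideal.Quotient.mk _ (φ₀ (point i) - e i) = 0
        rw [map_sub, hφ₀, sub_eq_zero]
        show g m (proj m (point i)) = _
        rw [hpoint, hg]
        rfl
      have h1 := mem_pow_of_algHom (φ' : R →+* A) hφ' hsr
      have h2 : φ (r - s) ∈ maximalIdeal A ^ (n + 2) := by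
        rw [← Ideal.Quotient.eq_zero_iff_mem]
        refine (hφ₀ n _).trans ?_
        have h3 := mem_pow_of_algHom (proj n : R →+* (T.lev n).carrier) (hprojl n) hsr
        rw [(T.lev n).pow, Ideal.mem_bot] at h3
        show g n (proj n _) = 0
        exact (congrArg (g n) h3).trans (map_zero _)
      rw [Ideal.Quotient.eq_zero_iff_mem]
      have h4 : φ' r - φ r = φ' (r - s) - φ (r - s) := by rw [map_sub, map_sub, heq]; ring
      rw [h4]
      exact sub_mem h1 h2

end PointFunctor

end Fermat.Agent.Deform
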