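import Fermat.Agent.DefRing.Universal
import Fermat.Agent.Deform.Universal
import Fermat.Agent.Chebotarev.Main

/-!
# Normal lifts are determined by their traces

Over any local ring (residue characteristic `2` allowed) two normal lifts with the same traces
are equal. Consequently deformation rings are topologically generated by traces, and by traces
of Frobenius elements outside any finite set of primes.
-/

set_option autoImplicit false

open IsLocalRing GaloisRep Fermat.Agent.DefRing

namespace Fermat.Agent.Deform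

variable {𝒪 : Type} [CommRing 𝒪] [IsLocalRing 𝒪]
variable {A : Type} [CommRing A] [IsLocalRing A] [Algebra 𝒪 A]

omit [IsLocalRing A] [IsLocalRing 𝒪] in
/-- The change of coefficients `𝒪[G] → A[G]`. -/
theorem exists_coeffMap (_N : MRep A) (z : MonoidAlgebra 𝒪 GQ) :
    ∃ x : MonoidAlgebra A GQ, ∀ (M : MRep A),
      MonoidAlgebra.lift A (Matrix (Fin 2) (Fin 2) A) GQ M x = evRep M z := by
  refine ⟨MonoidAlgebra.lift 𝒪 (MonoidAlgebra A GQ) GQ (MonoidAlgebra.of A GQ) z, fun M => ?_⟩
  induction z using MonoidAlgebra.induction_linear with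
  | zero => simp
  | add x y hx hy => simp [hx, hy]
  | single σ a =>
    simp only [evRep, MonoidAlgebra.lift_single, MonoidAlgebra.of_apply]
    rw [← algebraMap_smul A a, map_smul, MonoidAlgebra.lift_single, one_smul, algebraMap_smul]

variable {D : NormalData 𝒪} {hl : IsLocalHom (algebraMap 𝒪 A)}
  {hs : Function.Surjective (residue A ∘ algebraMap 𝒪 A)}

/-- A lift of a spanning representation spans. -/
theorem lift_surjective_of_reduces
    (hspan : Submodule.span (ResidueField 𝒪) (Set.range D.rbar) = ⊤) {N : MRep A}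
    (hN : D.Reduces hl hs N) :
    Function.Surjective (MonoidAlgebra.lift A (Matrix (Fin 2) (Fin 2) A) GQ N) := by
  set S := (MonoidAlgebra.lift A (Matrix (Fin 2) (Fin 2) A) GQ N).range.toSubmodule with hS
  have hmem : ∀ σ, N σ ∈ S := fun σ => ⟨MonoidAlgebra.of A GQ σ, MonoidAlgebra.lift_of N σ⟩
  have hsurj : Function.Surjective (evRep (𝒪 := 𝒪) D.rbar) :=
    evRep_surjective_of_span_eq_top Ideal.Quotient.mk_surjective hspan
  suffices h : (⊤ : Submodule A (Matrix (Fin 2) (Fin 2) A)) ≤ S from fun M => h Submodule.mem_top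
  refine Submodule.le_of_le_smul_of_le_jacobson_bot (Module.Finite.fg_top)
    (maximalIdeal_le_jacobson ⊥) fun M _ => ?_
  obtain ⟨z, hz⟩ := hsurj (M.map (toResidue hl hs))
  obtain ⟨x, hx⟩ := exists_coeffMap N z
  have h1 : evRep N z ∈ S := ⟨x, hx N⟩
  have h2 : M - evRep N z ∈ (maximalIdeal A) • (⊤ : Submodule A (Matrix (Fin 2) (Fin 2) A)) := by
    rw [Matrix.matrix_eq_sum_single (M - evRep N z)]
    refine sum_mem fun i _ => sum_mem fun j _ => ?_
    rw [← mul_one ((M - evRep N z) i j), ← smul_eq_mul, ← Matrix.smul_single]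
    refine Submodule.smul_mem_smul ((toResidue_eq_zero_iff hl hs).mp ?_) Submodule.mem_top
    rw [Matrix.sub_apply, map_sub, hN.evRep_map, hz, Matrix.map_apply, sub_self]
  rw [← add_sub_cancel (evRep N z) M]
  exact add_mem (Submodule.mem_sup_left h1) (Submodule.mem_sup_right h2)

/-- Normal lifts with the same traces are equal. -/
theorem eq_of_trace_eq (hspan : Submodule.span (ResidueField 𝒪) (Set.range D.rbar) = ⊤)
    {N N' : MRep A} (hN : D.IsNormal N) (hN' : D.IsNormal N') (rN : D.Reduces hl hs N)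
    (rN' : D.Reduces hl hs N') (htr : ∀ σ, Matrix.trace (N σ) = Matrix.trace (N' σ)) :
    N = N' := by
  let L := MonoidAlgebra.lift A (Matrix (Fin 2) (Fin 2) A) GQ N
  let L' := MonoidAlgebra.lift A (Matrix (Fin 2) (Fin 2) A) GQ N'
  have hsurj : Function.Surjective L' := lift_surjective_of_reduces hspan rN'
  have htr' : ∀ x, Matrix.trace (L x) = Matrix.trace (L' x) := by
    intro x
    induction x using MonoidAlgebra.induction_linear with
    | zero => simp
    | add x y hx hy => simp [hx, hy]
    | single σ a => simp [L, L', htr σ]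
  have hzero : ∀ x, L x = 0 → L' x = 0 := by
    intro x hx
    ext i j
    obtain ⟨y, hy⟩ := hsurj (Matrix.single j i 1)
    have := htr' (x * y)
    rw [map_mul, map_mul, hx, zero_mul, Matrix.trace_zero, hy, Matrix.trace_mul_single] at this
    simpa using this.symm
  obtain ⟨U, hU⟩ := exists_coeffMap N D.u
  obtain ⟨W, hW⟩ := exists_coeffMap N D.w
  have col : ∀ x i, L x i 0 = L' x i 0 := by
    have hcol0 : ∀ x, (∀ i, L x i 0 = 0) → ∀ i, L' x i 0 = 0 := by
      intro x hx i
      have h1 : L (x * (U - algebraMap A _ (evRep N D.u 1 1))) = 0 := by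
        rw [map_mul, map_sub, AlgHom.commutes, show L U = evRep N D.u from hU N]
        ext a b
        fin_cases b <;>
          simp [Matrix.mul_apply, Fin.sum_univ_two, hx a, hN.1, Matrix.algebraMap_matrix_apply]
      have h2 := congrFun (congrFun (hzero _ h1) i) 0
      rw [map_mul, map_sub, AlgHom.commutes, show L' U = evRep N' D.u from hU N'] at h2
      simp [Matrix.mul_apply, Fin.sum_univ_two, hN'.1, Matrix.algebraMap_matrix_apply] at h2
      have hu : IsUnit (evRep N' D.u 0 0 - evRep N D.u 1 1) := by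
        refine notMem_maximalIdeal.mp fun hm => ?_
        rw [← toResidue_eq_zero_iff hl hs, map_sub, rN.evRep_map, rN'.evRep_map, D.u_spec] at hm
        simp at hm
      exact (hu.mul_left_eq_zero).mp h2
    intro x
    have key : ∀ (M : MRep A), D.IsNormal M → ∀ (α β : A) (i : Fin 2),
        MonoidAlgebra.lift A (Matrix (Fin 2) (Fin 2) A) GQ M
          (x - algebraMap A _ α - algebraMap A _ β * W) i 0 =
        MonoidAlgebra.lift A (Matrix (Fin 2) (Fin 2) A) GQ M x i 0 - ![α, β] i := by
      intro M hM α β i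
      rw [map_sub, map_sub, map_mul, AlgHom.commutes, AlgHom.commutes, hW M]
      fin_cases i <;>
        simp [Matrix.mul_apply, hM.2.1, hM.2.2, Matrix.algebraMap_matrix_apply]
    have h0 := hcol0 (x - algebraMap A _ (L x 0 0) - algebraMap A _ (L x 1 0) * W) fun i => by
      rw [key N hN]
      fin_cases i <;> simp [L]
    intro i
    have := h0 i
    rw [key N' hN'] at this
    rw [sub_eq_zero] at this
    change L' x i 0 = _ at this
    rw [this]
    fin_cases i <;> rfl
  refine MonoidHom.ext fun σ => Matrix.ext fun i j => ?_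
  have hσ : L (MonoidAlgebra.of A GQ σ) = N σ := MonoidAlgebra.lift_of N σ
  have hσ' : L' (MonoidAlgebra.of A GQ σ) = N' σ := MonoidAlgebra.lift_of N' σ
  fin_cases j
  · have := col (MonoidAlgebra.of A GQ σ) i
    rw [hσ, hσ'] at this
    exact this
  · have := col (MonoidAlgebra.of A GQ σ * W) i
    rw [map_mul, map_mul, hσ, hσ', show L W = evRep N D.w from hW N,
      show L' W = evRep N' D.w from hW N'] at this
    simp [Matrix.mul_apply, Fin.sum_univ_two, hN.2.1, hN.2.2, hN'.2.1, hN'.2.2] at this
    exact this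

omit [IsLocalRing 𝒪] [Algebra 𝒪 A] in
/-- A continuous lift over an Artinian ring takes all its values on Frobenius elements outside
any finite set. -/
theorem exists_frobenius_eq [IsArtinianRing A] {N : MRep A} (hN : IsCont N) (S : Finset ℕ)
    (σ : GQ) :
    ∃ σ' ∈ {τ : GQ | ∃ ℓ : ℕ, ℓ.Prime ∧ ℓ ∉ S ∧ ∃ P : ValuationSubring (AlgebraicClosure ℚ),
      P.LiesOverPrime ℓ ∧ P.IsFrobeniusAt τ ℓ}, N σ' = N σ := by
  obtain ⟨L, hL, h1⟩ := hN.finite_level
  obtain ⟨ℓ, hℓ, hℓS, P, hP, τ, hτ, hτL⟩ :=
    Fermat.Agent.Chebotarev.exists_isFrobeniusAt_eqOn L σ S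
  refine ⟨τ, ⟨ℓ, hℓ, hℓS, P, hP, hτ⟩, ?_⟩
  have := h1 (σ⁻¹ * τ) fun x hx => by
    rw [AlgEquiv.mul_apply, hτL x hx]
    exact σ.symm_apply_apply x
  calc N τ = N (σ * (σ⁻¹ * τ)) := by rw [mul_inv_cancel_left]
    _ = N σ := by rw [map_mul, this, mul_one]

end Fermat.Agent.Deform
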