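import Fermat.Agent.DefRing.Levels
import Fermat.Prelude.Def_GaloisRep_DeformationCondition
import Fermat.Prelude.Def_GaloisRep_LocalConditions
import Mathlib.LinearAlgebra.Matrix.Charpoly.Coeff
import Mathlib.LinearAlgebra.Charpoly.ToMatrix

/-!
# Equational deformation conditions

A family of natural, conjugation-equivariant matrix valued functions of a representation cuts out
a deformation condition by its vanishing. Unramifiedness, prescribed determinant, unipotence on
inertia and all relations in the group algebra are of this shape.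
-/

set_option autoImplicit false

open IsLocalRing GaloisRep Fermat.Agent.DefRing

namespace Fermat.Agent.Deform

variable {𝒪 : Type} [CommRing 𝒪]

/-- Natural equivariant matrix functions of representations. -/
structure EquationFamily (𝒪 : Type) [CommRing 𝒪] (κ : Type) where
  /-- the functions -/
  val : κ → ∀ ⦃A : Type⦄ [CommRing A] [Algebra 𝒪 A], MRep A → Matrix (Fin 2) (Fin 2) A
  natural : ∀ (i : κ) ⦃A B : Type⦄ [CommRing A] [Algebra 𝒪 A] [CommRing B] [Algebra 𝒪 B]
    (φ : A →ₐ[𝒪] B) (N : MRep A), (val i N).map φ = val i (mapRep (φ : A →+* B) N)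
  equivariant : ∀ (i : κ) ⦃A : Type⦄ [CommRing A] [Algebra 𝒪 A] (N N' : MRep A)
    (g : (Matrix (Fin 2) (Fin 2) A)ˣ),
    (∀ σ, (g : Matrix (Fin 2) (Fin 2) A) * N σ = N' σ * g) →
      (g : Matrix (Fin 2) (Fin 2) A) * val i N = val i N' * g

namespace EquationFamily

variable {κ : Type} (Φ : EquationFamily 𝒪 κ)

/-- The condition cut out by a family. -/
def condition : ∀ ⦃A : Type⦄ [CommRing A] [IsLocalRing A] [Algebra 𝒪 A], GaloisRepAdic A → Prop :=
  fun _A _ _ _ ρ => ∀ i, Φ.val i (matrixRep ρ (repBasis ρ)) = 0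

theorem condition_iff {A : Type} [CommRing A] [IsLocalRing A] [Algebra 𝒪 A]
    {ρ : GaloisRepAdic A} {N : MRep A} {hc : IsCont N} (h : ρ.IsEquiv (toAdic N hc)) :
    Φ.condition ρ ↔ ∀ i, Φ.val i N = 0 := by
  obtain ⟨g, hg⟩ := (isEquiv_iff_exists_GL (repBasis ρ) (toAdicBasis N hc)).mp h
  rw [matrixRep_toAdic] at hg
  refine forall_congr' fun i => ?_
  have h1 := Φ.equivariant i _ _ g hg
  constructor
  · intro h0
    rw [h0, mul_zero] at h1
    exact g.isUnit.mul_left_eq_zero.mp h1.symm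
  · intro h0
    rw [h0, zero_mul] at h1
    exact g.isUnit.mul_right_eq_zero.mp h1

theorem condition_baseChangeAlong_iff {A B : Type} [CommRing A] [IsLocalRing A] [Algebra 𝒪 A]
    [CommRing B] [IsLocalRing B] [Algebra 𝒪 B] (φ : A →ₐ[𝒪] B)
    (hφ : IsLocalHom (φ : A →+* B)) (ρ : GaloisRepAdic A) :
    Φ.condition (ρ.baseChangeAlong (φ : A →+* B) hφ) ↔
      ∀ i, (Φ.val i (matrixRep ρ (repBasis ρ))).map φ = 0 := by
  rw [Φ.condition_iff (baseChangeAlong_isEquiv_of_isEquiv_toAdic (isCont_matrixRep ρ _)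
    (isEquiv_toAdic_matrixRep ρ (repBasis ρ) rfl _) _ hφ)]
  simp only [Φ.natural]

theorem isArtinianTestAlgebra_quotient_pow [IsLocalRing 𝒪] {A : Type} [CommRing A] [IsLocalRing A]
    [IsNoetherianRing A] [Algebra 𝒪 A] (hl : IsLocalHom (algebraMap 𝒪 A))
    (hs : Function.Surjective (residue A ∘ algebraMap 𝒪 A)) (n : ℕ)
    [IsLocalRing (A ⧸ maximalIdeal A ^ (n + 1))] :
    IsArtinianTestAlgebra 𝒪 (A ⧸ maximalIdeal A ^ (n + 1)) := by
  have hq := isLocalHom_of_surjective' (Ideal.Quotient.mk (maximalIdeal A ^ (n + 1)))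
    Ideal.Quotient.mk_surjective
  refine ⟨⟨fun o ho => hl.map_nonunit o (hq.map_nonunit _ ho)⟩, fun y => ?_, ?_⟩
  · obtain ⟨z, rfl⟩ := IsLocalRing.residue_surjective y
    obtain ⟨a, rfl⟩ := Ideal.Quotient.mk_surjective z
    obtain ⟨o, ho⟩ := exists_algebraMap_add_mem hs a
    refine ⟨o, (Ideal.Quotient.mk_eq_mk_iff_sub_mem _ _).mpr ?_⟩
    intro hu
    rw [show algebraMap 𝒪 (A ⧸ maximalIdeal A ^ (n + 1)) o =
      Ideal.Quotient.mk _ (algebraMap 𝒪 A o) from rfl, ← map_sub] at hu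
    exact (by simpa using neg_mem ho : algebraMap 𝒪 A o - a ∈ maximalIdeal A)
      (hq.map_nonunit _ hu)
  · rw [isArtinianRing_iff_isNilpotent_maximalIdeal]
    refine ⟨n + 1, ?_⟩
    rw [← DefRing.map_maximalIdeal_of_surjective _ (Ideal.Quotient.mk_surjective)]
    exact Ideal.map_quotient_self _

theorem isDeformationCondition [IsLocalRing 𝒪] : IsDeformationCondition 𝒪 Φ.condition where
  of_isEquiv A _ _ _ _ ρ ρ' h hρ := by
    have e := isEquiv_trans h
      (isEquiv_toAdic_matrixRep ρ' (repBasis ρ') rfl (isCont_matrixRep ρ' _))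
    exact (Φ.condition_iff e).mp hρ
  baseChangeAlong A B _ _ _ _ _ _ _ _ φ hφ ρ hρ := by
    rw [Φ.condition_baseChangeAlong_iff φ hφ]
    intro i
    rw [hρ i, Matrix.map_zero _ (map_zero φ)]
  of_baseChangeAlong_injective A B _ _ _ _ _ _ _ _ φ hφ hinj ρ hρ := by
    rw [Φ.condition_baseChangeAlong_iff φ hφ] at hρ
    intro i
    exact Matrix.map_injective hinj ((hρ i).trans (Matrix.map_zero _ (map_zero φ)).symm)
  of_fibreProduct A B C P _ _ _ _ _ _ _ _ _ _ _ _ _ _ _ _ f g pA pB hpA hpB _ hinj _ ρ hA hB := by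
    rw [Φ.condition_baseChangeAlong_iff pA hpA] at hA
    rw [Φ.condition_baseChangeAlong_iff pB hpB] at hB
    intro i
    refine Matrix.ext fun a b => hinj ?_
    have h1 := congrFun (congrFun (hA i) a) b
    have h2 := congrFun (congrFun (hB i) a) b
    simp only [Matrix.map_apply, Matrix.zero_apply] at h1 h2 ⊢
    rw [h1, h2, map_zero, map_zero]
  iff_forall_surjective A _ _ _ _ _ hl hs ρ := by
    constructor
    · intro hρ B _ _ _ _ q hq _
      rw [Φ.condition_baseChangeAlong_iff q hq]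
      intro i
      rw [hρ i, Matrix.map_zero _ (map_zero q)]
    · intro h i
      ext a b
      refine IsHausdorff.haus (inferInstance : IsHausdorff (maximalIdeal A) A) _ fun n => ?_
      rw [SModEq.zero, smul_eq_mul, Ideal.mul_top]
      have : Nontrivial (A ⧸ maximalIdeal A ^ (n + 1)) := Ideal.Quotient.nontrivial_iff.mpr
        fun htop => (maximalIdeal.isMaximal A).ne_top
          (top_le_iff.mp (htop ▸ Ideal.pow_le_self (by omega)))
      have : IsLocalRing (A ⧸ maximalIdeal A ^ (n + 1)) :=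
        IsLocalRing.of_surjective' (Ideal.Quotient.mk _) Ideal.Quotient.mk_surjective
      have hq : IsLocalHom (Ideal.Quotient.mkₐ 𝒪 (maximalIdeal A ^ (n + 1)) :
          A →+* A ⧸ maximalIdeal A ^ (n + 1)) :=
        isLocalHom_of_surjective' _ Ideal.Quotient.mk_surjective
      have h1 := h (isArtinianTestAlgebra_quotient_pow hl hs n) (Ideal.Quotient.mkₐ 𝒪 _) hq
        Ideal.Quotient.mk_surjective
      rw [Φ.condition_baseChangeAlong_iff _ hq] at h1
      exact Ideal.pow_le_pow_right (show n ≤ n + 1 by omega)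
        (Ideal.Quotient.eq_zero_iff_mem.mp (congrFun (congrFun (h1 i) a) b))

end EquationFamily

/-- Conjunction of deformation conditions. -/
theorem isDeformationCondition_and [IsLocalRing 𝒪]
    {𝒟₁ 𝒟₂ : ∀ ⦃A : Type⦄ [CommRing A] [IsLocalRing A] [Algebra 𝒪 A], GaloisRepAdic A → Prop}
    (h₁ : IsDeformationCondition 𝒪 𝒟₁) (h₂ : IsDeformationCondition 𝒪 𝒟₂) :
    IsDeformationCondition 𝒪 fun _A _ _ _ ρ => 𝒟₁ ρ ∧ 𝒟₂ ρ where
  of_isEquiv _ _ _ _ hA _ _ h hρ := ⟨h₁.of_isEquiv hA h hρ.1, h₂.of_isEquiv hA h hρ.2⟩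
  baseChangeAlong _ _ _ _ _ _ _ _ hA hB φ hφ _ hρ :=
    ⟨h₁.baseChangeAlong hA hB φ hφ hρ.1, h₂.baseChangeAlong hA hB φ hφ hρ.2⟩
  of_baseChangeAlong_injective _ _ _ _ _ _ _ _ hA hB φ hφ hinj _ hρ :=
    ⟨h₁.of_baseChangeAlong_injective hA hB φ hφ hinj hρ.1,
      h₂.of_baseChangeAlong_injective hA hB φ hφ hinj hρ.2⟩
  of_fibreProduct _ _ _ _ _ _ _ _ _ _ _ _ _ _ _ _ hA hB hC hP f g pA pB hpA hpB hc hi hs _ a b :=
    ⟨h₁.of_fibreProduct hA hB hC hP f g pA pB hpA hpB hc hi hs a.1 b.1,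
      h₂.of_fibreProduct hA hB hC hP f g pA pB hpA hpB hc hi hs a.2 b.2⟩
  iff_forall_surjective _ _ _ _ _ _ hl hs ρ := by
    rw [h₁.iff_forall_surjective hl hs ρ, h₂.iff_forall_surjective hl hs ρ]
    exact ⟨fun h _ _ _ _ hB q hq hqs => ⟨h.1 hB q hq hqs, h.2 hB q hq hqs⟩,
      fun h => ⟨fun _ _ _ _ hB q hq hqs => (h hB q hq hqs).1,
        fun _ _ _ _ hB q hq hqs => (h hB q hq hqs).2⟩⟩

/-- Conditions with the same content are interchangeable. -/
theorem isDeformationCondition_congr [IsLocalRing 𝒪]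
    {𝒟₁ 𝒟₂ : ∀ ⦃A : Type⦄ [CommRing A] [IsLocalRing A] [Algebra 𝒪 A], GaloisRepAdic A → Prop}
    (h₁ : IsDeformationCondition 𝒪 𝒟₁)
    (h : ∀ ⦃A : Type⦄ [CommRing A] [IsLocalRing A] [Algebra 𝒪 A] (ρ : GaloisRepAdic A),
      𝒟₁ ρ ↔ 𝒟₂ ρ) : IsDeformationCondition 𝒪 𝒟₂ := by
  have : @𝒟₁ = @𝒟₂ := by
    funext A i₁ i₂ i₃ ρ
    exact propext (h ρ)
  exact this ▸ h₁

section Examples

theorem conj_det {A : Type} [CommRing A] (g : (Matrix (Fin 2) (Fin 2) A)ˣ)
    {X Y : Matrix (Fin 2) (Fin 2) A} (h : (g : Matrix (Fin 2) (Fin 2) A) * X = Y * g) :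
    X.det = Y.det ∧ X.trace = Y.trace := by
  have hY : Y = (g : Matrix (Fin 2) (Fin 2) A) * X * (↑g⁻¹ : Matrix (Fin 2) (Fin 2) A) := by
    rw [h, mul_assoc, Units.mul_inv, mul_one]
  rw [hY, Matrix.det_units_conj, Matrix.trace_units_conj]
  exact ⟨rfl, rfl⟩

/-- The vanishing of a set of group algebra elements. -/
noncomputable def groupAlgebraFamily (Z : Set (MonoidAlgebra 𝒪 GQ)) : EquationFamily 𝒪 Z where
  val z _A _ _ N := evRep N (z : MonoidAlgebra 𝒪 GQ)
  natural _ _ _ _ _ _ _ φ N := map_evRep φ N _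
  equivariant _ _ _ _ _ _ _ h := evRep_conj _ h _

/-- Prescribed determinant on a set of elements. -/
noncomputable def detFamily (S : Set GQ) (ψ : GQ → 𝒪) : EquationFamily 𝒪 S where
  val σ A _ _ N := Matrix.scalar (Fin 2) ((N σ.1).det - algebraMap 𝒪 A (ψ σ.1))
  natural σ A B _ _ _ _ φ N := by
    rw [Matrix.scalar_apply, Matrix.scalar_apply, Matrix.diagonal_map (map_zero φ), map_sub,
      AlgHom.commutes, AlgHom.map_det]
    rfl
  equivariant σ A _ _ N N' g h := by
    rw [(conj_det g (h σ.1)).1]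
    exact ((Matrix.scalar_commute _ (fun r => Commute.all _ _) _).eq).symm

/-- Prescribed trace on a set of elements. -/
noncomputable def traceFamily (S : Set GQ) (ψ : GQ → 𝒪) : EquationFamily 𝒪 S where
  val σ A _ _ N := Matrix.scalar (Fin 2) ((N σ.1).trace - algebraMap 𝒪 A (ψ σ.1))
  natural σ A B _ _ _ _ φ N := by
    rw [Matrix.scalar_apply, Matrix.scalar_apply, Matrix.diagonal_map (map_zero φ), map_sub,
      AlgHom.commutes]
    simp [Matrix.trace, Fin.sum_univ_two]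
  equivariant σ A _ _ N N' g h := by
    rw [(conj_det g (h σ.1)).2]
    exact ((Matrix.scalar_commute _ (fun r => Commute.all _ _) _).eq).symm

/-- The elements of a set act trivially. -/
theorem condition_fixing_iff (S : Set GQ) {A : Type} [CommRing A] [IsLocalRing A] [Algebra 𝒪 A]
    (ρ : GaloisRepAdic A) :
    (groupAlgebraFamily ((fun σ => MonoidAlgebra.of 𝒪 GQ σ - 1) '' S)).condition ρ ↔
      ∀ σ ∈ S, ρ.ρ σ = 1 := by
  constructor
  · intro h σ hσ
    have h1 := h ⟨_, σ, hσ, rfl⟩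
    simp only [groupAlgebraFamily, map_sub, map_one, evRep_of, sub_eq_zero, matrixRep_apply] at h1
    exact (LinearMap.toMatrix (repBasis ρ) (repBasis ρ)).injective
      (h1.trans (LinearMap.toMatrix_one _).symm)
  · rintro h ⟨_, σ, hσ, rfl⟩
    simp only [groupAlgebraFamily, map_sub, map_one, evRep_of, sub_eq_zero, matrixRep_apply, h σ hσ]
    exact LinearMap.toMatrix_one _

theorem det_eq_matrixRep_det {A : Type} [CommRing A] [IsLocalRing A] (ρ : GaloisRepAdic A)
    (σ : GQ) : LinearMap.det (ρ.ρ σ) = (matrixRep ρ (repBasis ρ) σ).det :=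
  (LinearMap.det_toMatrix (repBasis ρ) (ρ.ρ σ)).symm

variable [IsLocalRing 𝒪]

/-- Unramified outside a set is a deformation condition. -/
theorem isDeformationCondition_unramifiedOutside (S : Set ℕ) :
    IsDeformationCondition 𝒪 fun _A _ _ _ ρ => ∀ q : ℕ, q.Prime → q ∉ S → ρ.IsUnramifiedAt q := by
  refine isDeformationCondition_congr (groupAlgebraFamily ((fun σ => MonoidAlgebra.of 𝒪 GQ σ - 1) ''
    {σ : GQ | ∃ q : ℕ, q.Prime ∧ q ∉ S ∧ ∃ P : ValuationSubring (AlgebraicClosure ℚ),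
      P.LiesOverPrime q ∧ σ ∈ P.inertiaSubgroupIn ℚ})).isDeformationCondition fun A _ _ _ ρ => ?_
  rw [condition_fixing_iff]
  exact ⟨fun h q hq hqS P hP σ hσ => h σ ⟨q, hq, hqS, P, hP, hσ⟩,
    fun h σ ⟨q, hq, hqS, P, hP, hσ⟩ => h q hq hqS P hP σ hσ⟩

/-- Unipotence on inertia at `q` is a deformation condition. -/
theorem isDeformationCondition_unipotentOnInertia (q : ℕ) :
    IsDeformationCondition 𝒪 fun _A _ _ _ ρ => ρ.IsUnipotentOnInertiaAt q := by
  let S : Set GQ := {σ : GQ | ∃ P : ValuationSubring (AlgebraicClosure ℚ),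
      P.LiesOverPrime q ∧ σ ∈ P.inertiaSubgroupIn ℚ}
  refine isDeformationCondition_congr (isDeformationCondition_and
    (detFamily S fun _ => (1 : 𝒪)).isDeformationCondition
    (traceFamily S fun _ => (2 : 𝒪)).isDeformationCondition) fun A _ _ _ ρ => ?_
  have key : ∀ σ, LinearMap.charpoly (ρ.ρ σ) = (Polynomial.X - 1) ^ 2 ↔
      ((matrixRep ρ (repBasis ρ) σ).det = 1 ∧ (matrixRep ρ (repBasis ρ) σ).trace = 2) := by
    intro σ
    rw [← LinearMap.charpoly_toMatrix (ρ.ρ σ) (repBasis ρ), ← matrixRep_apply,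
      Matrix.charpoly_fin_two]
    generalize matrixRep ρ (repBasis ρ) σ = X
    constructor
    · intro h
      have h1 := congrArg (fun p => Polynomial.coeff p 0) h
      have h2 := congrArg (fun p => Polynomial.coeff p 1) h
      simp [pow_two, sub_mul, mul_sub, Polynomial.coeff_X, Polynomial.coeff_C,
        Polynomial.coeff_one] at h1 h2
      exact ⟨h1, by linear_combination (-1 : A) * h2⟩
    · rintro ⟨hd, ht⟩
      rw [hd, ht, map_one, map_ofNat]
      ring
  constructor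
  · rintro ⟨hd, ht⟩ P hP σ hσ
    have h1 := congrFun (congrFun (hd ⟨σ, P, hP, hσ⟩) 0) 0
    have h2 := congrFun (congrFun (ht ⟨σ, P, hP, hσ⟩) 0) 0
    simp only [detFamily, traceFamily, Matrix.scalar_apply, Matrix.diagonal_apply_eq,
      Matrix.zero_apply, sub_eq_zero, map_one, map_ofNat] at h1 h2
    exact (key σ).mpr ⟨h1, h2⟩
  · intro h
    refine ⟨fun ⟨σ, P, hP, hσ⟩ => ?_, fun ⟨σ, P, hP, hσ⟩ => ?_⟩
    · show Matrix.scalar (Fin 2) _ = 0
      rw [((key σ).mp (h P hP σ hσ)).1, map_one, sub_self, map_zero]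
    · show Matrix.scalar (Fin 2) _ = 0
      rw [((key σ).mp (h P hP σ hσ)).2, map_ofNat, sub_self, map_zero]

end Examples

end Fermat.Agent.Deform
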