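import Fermat.Agent.Deform.Universal
import Fermat.Agent.Deform.Conditions
import Fermat.Agent.GalCoh.Levels

/-!
# Constructions of point functors

The free functor on given residual coordinates, closed conditions on coordinates (natural
equations, finite level, pull back along natural maps) and their intersection. The meaning of each
over a complete Noetherian ring is computed.
-/

set_option autoImplicit false

open IsLocalRing GaloisRep Fermat.Agent.DefRing

namespace Fermat.Agent.Deform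

variable (𝒪 : Type) [CommRing 𝒪] [IsLocalRing 𝒪]

/-- Natural maps of coordinate vectors. -/
structure CoordMap (ι κ : Type) where
  /-- the map -/
  val : ∀ ⦃A : Type⦄ [CommRing A] [Algebra 𝒪 A], (ι → A) → κ → A
  natural : ∀ ⦃A B : Type⦄ [CommRing A] [Algebra 𝒪 A] [CommRing B] [Algebra 𝒪 B]
    (φ : A →ₐ[𝒪] B) (e : ι → A) (j : κ), φ (val e j) = val (fun i => φ (e i)) j

/-- A condition on coordinate vectors over test algebras, stable under maps, descending along
injections and fibre products. -/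
structure Closed (ι : Type) where
  /-- the condition -/
  mem : ∀ ⦃A : Type⦄ [CommRing A] [IsLocalRing A] [Algebra 𝒪 A], (ι → A) → Prop
  map : ∀ ⦃A B : Type⦄ [CommRing A] [IsLocalRing A] [Algebra 𝒪 A] [CommRing B] [IsLocalRing B]
    [Algebra 𝒪 B], IsArtinianTestAlgebra 𝒪 A → IsArtinianTestAlgebra 𝒪 B →
      ∀ (φ : A →ₐ[𝒪] B) ⦃e : ι → A⦄, mem e → mem (fun i => φ (e i))
  descend : ∀ ⦃A B : Type⦄ [CommRing A] [IsLocalRing A] [Algebra 𝒪 A] [CommRing B] [IsLocalRing B]
    [Algebra 𝒪 B], IsArtinianTestAlgebra 𝒪 A → IsArtinianTestAlgebra 𝒪 B →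
      ∀ (φ : A →ₐ[𝒪] B), Function.Injective φ → ∀ ⦃e : ι → A⦄,
        mem (fun i => φ (e i)) → mem e
  fibre : ∀ ⦃A B C P : Type⦄ [CommRing A] [IsLocalRing A] [Algebra 𝒪 A]
    [CommRing B] [IsLocalRing B] [Algebra 𝒪 B] [CommRing C] [IsLocalRing C] [Algebra 𝒪 C]
    [CommRing P] [IsLocalRing P] [Algebra 𝒪 P],
    IsArtinianTestAlgebra 𝒪 A → IsArtinianTestAlgebra 𝒪 B → IsArtinianTestAlgebra 𝒪 C →
    IsArtinianTestAlgebra 𝒪 P →
    ∀ (f : A →ₐ[𝒪] C) (g : B →ₐ[𝒪] C) (pA : P →ₐ[𝒪] A) (pB : P →ₐ[𝒪] B),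
      f.comp pA = g.comp pB →
      Function.Injective (fun x => (pA x, pB x)) →
      (∀ a b, f a = g b → ∃ x, pA x = a ∧ pB x = b) →
      ∀ ⦃e : ι → P⦄, mem (fun i => pA (e i)) → mem (fun i => pB (e i)) → mem e

variable {𝒪} {ι κ : Type}

namespace Closed

/-- Every Artinian quotient satisfies the condition. -/
def Mem' (C : Closed 𝒪 ι) {A : Type} [CommRing A] [IsLocalRing A] [Algebra 𝒪 A]
    (e : ι → A) : Prop :=
  ∀ ⦃B : Type⦄ [CommRing B] [IsLocalRing B] [Algebra 𝒪 B], IsArtinianTestAlgebra 𝒪 B →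
    ∀ q : A →ₐ[𝒪] B, IsLocalHom (q : A →+* B) → Function.Surjective q →
      C.mem (fun i => q (e i))

/-- Conjunction of a family. -/
def iInter {α : Type} (C : α → Closed 𝒪 ι) : Closed 𝒪 ι where
  mem _A _ _ _ e := ∀ a, (C a).mem e
  map _ _ _ _ _ _ _ _ hA hB φ _ h a := (C a).map hA hB φ (h a)
  descend _ _ _ _ _ _ _ _ hA hB φ hi _ h a := (C a).descend hA hB φ hi (h a)
  fibre _ _ _ _ _ _ _ _ _ _ _ _ _ _ _ _ hA hB hC hP f g pA pB hc hi hs _ x y a :=
    (C a).fibre hA hB hC hP f g pA pB hc hi hs (x a) (y a)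

/-- Pull back along a natural map of coordinates. -/
def comap (C : Closed 𝒪 κ) (t : CoordMap 𝒪 ι κ) : Closed 𝒪 ι where
  mem _A _ _ _ e := C.mem (t.val e)
  map A B _ _ _ _ _ _ hA hB φ e h := by
    have := C.map hA hB φ h
    simpa only [t.natural] using this
  descend A B _ _ _ _ _ _ hA hB φ hi e h := by
    refine C.descend hA hB φ hi ?_
    simpa only [t.natural] using h
  fibre A B C' P _ _ _ _ _ _ _ _ _ _ _ _ hA hB hC hP f g pA pB hc hi hs e a b := by
    refine C.fibre hA hB hC hP f g pA pB hc hi hs ?_ ?_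
    · simpa only [t.natural] using a
    · simpa only [t.natural] using b

/-- Vanishing of natural functions. -/
def equations (t : CoordMap 𝒪 ι κ) : Closed 𝒪 ι where
  mem _A _ _ _ e := ∀ j, t.val e j = 0
  map A B _ _ _ _ _ _ _ _ φ e h j := by
    rw [← t.natural φ e j, h, map_zero]
  descend A B _ _ _ _ _ _ _ _ φ hi e h j := hi (by rw [t.natural φ e j, h, map_zero])
  fibre A B C P _ _ _ _ _ _ _ _ _ _ _ _ _ _ _ _ f g pA pB _ hi _ e a b j :=
    hi (Prod.ext (show pA _ = pA 0 by rw [t.natural pA e j, a, map_zero])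
      (show pB _ = pB 0 by rw [t.natural pB e j, b, map_zero]))

section Meaning

variable {A : Type} [CommRing A] [IsLocalRing A] [IsNoetherianRing A] [Algebra 𝒪 A]

omit [IsLocalRing 𝒪] [IsNoetherianRing A] in
theorem mem'_iInter {α : Type} {C : α → Closed 𝒪 ι} {e : ι → A} :
    (iInter C).Mem' e ↔ ∀ a, (C a).Mem' e :=
  ⟨fun h a _ _ _ _ hB q hq hs => h hB q hq hs a, fun h _ _ _ _ hB q hq hs a => h a hB q hq hs⟩

omit [IsLocalRing 𝒪] [IsNoetherianRing A] in
theorem mem'_comap {C : Closed 𝒪 κ} {t : CoordMap 𝒪 ι κ} {e : ι → A} :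
    (C.comap t).Mem' e ↔ C.Mem' (t.val e) := by
  refine ⟨fun h B _ _ _ hB q hq hs => ?_, fun h B _ _ _ hB q hq hs => ?_⟩
  · simpa only [comap, t.natural] using h hB q hq hs
  · have := h hB q hq hs
    simpa only [comap, t.natural] using this

omit [IsNoetherianRing A] in
/-- A statement about Artinian quotients holds at every level of the maximal ideal. -/
theorem exists_quotient_level [IsNoetherianRing A] (hl : IsLocalHom (algebraMap 𝒪 A))
    (hs : Function.Surjective (residue A ∘ algebraMap 𝒪 A)) (n : ℕ) :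
    ∃ (B : Type) (_ : CommRing B) (_ : IsLocalRing B) (_ : Algebra 𝒪 B) (q : A →ₐ[𝒪] B),
      IsArtinianTestAlgebra 𝒪 B ∧ IsLocalHom (q : A →+* B) ∧ Function.Surjective q ∧
        ∀ a, q a = 0 ↔ a ∈ maximalIdeal A ^ (n + 1) := by
  have : Nontrivial (A ⧸ maximalIdeal A ^ (n + 1)) := Ideal.Quotient.nontrivial_iff.mpr
    fun htop => (maximalIdeal.isMaximal A).ne_top
      (top_le_iff.mp (htop ▸ Ideal.pow_le_self (by omega)))
  have : IsLocalRing (A ⧸ maximalIdeal A ^ (n + 1)) :=
    IsLocalRing.of_surjective' (Ideal.Quotient.mk _) Ideal.Quotient.mk_surjective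
  exact ⟨_, inferInstance, this, inferInstance, Ideal.Quotient.mkₐ 𝒪 _,
    EquationFamily.isArtinianTestAlgebra_quotient_pow hl hs n,
    isLocalHom_of_surjective' _ Ideal.Quotient.mk_surjective, Ideal.Quotient.mk_surjective,
    fun a => Ideal.Quotient.eq_zero_iff_mem⟩

theorem mem'_equations [IsAdicComplete (maximalIdeal A) A] (hl : IsLocalHom (algebraMap 𝒪 A))
    (hs : Function.Surjective (residue A ∘ algebraMap 𝒪 A)) {t : CoordMap 𝒪 ι κ} {e : ι → A} :
    (equations t).Mem' e ↔ ∀ j, t.val e j = 0 := by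
  refine ⟨fun h j => ?_, fun h B _ _ _ hB q hq _ j => by rw [← t.natural q e j, h, map_zero]⟩
  refine IsHausdorff.haus (inferInstance : IsHausdorff (maximalIdeal A) A) _ fun n => ?_
  rw [SModEq.zero, smul_eq_mul, Ideal.mul_top]
  obtain ⟨B, _, _, _, q, hB, hq, hqs, hker⟩ := exists_quotient_level hl hs n
  have h1 := h hB q hq hqs j
  rw [← t.natural q e j, hker] at h1
  exact Ideal.pow_le_pow_right (show n ≤ n + 1 by omega) h1

end Meaning

end Closed

namespace PointFunctor

/-- All coordinate vectors with the given residual coordinates. -/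
def free (b : ι → ResidueField 𝒪) : PointFunctor 𝒪 ι where
  mem A _ _ _ e := ∀ i o, residue 𝒪 o = b i → e i - algebraMap 𝒪 A o ∈ maximalIdeal A
  base := b
  mem_base i o ho := by
    rw [← ho, show algebraMap 𝒪 (ResidueField 𝒪) o = residue 𝒪 o from rfl, sub_self]
    exact zero_mem _
  residue_eq A _ _ _ hA e h i := by
    obtain ⟨o, ho⟩ := residue_surjective (b i)
    have h1 := (toResidue_eq_zero_iff hA.isLocalHom hA.residue_surjective).mpr (h i o ho)
    rw [map_sub, sub_eq_zero, AlgHom.commutes] at h1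
    rw [h1, ← ho]
    rfl
  map A B _ _ _ _ _ _ hA _ φ e h i o ho := by
    have := hA.isArtinian
    have hφ : IsLocalHom (φ : A →+* B) := isLocalHom_of_isArtinianRing _
    have h1 := mem_pow_of_algHom (n := 1) (φ : A →+* B) hφ (by rw [pow_one]; exact h i o ho)
    rw [pow_one] at h1
    simpa using h1
  descend A B _ _ _ _ _ _ _ _ φ _ e h i o ho := fun hu => h i o ho (by
    have := hu.map φ
    simpa using this)
  fibre A B C P _ _ _ _ _ _ _ _ _ _ _ _ _ _ _ _ f g pA pB _ _ _ e a _ i o ho := fun hu => a i o ho (by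
    have := hu.map pA
    simpa using this)

/-- Imposing a closed condition. -/
def inter (F : PointFunctor 𝒪 ι) (C : Closed 𝒪 ι) (h : C.mem F.base) : PointFunctor 𝒪 ι where
  mem _A _ _ _ e := F.mem e ∧ C.mem e
  base := F.base
  mem_base := ⟨F.mem_base, h⟩
  residue_eq _ _ _ _ hA _ h := F.residue_eq hA h.1
  map _ _ _ _ _ _ _ _ hA hB φ _ h := ⟨F.map hA hB φ h.1, C.map hA hB φ h.2⟩
  descend _ _ _ _ _ _ _ _ hA hB φ hi _ h := ⟨F.descend hA hB φ hi h.1, C.descend hA hB φ hi h.2⟩
  fibre _ _ _ _ _ _ _ _ _ _ _ _ _ _ _ _ hA hB hC hP f g pA pB hc hi hs _ a b :=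
    ⟨F.fibre hA hB hC hP f g pA pB hc hi hs a.1 b.1, C.fibre hA hB hC hP f g pA pB hc hi hs a.2 b.2⟩

/-- The points of the free functor over a complete ring have the given residual coordinates. -/
theorem mem'_free {b : ι → ResidueField 𝒪} {A : Type} [CommRing A] [IsLocalRing A] [Algebra 𝒪 A]
    (hl : IsLocalHom (algebraMap 𝒪 A)) (hs : Function.Surjective (residue A ∘ algebraMap 𝒪 A))
    {e : ι → A} :
    (free b).Mem' e ↔ ∀ i, toResidue hl hs (e i) = b i := by
  refine ⟨fun h i => ?_, fun h B _ _ _ hB q hq _ i o ho => ?_⟩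
  · have hk : IsArtinianTestAlgebra 𝒪 (ResidueField 𝒪) :=
      ⟨inferInstanceAs (IsLocalHom (residue 𝒪)), fun y => by
        obtain ⟨z, rfl⟩ := IsLocalRing.residue_surjective y
        obtain ⟨o, rfl⟩ := IsLocalRing.residue_surjective z
        exact ⟨o, rfl⟩, inferInstance⟩
    have hsurj : Function.Surjective (toResidue hl hs) := fun z => by
      obtain ⟨o, rfl⟩ := IsLocalRing.residue_surjective z
      exact ⟨algebraMap 𝒪 A o, AlgHom.commutes _ o⟩
    obtain ⟨o, ho⟩ := residue_surjective (b i)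
    have h1 := h hk (toResidue hl hs) (isLocalHom_of_surjective' _ hsurj) hsurj i o ho
    rw [← ho]
    exact sub_eq_zero.mp (by
      by_contra h0
      exact h1 (isUnit_iff_ne_zero.mpr h0))
  · have h1 : e i - algebraMap 𝒪 A o ∈ maximalIdeal A ^ 1 := by
      rw [pow_one, ← toResidue_eq_zero_iff hl hs, map_sub, AlgHom.commutes, h i, sub_eq_zero]
      exact ho.symm
    have := mem_pow_of_algHom (q : A →+* B) hq h1
    simpa using this

theorem mem'_inter {F : PointFunctor 𝒪 ι} {C : Closed 𝒪 ι} {h : C.mem F.base} {A : Type}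
    [CommRing A] [IsLocalRing A] [Algebra 𝒪 A] {e : ι → A} :
    (F.inter C h).Mem' e ↔ F.Mem' e ∧ C.Mem' e :=
  ⟨fun h' => ⟨fun _ _ _ _ hB q hq hs => (h' hB q hq hs).1,
    fun _ _ _ _ hB q hq hs => (h' hB q hq hs).2⟩,
   fun h' _ _ _ _ hB q hq hs => ⟨h'.1 hB q hq hs, h'.2 hB q hq hs⟩⟩

end PointFunctor

end Fermat.Agent.Deform
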