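import Fermat.Agent.DefRing.NormalForm
import Fermat.Prelude.Def_GaloisRep_DeformationRingData

/-!
# Residual equivalence in matrices, and descent to the ring with small residue field
-/

set_option autoImplicit false

open IsLocalRing GaloisRep Fermat.Agent.DefRing

namespace Fermat.Agent.Deform

variable {𝒪 : Type} [CommRing 𝒪] [IsLocalRing 𝒪]
  {ρbar : ResidualGaloisRep (ResidueField 𝒪)}
  (b : Module.Basis (Fin 2) (ResidueField 𝒪) ρbar.V) {D : NormalData 𝒪}
  {A : Type} [CommRing A] [IsLocalRing A] [Algebra 𝒪 A] [hl : IsLocalHom (algebraMap 𝒪 A)]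

theorem isCont_conj {M N : MRep A} (hM : IsCont M) (G : (Matrix (Fin 2) (Fin 2) A)ˣ)
    (h : ∀ σ, (G : Matrix (Fin 2) (Fin 2) A) * M σ = N σ * G) : IsCont N := by
  intro n
  obtain ⟨L, hL, h1⟩ := hM n
  refine ⟨L, hL, fun σ hσ i j => ?_⟩
  have : N σ - 1 = (G : Matrix (Fin 2) (Fin 2) A) * (M σ - 1) *
      (↑G⁻¹ : Matrix (Fin 2) (Fin 2) A) := by
    rw [mul_sub, sub_mul, h σ, mul_one, mul_assoc, Units.mul_inv, mul_one]
  rw [this, Matrix.mul_apply]
  refine Ideal.sum_mem _ fun l _ => Ideal.mul_mem_right _ _ ?_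
  rw [Matrix.mul_apply]
  exact Ideal.sum_mem _ fun m _ => Ideal.mul_mem_left _ _ (h1 σ hσ m l)

/-- Every deformation has a normal matrix form. -/
theorem exists_normal_of_residual [HenselianRing A (maximalIdeal A)]
    (hD : ∀ σ, D.rbar σ = LinearMap.toMatrix b b (ρbar.ρ σ))
    (hs : Function.Surjective (residue A ∘ algebraMap 𝒪 A)) (ρ : GaloisRepAdic A)
    (h : ρ.residual.IsEquiv (ρbar.baseChangeAlong (ResidueField.map (algebraMap 𝒪 A)))) :
    ∃ (N : MRep A) (hc : IsCont N), D.IsNormal N ∧ D.Reduces hl hs N ∧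
      ρ.IsEquiv (toAdic N hc) := by
  obtain ⟨g, hg⟩ := (residual_isEquiv_baseChangeAlong_iff ρ (repBasis ρ) ρbar b _).mp h
  let ψ := ResidueField.map (algebraMap 𝒪 A)
  have hψs : Function.Surjective ψ := fun y => by
    obtain ⟨x, rfl⟩ := hs y
    exact ⟨residue 𝒪 x, ResidueField.map_residue _ x⟩
  obtain ⟨g₁, hg₁⟩ : ∃ g₁ : Matrix (Fin 2) (Fin 2) (ResidueField 𝒪),
      g₁.map ψ = (g : Matrix (Fin 2) (Fin 2) (ResidueField A)) :=
    ⟨(g : Matrix (Fin 2) (Fin 2) (ResidueField A)).map (Function.surjInv hψs),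
      Matrix.ext fun i j => Function.surjInv_eq hψs _⟩
  have hu : IsUnit g₁ := by
    rw [Matrix.isUnit_iff_isUnit_det, isUnit_iff_ne_zero]
    intro h0
    have h1 : ψ.mapMatrix g₁ = g := hg₁
    have := congrArg Matrix.det h1
    rw [← RingHom.map_det, h0, map_zero] at this
    exact ((Matrix.isUnit_iff_isUnit_det _).mp g.isUnit).ne_zero this.symm
  obtain ⟨G, N, hGN, hnorm, hred⟩ := NormalData.exists_normal (D := D) (hl := hl) (hs := hs)
    (matrixRep ρ (repBasis ρ)) ⟨hu.unit, fun σ => Matrix.map_injective ψ.injective (by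
      have e := hg σ
      rw [← hD, ← hg₁] at e
      have hres : ((matrixRep ρ (repBasis ρ) σ).map (toResidue hl hs)).map ψ =
          (matrixRep ρ (repBasis ρ) σ).map (residue A) := by
        ext i j
        simp only [Matrix.map_apply]
        exact residueField_map_toResidue hs _
      show ((g₁ * (matrixRep ρ (repBasis ρ) σ).map (toResidue hl hs)).map ψ) =
        (D.rbar σ * g₁).map ψ
      rw [Matrix.map_mul, Matrix.map_mul, hres]
      exact e)⟩
  have hc : IsCont N := isCont_conj (isCont_matrixRep ρ (repBasis ρ)) G hGN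
  refine ⟨N, hc, hnorm, hred, ?_⟩
  rw [isEquiv_iff_exists_GL (repBasis ρ) (toAdicBasis N hc), matrixRep_toAdic]
  exact ⟨G, hGN⟩

/-- The trace of a representation, read in matrices. -/
theorem trace_eq_of_isEquiv_toAdic {B : Type} [CommRing B] [IsLocalRing B] (ρ : GaloisRepAdic B)
    {N : MRep B} {hc : IsCont N} (h : ρ.IsEquiv (toAdic N hc)) (σ : GQ) :
    ρ.trace σ = Matrix.trace (N σ) := by
  obtain ⟨g, hg⟩ := (isEquiv_iff_exists_GL (repBasis ρ) (toAdicBasis N hc)).mp h
  rw [matrixRep_toAdic] at hg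
  have hN : N σ = (g : Matrix (Fin 2) (Fin 2) B) * matrixRep ρ (repBasis ρ) σ *
      (↑g⁻¹ : Matrix (Fin 2) (Fin 2) B) := by
    rw [hg σ, mul_assoc, Units.mul_inv, mul_one]
  rw [hN, Matrix.trace_units_conj]
  exact LinearMap.trace_eq_matrix_trace B (repBasis ρ) (ρ.ρ σ)

end Fermat.Agent.Deform
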