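import Mathlib.RingTheory.AdicCompletion.Noetherian
import Mathlib.RingTheory.Ideal.Quotient.Index

/-!
# Chevalley's lemma
-/

set_option autoImplicit false

open IsLocalRing

namespace Fermat.Agent.Deform

/-- In a complete Noetherian local ring with finite residue field, a decreasing sequence of ideals
with zero intersection is eventually inside each power of the maximal ideal. -/
theorem exists_le_pow_maximalIdeal {T : Type*} [CommRing T] [IsLocalRing T] [IsNoetherianRing T]
    [IsAdicComplete (maximalIdeal T) T] [Finite (ResidueField T)] (K : ℕ → Ideal T)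
    (hK : Antitone K) (h0 : ∀ x, (∀ n, x ∈ K n) → x = 0) (N : ℕ) :
    ∃ n, K n ≤ maximalIdeal T ^ N := by
  have hfin : ∀ M : ℕ, Finite (T ⧸ maximalIdeal T ^ M) := fun M => by
    have : Finite (T ⧸ maximalIdeal T) := ‹Finite (ResidueField T)›
    exact Ideal.finite_quotient_pow (IsNoetherian.noetherian _) M
  have hstab : ∀ M : ℕ, ∃ n, ∀ n', n ≤ n' →
      K n ⊔ maximalIdeal T ^ M = K n' ⊔ maximalIdeal T ^ M := by
    intro M
    have := hfin M
    have : IsArtinianRing (T ⧸ maximalIdeal T ^ M) := inferInstance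
    obtain ⟨n, hn⟩ := IsArtinian.monotone_stabilizes
      (⟨fun n => OrderDual.toDual ((K n).map (Ideal.Quotient.mk (maximalIdeal T ^ M))),
        fun a b hab => Ideal.map_mono (hK hab)⟩ :
        ℕ →o (Submodule (T ⧸ maximalIdeal T ^ M) (T ⧸ maximalIdeal T ^ M))ᵒᵈ)
    refine ⟨n, fun n' hn' => ?_⟩
    have h := congrArg (fun I => Ideal.comap (Ideal.Quotient.mk (maximalIdeal T ^ M))
      (OrderDual.ofDual I)) (hn n' hn')
    change Ideal.comap _ ((K n).map _) = Ideal.comap _ ((K n').map _) at h
    rwa [Ideal.comap_map_of_surjective _ Ideal.Quotient.mk_surjective,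
      Ideal.comap_map_of_surjective _ Ideal.Quotient.mk_surjective, ← RingHom.ker_eq_comap_bot,
      Ideal.mk_ker] at h
  choose idx hidx using hstab
  have hstep : ∀ M n, ∀ x ∈ K (idx M), ∃ y ∈ K n, x - y ∈ maximalIdeal T ^ M := by
    intro M n x hx
    have h := hidx M (max n (idx M)) (le_max_right _ _)
    have hx' : x ∈ K (max n (idx M)) ⊔ maximalIdeal T ^ M := h ▸ Submodule.mem_sup_left hx
    obtain ⟨y, hy, z, hz, rfl⟩ := Submodule.mem_sup.mp hx'
    exact ⟨y, hK (le_max_left _ _) hy, by simpa using hz⟩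
  refine ⟨idx N, fun x hx => ?_⟩
  choose next hnext hdiff using fun M x (hx : x ∈ K (idx M)) => hstep M (idx (M + 1)) x hx
  let seq : ∀ i, {y : T // y ∈ K (idx (N + i))} := fun i =>
    Nat.rec ⟨x, hx⟩ (fun j y => ⟨next (N + j) y.1 y.2, hnext (N + j) y.1 y.2⟩) i
  have hsucc : ∀ i, (seq i).1 - (seq (i + 1)).1 ∈ maximalIdeal T ^ (N + i) := fun i =>
    hdiff (N + i) _ (seq i).2
  have hmono : ∀ i j, i ≤ j → (seq i).1 - (seq j).1 ∈ maximalIdeal T ^ (N + i) := by
    intro i j hij
    induction j, hij using Nat.le_induction with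
    | base => simp
    | succ j hij ih =>
      have := add_mem ih (Ideal.pow_le_pow_right (show N + i ≤ N + j by omega) (hsucc j))
      simpa using this
  obtain ⟨y, hy⟩ := IsPrecomplete.prec (inferInstance : IsPrecomplete (maximalIdeal T) T)
    (f := fun i => (seq i).1) fun {i j} hij => by
      rw [SModEq.sub_mem, smul_eq_mul, Ideal.mul_top]
      exact Ideal.pow_le_pow_right (show i ≤ N + i by omega) (hmono i j hij)
  have hclose : ∀ i, (seq i).1 - y ∈ maximalIdeal T ^ (N + i) := fun i => by
    have h1 := hy (N + i)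
    rw [SModEq.sub_mem, smul_eq_mul, Ideal.mul_top] at h1
    have := add_mem (hmono i (N + i) (by omega)) h1
    simpa using this
  have hy0 : y = 0 := by
    refine h0 y fun n => ?_
    have : ∀ M : ℕ, y ∈ K n ⊔ maximalIdeal T ^ M := by
      intro M
      obtain ⟨z, hz, hzd⟩ := hstep (N + M) n _ (seq M).2
      rw [show y = z + ((seq M).1 - z - ((seq M).1 - y)) by ring]
      exact add_mem (Submodule.mem_sup_left hz) (Submodule.mem_sup_right
        (Ideal.pow_le_pow_right (show M ≤ N + M by omega) (sub_mem hzd (hclose M))))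
    rw [← Ideal.Quotient.eq_zero_iff_mem]
    refine IsHausdorff.haus (inferInstance : IsHausdorff (maximalIdeal T) (T ⧸ K n)) _ fun M => ?_
    rw [SModEq.zero]
    obtain ⟨a, ha, b, hb, rfl⟩ := Submodule.mem_sup.mp (this M)
    rw [map_add, Ideal.Quotient.eq_zero_iff_mem.mpr ha, zero_add]
    have := Submodule.smul_mem_smul hb (Submodule.mem_top : (1 : T ⧸ K n) ∈ ⊤)
    simpa [Algebra.smul_def] using this
  have := hclose 0
  rw [hy0, sub_zero] at this
  exact this

end Fermat.Agent.Deform
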