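import Fermat.Agent.Deform.Residual
import Fermat.Agent.Deform.Chevalley
import Fermat.Prelude.Thm_IsLocalRing_isAdicComplete_of_module_finite
import Fermat.Prelude.Thm_IsAdicComplete_of_module_finite

/-!
# Shrinking the coefficient ring to residue field `k`

A lift over a finite local `𝒪`-algebra `A` (possibly with larger residue field `k'`) of a
residual representation defined over `k` is conjugate to a lift over `𝒪 + m_A`, the subalgebra
of elements whose residue lies in `k`.
-/

set_option autoImplicit false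

open IsLocalRing GaloisRep Fermat.Agent.DefRing

namespace Fermat.Agent.Deform

variable (𝒪 : Type) [CommRing 𝒪] [IsLocalRing 𝒪]
  (A : Type) [CommRing A] [IsLocalRing A] [Algebra 𝒪 A] [IsLocalHom (algebraMap 𝒪 A)]

/-- The elements of `A` with residue in the image of `k`. -/
def smallResidue : Subalgebra 𝒪 A where
  carrier := {x | ∃ c : ResidueField 𝒪, residue A x = ResidueField.map (algebraMap 𝒪 A) c}
  mul_mem' := fun ⟨a, ha⟩ ⟨b, hb⟩ => ⟨a * b, by rw [map_mul, map_mul, ha, hb]⟩
  add_mem' := fun ⟨a, ha⟩ ⟨b, hb⟩ => ⟨a + b, by rw [map_add, map_add, ha, hb]⟩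
  algebraMap_mem' o := ⟨residue 𝒪 o, (ResidueField.map_residue _ o).symm⟩

variable {𝒪 A}

theorem mem_smallResidue_of_mem_maximalIdeal {x : A} (hx : x ∈ maximalIdeal A) :
    x ∈ smallResidue 𝒪 A :=
  ⟨0, by rw [map_zero, residue_eq_zero_iff]; exact hx⟩

theorem isUnit_smallResidue_iff (x : smallResidue 𝒪 A) : IsUnit x ↔ IsUnit (x : A) := by
  refine ⟨fun h => h.map (smallResidue 𝒪 A).val, fun h => ?_⟩
  obtain ⟨c, hc⟩ := x.2
  obtain ⟨y, hy⟩ := h.exists_right_inv
  have hc0 : c ≠ 0 := by
    rintro rfl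
    rw [map_zero, residue_eq_zero_iff] at hc
    exact hc h
  have hy' : y ∈ smallResidue 𝒪 A := ⟨c⁻¹, by
    have h1 : residue A x.1 * residue A y = 1 := by rw [← map_mul, hy, map_one]
    rw [hc] at h1
    rw [map_inv₀]
    exact (eq_inv_of_mul_eq_one_right h1)⟩
  exact IsUnit.of_mul_eq_one ⟨y, hy'⟩ (Subtype.ext hy)

instance : Nontrivial (smallResidue 𝒪 A) :=
  ⟨⟨0, 1, fun h => zero_ne_one (congrArg Subtype.val h)⟩⟩

instance : IsLocalRing (smallResidue 𝒪 A) :=
  IsLocalRing.of_nonunits_add fun a b ha hb => by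
    simp only [mem_nonunits_iff, isUnit_smallResidue_iff] at ha hb ⊢
    exact IsLocalRing.nonunits_add ha hb

instance : IsLocalHom ((smallResidue 𝒪 A).val : smallResidue 𝒪 A →+* A) :=
  ⟨fun x hx => (isUnit_smallResidue_iff x).mpr hx⟩

instance : IsLocalHom (algebraMap 𝒪 (smallResidue 𝒪 A)) :=
  ⟨fun o ho => isUnit_of_map_unit (algebraMap 𝒪 A) o (ho.map (smallResidue 𝒪 A).val)⟩

theorem residue_surjective_smallResidue :
    Function.Surjective (residue (smallResidue 𝒪 A) ∘ algebraMap 𝒪 (smallResidue 𝒪 A)) := by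
  intro y
  obtain ⟨x, rfl⟩ := IsLocalRing.residue_surjective y
  obtain ⟨c, hc⟩ := x.2
  obtain ⟨o, rfl⟩ := IsLocalRing.residue_surjective c
  rw [ResidueField.map_residue] at hc
  refine ⟨o, (Ideal.Quotient.mk_eq_mk_iff_sub_mem _ _).mpr fun hu => ?_⟩
  rw [isUnit_smallResidue_iff] at hu
  have h2 : (algebraMap 𝒪 A o - x : A) ∈ maximalIdeal A := by
    rw [← residue_eq_zero_iff, map_sub, hc, sub_self]
  exact h2 hu

/-- The reduction of `smallResidue` computes the residue in `A`. -/
theorem map_toResidue_smallResidue (x : smallResidue 𝒪 A) :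
    ResidueField.map (algebraMap 𝒪 A)
      (toResidue (inferInstance : IsLocalHom (algebraMap 𝒪 (smallResidue 𝒪 A)))
        residue_surjective_smallResidue x) = residue A x.1 := by
  obtain ⟨o, ho⟩ := exists_algebraMap_add_mem residue_surjective_smallResidue x
  have h1 : toResidue (inferInstance : IsLocalHom (algebraMap 𝒪 (smallResidue 𝒪 A)))
      residue_surjective_smallResidue x = residue 𝒪 o := by
    rw [← sub_eq_zero, show residue 𝒪 o =
      toResidue (inferInstance : IsLocalHom (algebraMap 𝒪 (smallResidue 𝒪 A)))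
        residue_surjective_smallResidue (algebraMap 𝒪 (smallResidue 𝒪 A) o) from
      (AlgHom.commutes _ o).symm, ← map_sub, toResidue_eq_zero_iff]
    exact ho
  have h2 : (x : A) - algebraMap 𝒪 A o ∈ maximalIdeal A := fun hu =>
    ho ((isUnit_smallResidue_iff _).mpr hu)
  rw [h1, ResidueField.map_residue, eq_comm, ← sub_eq_zero, ← map_sub, residue_eq_zero_iff]
  exact h2

variable [IsNoetherianRing 𝒪] [Module.Finite 𝒪 A]

instance : Module.Finite 𝒪 (smallResidue 𝒪 A) :=
  Module.Finite.of_fg (IsNoetherian.noetherian (smallResidue 𝒪 A).toSubmodule)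

instance : IsNoetherianRing (smallResidue 𝒪 A) := IsNoetherianRing.of_finite 𝒪 _

instance [IsAdicComplete (maximalIdeal 𝒪) 𝒪] :
    IsAdicComplete (maximalIdeal (smallResidue 𝒪 A)) (smallResidue 𝒪 A) :=
  IsLocalRing.isAdicComplete_of_module_finite (𝒪 := 𝒪)

/-- Descent of a lift to `𝒪 + m_A`. -/
theorem exists_descent [IsAdicComplete (maximalIdeal 𝒪) 𝒪] [Finite (ResidueField 𝒪)]
    {ρbar : ResidualGaloisRep (ResidueField 𝒪)}
    (b : Module.Basis (Fin 2) (ResidueField 𝒪) ρbar.V) {D : NormalData 𝒪}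
    (hD : ∀ σ, D.rbar σ = LinearMap.toMatrix b b (ρbar.ρ σ)) (ρ : GaloisRepAdic A)
    (h : ρ.residual.IsEquiv (ρbar.baseChangeAlong (ResidueField.map (algebraMap 𝒪 A)))) :
    ∃ (M : MRep (smallResidue 𝒪 A)) (hc : IsCont M),
      D.Reduces inferInstance residue_surjective_smallResidue M ∧
      ((toAdic M hc).baseChangeAlong ((smallResidue 𝒪 A).val : smallResidue 𝒪 A →+* A)
        inferInstance).IsEquiv ρ := by
  obtain ⟨g, hg⟩ := (residual_isEquiv_baseChangeAlong_iff ρ (repBasis ρ) ρbar b _).mp h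
  obtain ⟨G, hG⟩ : ∃ G : Matrix (Fin 2) (Fin 2) A,
      G.map (residue A) = (g : Matrix (Fin 2) (Fin 2) (ResidueField A)) :=
    ⟨(g : Matrix (Fin 2) (Fin 2) (ResidueField A)).map (Function.surjInv residue_surjective),
      Matrix.ext fun i j => Function.surjInv_eq residue_surjective _⟩
  have hGu : IsUnit G := by
    rw [Matrix.isUnit_iff_isUnit_det]
    refine notMem_maximalIdeal.mp fun hm => ?_
    rw [← residue_eq_zero_iff, RingHom.map_det, RingHom.mapMatrix_apply, hG] at hm
    exact ((Matrix.isUnit_iff_isUnit_det _).mp g.isUnit).ne_zero hm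
  obtain ⟨G, rfl⟩ := hGu
  let N : MRep A :=
    { toFun := fun σ => (G : Matrix (Fin 2) (Fin 2) A) * matrixRep ρ (repBasis ρ) σ *
        (↑G⁻¹ : Matrix (Fin 2) (Fin 2) A)
      map_one' := by simp
      map_mul' := fun σ τ => by rw [map_mul]; simp [mul_assoc] }
  have hN : ∀ σ, (G : Matrix (Fin 2) (Fin 2) A) * matrixRep ρ (repBasis ρ) σ = N σ * G :=
    fun σ => by simp [N, mul_assoc]
  have hres : ∀ σ i j, residue A (N σ i j) =
      ResidueField.map (algebraMap 𝒪 A) (D.rbar σ i j) := by
    intro σ i j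
    have e := congrArg (RingHom.mapMatrix (residue A)) (hN σ)
    simp only [map_mul, RingHom.mapMatrix_apply] at e
    rw [hG] at e
    have e2 := g.isUnit.mul_right_cancel ((hg σ).symm.trans e)
    rw [← hD] at e2
    exact (congrFun (congrFun e2 i) j).symm
  have hmem : ∀ σ i j, N σ i j ∈ smallResidue 𝒪 A := fun σ i j => ⟨_, hres σ i j⟩
  have hinj : Function.Injective fun X : Matrix (Fin 2) (Fin 2) (smallResidue 𝒪 A) =>
      X.map ((smallResidue 𝒪 A).val : smallResidue 𝒪 A →+* A) :=
    Matrix.map_injective Subtype.val_injective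
  let M : MRep (smallResidue 𝒪 A) :=
    { toFun := fun σ => Matrix.of fun i j => (⟨N σ i j, hmem σ i j⟩ : smallResidue 𝒪 A)
      map_one' := hinj (by
        show _ = Matrix.map 1 _
        rw [Matrix.map_one _ (map_zero _) (map_one _)]
        exact (Matrix.ext fun i j => rfl).trans (map_one N))
      map_mul' := fun σ τ => hinj (by
        dsimp only
        rw [Matrix.map_mul]
        exact (Matrix.ext fun i j => rfl).trans ((map_mul N σ τ).trans
          (congrArg₂ (· * ·) (Matrix.ext fun i j => rfl) (Matrix.ext fun i j => rfl)))) }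
  have hMN : mapRep ((smallResidue 𝒪 A).val : smallResidue 𝒪 A →+* A) M = N :=
    MonoidHom.ext fun σ => Matrix.ext fun i j => rfl
  have hNc : IsCont N := isCont_conj (isCont_matrixRep ρ (repBasis ρ)) G hN
  have : IsNoetherianRing A := IsNoetherianRing.of_finite 𝒪 A
  have : Finite (ResidueField (smallResidue 𝒪 A)) := by
    refine Finite.of_surjective (fun x : ResidueField 𝒪 =>
      ResidueField.map (algebraMap 𝒪 (smallResidue 𝒪 A)) x) fun y => ?_
    obtain ⟨o, rfl⟩ := residue_surjective_smallResidue y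
    exact ⟨residue 𝒪 o, ResidueField.map_residue _ o⟩
  have hc : IsCont M := by
    intro n
    obtain ⟨m, hm⟩ := exists_le_pow_maximalIdeal
      (fun m => (maximalIdeal A ^ m).comap
        ((smallResidue 𝒪 A).val : smallResidue 𝒪 A →+* A))
      (fun a b hab => Ideal.comap_mono (Ideal.pow_le_pow_right hab))
      (fun x hx => Subtype.ext (IsHausdorff.haus
        (inferInstance : IsHausdorff (maximalIdeal A) A) _ fun k => by
          rw [SModEq.zero, smul_eq_mul, Ideal.mul_top]
          exact Ideal.mem_comap.mp (hx k))) n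
    obtain ⟨L, hL, h1⟩ := hNc m
    refine ⟨L, hL, fun σ hσ i j => hm (Ideal.mem_comap.mpr ?_)⟩
    have h2 := h1 σ hσ i j
    rw [← hMN] at h2
    convert h2 using 1
    by_cases hij : i = j <;> simp [hij]
  refine ⟨M, hc, ?_, ?_⟩
  · refine MonoidHom.ext fun σ => Matrix.ext fun i j => ?_
    apply (ResidueField.map (algebraMap 𝒪 A)).injective
    rw [← hres σ i j]
    exact map_toResidue_smallResidue (M σ i j)
  · refine isEquiv_trans (baseChangeAlong_toAdic_isEquiv M hc _ _) ?_
    simp only [hMN]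
    refine isEquiv_symm ?_
    rw [isEquiv_iff_exists_GL (repBasis ρ) (toAdicBasis N hNc), matrixRep_toAdic]
    exact ⟨G, hN⟩

end Fermat.Agent.Deform
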