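import Fermat.Agent.GalCoh.Cochain
import Mathlib.Algebra.DualNumber
import Mathlib.LinearAlgebra.Matrix.Determinant.Basic
import Mathlib.LinearAlgebra.Matrix.Trace

/-!
# First order lifts of a two-dimensional representation and the adjoint cohomology

A lift `N` to the dual numbers of `ρ` corresponds to the cocycle `g ↦ ε-part of N g * ρ g⁻¹` in
`ad ρ`; conjugation changes it by a coboundary and the determinant is unchanged exactly when the
trace of the cocycle vanishes.
-/

set_option autoImplicit false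

noncomputable section

open Fermat.Agent.GalCoh

namespace Fermat.Agent.Deform

variable {k : Type} [CommRing k] {G : Type} [Group G]

/-- The adjoint representation on two by two matrices. -/
def adRep (ρ : G →* Matrix (Fin 2) (Fin 2) k) : Representation k G (Matrix (Fin 2) (Fin 2) k) where
  toFun g := (LinearMap.mulLeft k (ρ g)) ∘ₗ (LinearMap.mulRight k (ρ g⁻¹))
  map_one' := LinearMap.ext fun X => by simp
  map_mul' g h := LinearMap.ext fun X => by simp [mul_assoc]

@[simp]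
theorem adRep_apply (ρ : G →* Matrix (Fin 2) (Fin 2) k) (g : G) (X : Matrix (Fin 2) (Fin 2) k) :
    adRep ρ g X = ρ g * X * ρ g⁻¹ := by
  show ρ g * (X * ρ g⁻¹) = _
  rw [mul_assoc]

theorem rho_mul_inv (ρ : G →* Matrix (Fin 2) (Fin 2) k) (g : G) : ρ g * ρ g⁻¹ = 1 := by
  rw [← map_mul, mul_inv_cancel, map_one]

theorem rho_inv_mul (ρ : G →* Matrix (Fin 2) (Fin 2) k) (g : G) : ρ g⁻¹ * ρ g = 1 := by
  rw [← map_mul, inv_mul_cancel, map_one]

/-- The matrix over the dual numbers with the given parts. -/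
def dualMat (X Y : Matrix (Fin 2) (Fin 2) k) : Matrix (Fin 2) (Fin 2) (DualNumber k) :=
  Matrix.of fun a b => TrivSqZeroExt.inl (X a b) + TrivSqZeroExt.inr (Y a b)

@[simp]
theorem fst_dualMat (X Y : Matrix (Fin 2) (Fin 2) k) :
    (dualMat X Y).map TrivSqZeroExt.fst = X := by
  ext a b; simp [dualMat]

@[simp]
theorem snd_dualMat (X Y : Matrix (Fin 2) (Fin 2) k) :
    (dualMat X Y).map TrivSqZeroExt.snd = Y := by
  ext a b; simp [dualMat]

omit [CommRing k] in
theorem ext_fst_snd {A B : Matrix (Fin 2) (Fin 2) (DualNumber k)}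
    (h1 : A.map TrivSqZeroExt.fst = B.map TrivSqZeroExt.fst)
    (h2 : A.map TrivSqZeroExt.snd = B.map TrivSqZeroExt.snd) : A = B :=
  Matrix.ext fun a b => TrivSqZeroExt.ext (congrFun (congrFun h1 a) b) (congrFun (congrFun h2 a) b)

theorem fst_map_mul (A B : Matrix (Fin 2) (Fin 2) (DualNumber k)) :
    (A * B).map TrivSqZeroExt.fst = A.map TrivSqZeroExt.fst * B.map TrivSqZeroExt.fst := by
  ext a b
  simp [Matrix.mul_apply, Fin.sum_univ_two]

theorem snd_map_mul (A B : Matrix (Fin 2) (Fin 2) (DualNumber k)) :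
    (A * B).map TrivSqZeroExt.snd = A.map TrivSqZeroExt.fst * B.map TrivSqZeroExt.snd +
      A.map TrivSqZeroExt.snd * B.map TrivSqZeroExt.fst := by
  ext a b
  simp [Matrix.mul_apply, Fin.sum_univ_two]
  ring

@[simp]
theorem dualMat_mul (X Y X' Y' : Matrix (Fin 2) (Fin 2) k) :
    dualMat X Y * dualMat X' Y' = dualMat (X * X') (X * Y' + Y * X') :=
  ext_fst_snd (by simp [fst_map_mul]) (by simp [snd_map_mul])

theorem dualMat_one : dualMat (1 : Matrix (Fin 2) (Fin 2) k) 0 = 1 :=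
  ext_fst_snd (by rw [fst_dualMat, Matrix.map_one _ TrivSqZeroExt.fst_zero TrivSqZeroExt.fst_one]) (by
    rw [snd_dualMat]
    ext a b
    rw [Matrix.map_apply, Matrix.one_apply]
    split_ifs <;> simp)

/-- The cocycle of a first order lift. -/
def cocOf (ρ : G →* Matrix (Fin 2) (Fin 2) k) (N : G →* Matrix (Fin 2) (Fin 2) (DualNumber k))
    (g : G) : Matrix (Fin 2) (Fin 2) k :=
  (N g).map TrivSqZeroExt.snd * ρ g⁻¹

variable {L : Levels G} {ρ : G →* Matrix (Fin 2) (Fin 2) k}
  {N : G →* Matrix (Fin 2) (Fin 2) (DualNumber k)}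

theorem snd_eq_cocOf_mul (g : G) : (N g).map TrivSqZeroExt.snd = cocOf ρ N g * ρ g := by
  rw [cocOf, mul_assoc, rho_inv_mul, mul_one]

theorem cocOf_mul (hN : ∀ g, (N g).map TrivSqZeroExt.fst = ρ g) (g h : G) :
    cocOf ρ N (g * h) = adRep ρ g (cocOf ρ N h) + cocOf ρ N g := by
  simp only [cocOf, adRep_apply, map_mul, snd_map_mul, hN, mul_inv_rev, add_mul, ← mul_assoc]
  congr 1
  rw [mul_assoc ((N g).map TrivSqZeroExt.snd), rho_mul_inv, mul_one]

theorem cocOf_mem_Z1 (hN : ∀ g, (N g).map TrivSqZeroExt.fst = ρ g)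
    (hL : ∃ U, L.mem U ∧ ∀ s ∈ U, N s = 1) : cocOf ρ N ∈ Z1 L (adRep ρ) := by
  refine mem_Z1_iff.mpr ⟨cocOf_mul hN, ?_⟩
  obtain ⟨U, hU, h⟩ := hL
  refine ⟨U, hU, fun g s hs => ?_⟩
  rw [cocOf_mul hN g s]
  have h0 : cocOf ρ N s = 0 := by
    have : (1 : Matrix (Fin 2) (Fin 2) (DualNumber k)).map TrivSqZeroExt.snd = 0 := by
      rw [← dualMat_one, snd_dualMat]
    rw [cocOf, h s hs, this, zero_mul]
  rw [h0, map_zero, zero_add]

variable (ρ) in
/-- The lift attached to a cocycle. -/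
def liftOf (c : G → Matrix (Fin 2) (Fin 2) k)
    (hc : ∀ g h, c (g * h) = adRep ρ g (c h) + c g) :
    G →* Matrix (Fin 2) (Fin 2) (DualNumber k) where
  toFun g := dualMat (ρ g) (c g * ρ g)
  map_one' := by
    have h1 := hc 1 1
    simp only [mul_one, map_one, Module.End.one_apply, left_eq_add] at h1
    rw [map_one, h1, zero_mul, dualMat_one]
  map_mul' g h := by
    rw [dualMat_mul, map_mul, hc, adRep_apply, add_mul]
    congr 2
    · rw [mul_assoc (ρ g * c h), ← mul_assoc (ρ g⁻¹), rho_inv_mul, one_mul, mul_assoc]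
    · rw [mul_assoc]

theorem cocOf_liftOf {c : G → Matrix (Fin 2) (Fin 2) k}
    (hc : ∀ g h, c (g * h) = adRep ρ g (c h) + c g) : cocOf ρ (liftOf ρ c hc) = c := by
  funext g
  show (dualMat (ρ g) (c g * ρ g)).map TrivSqZeroExt.snd * ρ g⁻¹ = c g
  rw [snd_dualMat, mul_assoc, rho_mul_inv, mul_one]

theorem liftOf_cocOf (hN : ∀ g, (N g).map TrivSqZeroExt.fst = ρ g) :
    liftOf ρ (cocOf ρ N) (cocOf_mul hN) = N :=
  MonoidHom.ext fun g => ext_fst_snd ((fst_dualMat _ _).trans (hN g).symm)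
    ((snd_dualMat _ _).trans (snd_eq_cocOf_mul g).symm)

/-- The infinitesimal matrix `1 + εX`, as a unit. -/
def epsUnit (X : Matrix (Fin 2) (Fin 2) k) : (Matrix (Fin 2) (Fin 2) (DualNumber k))ˣ where
  val := dualMat 1 X
  inv := dualMat 1 (-X)
  val_inv := by simp [dualMat_one]
  inv_val := by simp [dualMat_one]

/-- The determinant of a lift. -/
theorem det_eq_iff_trace_cocOf (hN : ∀ g, (N g).map TrivSqZeroExt.fst = ρ g) (g : G) :
    (N g).det = TrivSqZeroExt.inl (ρ g).det ↔ (cocOf ρ N g).trace = 0 := by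
  have hd : (N g).det.snd = (cocOf ρ N g).trace * (ρ g).det := by
    have h1 := hN g
    have h2 := snd_eq_cocOf_mul (ρ := ρ) (N := N) g
    have e : ∀ a b, (N g a b).fst = ρ g a b := fun a b => congrFun (congrFun h1 a) b
    have f : ∀ a b, (N g a b).snd = (cocOf ρ N g * ρ g) a b := fun a b => congrFun (congrFun h2 a) b
    simp only [Matrix.det_fin_two, TrivSqZeroExt.snd_sub, DualNumber.snd_mul, e, f,
      Matrix.mul_apply, Fin.sum_univ_two, Matrix.trace_fin_two]
    ring
  have hu : IsUnit (ρ g).det := IsUnit.of_mul_eq_one (ρ g⁻¹).det (by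
    rw [← Matrix.det_mul, rho_mul_inv, Matrix.det_one])
  constructor
  · intro h
    rw [h, TrivSqZeroExt.snd_inl] at hd
    exact hu.mul_left_eq_zero.mp hd.symm
  · intro h
    rw [h, zero_mul] at hd
    refine TrivSqZeroExt.ext ?_ (by rw [hd, TrivSqZeroExt.snd_inl])
    rw [TrivSqZeroExt.fst_inl, ← hN g]
    simp [Matrix.det_fin_two]

end Fermat.Agent.Deform
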