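import Fermat.Agent.DefRing.Levels
import Mathlib.RingTheory.AdicCompletion.RingHom

/-!
# A complete local ring as a quotient of a power series ring over a local base

If `A` is a complete Noetherian local algebra over a complete local ring `B` with the same residue
field, `g` elements generating the relative cotangent space give a surjection
`B[[X_1, ..., X_g]] → A`. The relative cotangent space is bounded by the tangent vectors of `A`
which are trivial on `B`, read on a family of topological generators.
-/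

set_option autoImplicit false

open IsLocalRing MvPowerSeries Fermat.Agent.DefRing

namespace Fermat.Agent.Deform

section Eval

variable {B A : Type*} [CommRing B] [IsLocalRing B] [CommRing A] [IsLocalRing A] [Algebra B A]
  {σ : Type*} [Finite σ]

omit [IsLocalRing B] in
/-- Evaluation of power series at elements of the maximal ideal of a complete local algebra. -/
theorem exists_algHom_powerSeries [IsAdicComplete (maximalIdeal A) A]
    [IsLocalHom (algebraMap B A)] (x : σ → A) (hx : ∀ i, x i ∈ maximalIdeal A) :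
    ∃ φ : MvPowerSeries σ B →ₐ[B] A,
      IsLocalHom (φ : MvPowerSeries σ B →+* A) ∧ ∀ i, φ (X i) = x i := by
  have hnil : ∀ n : ℕ, IsNilpotent ((maximalIdeal A).map
      (Ideal.Quotient.mk (maximalIdeal A ^ (n + 1)))) := fun n => ⟨n + 1, by
    rw [← Ideal.map_pow, Ideal.map_quotient_self, Ideal.zero_eq_bot]⟩
  choose f hf using fun n => exists_algHom_X_eq (O := B) (hnil n)
    (fun i => Ideal.Quotient.mk _ (x i)) fun i => Ideal.mem_map_of_mem _ (hx i)
  have hcompat : ∀ n, (Ideal.Quotient.factorₐ B
      (Ideal.pow_le_pow_right (I := maximalIdeal A) (show n + 1 ≤ n + 2 by omega))).comp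
        (f (n + 1)) = f n := by
    intro n
    refine algHom_ext_of_X (hnil n) (fun i => ?_) fun i => ?_
    · rw [AlgHom.comp_apply, hf]
      exact Ideal.mem_map_of_mem _ (hx i)
    · rw [AlgHom.comp_apply, hf, hf]
      rfl
  have ha : StrictMono fun n : ℕ => n + 1 := fun a b hab => by
    show a + 1 < b + 1; omega
  let φ₀ := IsAdicComplete.StrictMono.liftRingHom (maximalIdeal A) ha
    (fun n => (f n : MvPowerSeries σ B →+* A ⧸ maximalIdeal A ^ (n + 1)))
    (fun {m} => RingHom.ext fun r => DFunLike.congr_fun (hcompat m) r)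
  have hφ₀ : ∀ n r, Ideal.Quotient.mk (maximalIdeal A ^ (n + 1)) (φ₀ r) = f n r :=
    fun n r => IsAdicComplete.StrictMono.mk_liftRingHom (maximalIdeal A) ha _ _ r
  have hzero : ∀ {z : A}, (∀ n, Ideal.Quotient.mk (maximalIdeal A ^ (n + 1)) z = 0) → z = 0 := by
    intro z hz
    refine IsHausdorff.haus (inferInstance : IsHausdorff (maximalIdeal A) A) _ fun n => ?_
    rw [SModEq.zero, smul_eq_mul, Ideal.mul_top]
    exact Ideal.pow_le_pow_right (show n ≤ n + 1 by omega)
      (Ideal.Quotient.eq_zero_iff_mem.mp (hz n))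
  let φ : MvPowerSeries σ B →ₐ[B] A :=
    { φ₀ with
      commutes' := fun o => sub_eq_zero.mp (hzero fun n => by
        show Ideal.Quotient.mk _ (φ₀ (algebraMap B _ o) - algebraMap B A o) = 0
        rw [map_sub, hφ₀, AlgHom.commutes, sub_eq_zero]
        rfl) }
  refine ⟨φ, ⟨fun r hr => ?_⟩, fun i => sub_eq_zero.mp (hzero fun n => ?_)⟩
  · rw [MvPowerSeries.isUnit_iff_constantCoeff]
    have h0 : (Ideal.Quotient.mkₐ B (maximalIdeal A)).comp φ
        = (IsScalarTower.toAlgHom B B (A ⧸ maximalIdeal A)).comp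
            ({ MvPowerSeries.constantCoeff with
              commutes' := fun o => by
                simp [MvPowerSeries.algebraMap_apply] } : MvPowerSeries σ B →ₐ[B] B) := by
      refine algHom_ext_of_X (I := ⊥) ⟨1, by simp⟩ (fun i => ?_) fun i => ?_
      all_goals
        have h1 : Ideal.Quotient.mk (maximalIdeal A) (φ (X i)) = 0 := by
          rw [Ideal.Quotient.eq_zero_iff_mem]
          have h2 := hφ₀ 0 (X i)
          rw [hf, Ideal.Quotient.mk_eq_mk_iff_sub_mem] at h2
          have h3 : φ₀ (X i) - x i ∈ maximalIdeal A := by simpa using h2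
          simpa [φ] using add_mem h3 (hx i)
        simp only [AlgHom.comp_apply, Ideal.Quotient.mkₐ_eq_mk, h1]
      · exact zero_mem _
      · simp
    have h2 := DFunLike.congr_fun h0 r
    by_contra hc
    have hc' : algebraMap B A (constantCoeff r) ∈ maximalIdeal A :=
      fun hu => hc ((‹IsLocalHom (algebraMap B A)›).map_nonunit _ hu)
    have h3 : Ideal.Quotient.mk (maximalIdeal A) (φ r) = 0 := by
      rw [← Ideal.Quotient.eq_zero_iff_mem] at hc'
      exact h2.trans hc'
    exact (Ideal.Quotient.eq_zero_iff_mem.mp h3) hr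
  · show Ideal.Quotient.mk _ (φ₀ (X i) - x i) = 0
    rw [map_sub, hφ₀, hf, sub_self]

/-- A local map from a complete local ring whose image of the maximal ideal generates the
maximal ideal modulo its square is surjective. -/
theorem surjective_of_cotangent {P S : Type*} [CommRing P] [IsLocalRing P] [CommRing S]
    [IsLocalRing S] [IsAdicComplete (maximalIdeal P) P] [IsNoetherianRing S]
    [IsAdicComplete (maximalIdeal S) S] (φ : P →+* S) [IsLocalHom φ]
    (hres : Function.Surjective (residue S ∘ φ))
    (hgen : maximalIdeal S ≤ (maximalIdeal P).map φ ⊔ maximalIdeal S ^ 2) :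
    Function.Surjective φ := by
  have hle : (maximalIdeal P).map φ ≤ maximalIdeal S :=
    Ideal.map_le_iff_le_comap.mpr fun a ha hu => ha (isUnit_of_map_unit φ a hu)
  have heq : (maximalIdeal P).map φ = maximalIdeal S := by
    refine le_antisymm hle (Submodule.le_of_le_smul_of_le_jacobson_bot
      (I := maximalIdeal S) (IsNoetherian.noetherian _)
      (IsLocalRing.maximalIdeal_le_jacobson _) ?_)
    rwa [smul_eq_mul, ← pow_two]
  have : IsHausdorff ((maximalIdeal P).map φ) S := by rw [heq]; infer_instance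
  refine surjective_of_mk_map_comp_surjective (I := maximalIdeal P) φ ?_
  intro y
  obtain ⟨s, rfl⟩ := Ideal.Quotient.mk_surjective y
  obtain ⟨p, hp⟩ := hres (residue S s)
  refine ⟨p, (Ideal.Quotient.mk_eq_mk_iff_sub_mem _ _).mpr ?_⟩
  rw [heq]
  exact (Ideal.Quotient.mk_eq_mk_iff_sub_mem _ _).mp hp

end Eval

/-- Finitely many coordinates separate a finite dimensional space of functions. -/
theorem exists_separating_coords {K ι : Type*} [Field K] (W : Submodule K (ι → K))
    [FiniteDimensional K W] :
    ∃ s : Finset ι, s.card ≤ Module.finrank K W ∧ ∀ w ∈ W, (∀ i ∈ s, w i = 0) → w = 0 := by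
  classical
  induction h : Module.finrank K W using Nat.strong_induction_on generalizing W with
  | _ n ih =>
    subst h
    by_cases hW : ∀ w ∈ W, w = 0
    · exact ⟨∅, by simp, fun w hw _ => hW w hw⟩
    push Not at hW
    obtain ⟨w, hw, hw0⟩ := hW
    obtain ⟨i, hi⟩ := Function.ne_iff.mp hw0
    set W' := W ⊓ LinearMap.ker (LinearMap.proj i : (ι → K) →ₗ[K] K) with hW'
    have hlt : W' < W :=
      lt_of_le_of_ne inf_le_left fun he => hi (by
        have := (he.ge hw).2
        simpa using this)
    have : FiniteDimensional K W' := Submodule.finiteDimensional_of_le inf_le_left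
    obtain ⟨s, hs, hs'⟩ := ih _ (Submodule.finrank_lt_finrank_of_lt hlt) W' rfl
    refine ⟨insert i s, (Finset.card_insert_le _ _).trans ?_, fun v hv h0 => ?_⟩
    · have := Submodule.finrank_lt_finrank_of_lt hlt; omega
    · refine hs' v ⟨hv, ?_⟩ fun j hj => h0 j (Finset.mem_insert_of_mem hj)
      simpa using h0 i (Finset.mem_insert_self _ _)

section Criterion

attribute [local instance 10000] dualAlgebra

variable {𝒪 B A : Type} [CommRing 𝒪] [IsLocalRing 𝒪] [CommRing B] [IsLocalRing B] [Algebra 𝒪 B]
  [CommRing A] [IsLocalRing A] [Algebra 𝒪 A] [Algebra B A] [IsScalarTower 𝒪 B A]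
  [IsLocalHom (algebraMap 𝒪 B)] [IsLocalHom (algebraMap B A)]
  {ι : Type}

/-- Elements generating the relative cotangent space, from a bound on the tangent vectors of `A`
trivial on `B`, read on topological generators. -/
theorem exists_relative_generators (hsA : Function.Surjective (residue A ∘ algebraMap 𝒪 A))
    (point : ι → A) (hgen : ∀ a : A,
      ∃ s ∈ Algebra.adjoin 𝒪 (Set.range point), a - s ∈ maximalIdeal A ^ 2)
    (W : Submodule (ResidueField 𝒪) (ι → ResidueField 𝒪))
    [FiniteDimensional (ResidueField 𝒪) W] {g : ℕ}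
    (hg : Module.finrank (ResidueField 𝒪) W ≤ g)
    (hW : ∀ φ : A →ₐ[𝒪] DualNumber (ResidueField 𝒪),
      (∀ b ∈ maximalIdeal B, φ (algebraMap B A b) = 0) → (fun i => (φ (point i)).snd) ∈ W) :
    ∃ y : Fin g → A, (∀ l, y l ∈ maximalIdeal A) ∧
      maximalIdeal A ≤ (maximalIdeal B).map (algebraMap B A) ⊔ Ideal.span (Set.range y) ⊔
        maximalIdeal A ^ 2 := by
  classical
  have hl : IsLocalHom (algebraMap 𝒪 A) := by
    rw [IsScalarTower.algebraMap_eq 𝒪 B A]
    exact RingHom.isLocalHom_comp _ _
  obtain ⟨s, hs, hsep⟩ := exists_separating_coords W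
  choose o ho using fun i => exists_algebraMap_add_mem hsA (point i)
  obtain ⟨e⟩ : Nonempty (s ↪ Fin g) :=
    Function.Embedding.nonempty_of_card_le (by simpa using hs.trans hg)
  let y : Fin g → A := fun l =>
    if h : ∃ i : s, e i = l then point h.choose - algebraMap 𝒪 A (o h.choose) else 0
  have hy : ∀ l, y l ∈ maximalIdeal A := fun l => by
    by_cases h : ∃ i : s, e i = l
    · simp only [y, dif_pos h]; exact ho _
    · simp only [y, dif_neg h]; exact zero_mem _
  refine ⟨y, hy, ?_⟩
  set J := (maximalIdeal B).map (algebraMap B A) ⊔ Ideal.span (Set.range y) with hJ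
  have hJle : J ≤ maximalIdeal A := sup_le
    (Ideal.map_le_iff_le_comap.mpr fun b hb hu => hb (isUnit_of_map_unit _ b hu))
    (Ideal.span_le.mpr (by rintro _ ⟨l, rfl⟩; exact hy l))
  intro a ha
  by_contra hK
  have : Nontrivial (A ⧸ J) := Ideal.Quotient.nontrivial_iff.mpr fun h =>
    (maximalIdeal.isMaximal A).ne_top (top_le_iff.mp (h ▸ hJle))
  have : IsLocalRing (A ⧸ J) :=
    IsLocalRing.of_surjective' (Ideal.Quotient.mk J) Ideal.Quotient.mk_surjective
  have hq : IsLocalHom (Ideal.Quotient.mk J) :=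
    isLocalHom_of_surjective' _ Ideal.Quotient.mk_surjective
  have hlQ : IsLocalHom (algebraMap 𝒪 (A ⧸ J)) := RingHom.isLocalHom_comp _ _
  have hsQ : Function.Surjective (residue (A ⧸ J) ∘ algebraMap 𝒪 (A ⧸ J)) := fun z => by
    obtain ⟨c, rfl⟩ := IsLocalRing.residue_surjective z
    obtain ⟨c, rfl⟩ := Ideal.Quotient.mk_surjective c
    obtain ⟨u, hu⟩ := hsA (residue A c)
    exact ⟨u, congrArg (ResidueField.map (Ideal.Quotient.mk J)) hu⟩
  have hmap : (maximalIdeal A).map (Ideal.Quotient.mk J) = maximalIdeal (A ⧸ J) :=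
    by
      simpa using DefRing.map_maximalIdeal_of_surjective (Ideal.Quotient.mk J)
        Ideal.Quotient.mk_surjective 1
  have hπ : (maximalIdeal 𝒪).map (algebraMap 𝒪 (A ⧸ J)) = ⊥ := by
    rw [Ideal.map_eq_bot_iff_le_ker]
    intro x hx
    rw [RingHom.mem_ker, show algebraMap 𝒪 (A ⧸ J) x = Ideal.Quotient.mk J (algebraMap 𝒪 A x) from
      rfl, IsScalarTower.algebraMap_apply 𝒪 B A, Ideal.Quotient.eq_zero_iff_mem]
    exact Ideal.mem_sup_left (Ideal.mem_map_of_mem _
      fun hu => hx (isUnit_of_map_unit (algebraMap 𝒪 B) x hu))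
  obtain ⟨φ, hφ⟩ := exists_algHom_dual_snd_ne_zero hlQ hsQ
    (y := Ideal.Quotient.mk J a) (hmap ▸ Ideal.mem_map_of_mem _ ha) (by
      rw [hπ, sup_bot_eq, ← hmap, ← Ideal.map_pow, ← Ideal.mem_comap,
        Ideal.comap_map_of_surjective _ Ideal.Quotient.mk_surjective]
      rw [show Ideal.comap (Ideal.Quotient.mk J) ⊥ = J from Ideal.mk_ker, sup_comm]
      exact hK)
  let ψ : A →ₐ[𝒪] DualNumber (ResidueField 𝒪) := φ.comp (Ideal.Quotient.mkₐ 𝒪 J)
  have hψJ : ∀ x ∈ J, ψ x = 0 := fun x hx => by
    show φ (Ideal.Quotient.mk J x) = 0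
    rw [Ideal.Quotient.eq_zero_iff_mem.mpr hx, map_zero]
  have hmem := hW ψ fun b hb => hψJ _ (Ideal.mem_sup_left (Ideal.mem_map_of_mem _ hb))
  have hzero := hsep _ hmem fun i hi => by
    have hex : ∃ j : s, e j = e ⟨i, hi⟩ := ⟨⟨i, hi⟩, rfl⟩
    have hsame : (hex.choose : ι) = i := congrArg Subtype.val (e.injective hex.choose_spec)
    have h0 := hψJ (y (e ⟨i, hi⟩)) (Ideal.mem_sup_right (Ideal.subset_span ⟨_, rfl⟩))
    simp only [y, dif_pos hex, hsame, map_sub, AlgHom.commutes, dual_algebraMap] at h0
    simpa using congrArg TrivSqZeroExt.snd h0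
  have hker : ∀ c : A, (ψ c).snd = 0 := by
    intro c
    obtain ⟨t, ht, hct⟩ := hgen c
    have h2 : (ψ (c - t)).snd = 0 := by
      rw [pow_two] at hct
      refine Submodule.mul_induction_on hct (fun u hu v hv => ?_) fun u v hu hv => ?_
      · have hfst : ∀ w ∈ maximalIdeal A, (ψ w).fst = 0 := fun w hw => by
          have hsurj : Function.Surjective
              ((TrivSqZeroExt.fstHom (ResidueField 𝒪) (ResidueField 𝒪) (ResidueField 𝒪)).toRingHom.comp
                (ψ : A →+* DualNumber (ResidueField 𝒪))) := fun z => by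
            obtain ⟨x, rfl⟩ := IsLocalRing.residue_surjective z
            exact ⟨algebraMap 𝒪 A x, by simp [dual_algebraMap]⟩
          have hmax := RingHom.ker_isMaximal_of_surjective _ hsurj
          have := (IsLocalRing.eq_maximalIdeal hmax).ge hw
          simpa using this
        simp [map_mul, hfst u hu, hfst v hv]
      · simp [map_add, hu, hv]
    have h3 : (ψ t).snd = 0 := by
      refine Algebra.adjoin_induction (fun x hx => ?_) (fun r => ?_) (fun x y _ _ hx hy => ?_)
        (fun x y _ _ hx hy => ?_) ht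
      · obtain ⟨i, rfl⟩ := hx
        exact congrFun hzero i
      · simp [dual_algebraMap]
      · simp [map_add, hx, hy]
      · simp [map_mul, hx, hy]
    rw [map_sub, TrivSqZeroExt.snd_sub, h3, sub_zero] at h2
    exact h2
  exact hφ (hker a)

/-- A complete algebra with relative tangent space of dimension at most `g` is a quotient of
the power series ring in `g` variables over the base. -/
theorem exists_surjective_powerSeries [IsNoetherianRing B] [IsAdicComplete (maximalIdeal B) B]
    [IsNoetherianRing A] [IsAdicComplete (maximalIdeal A) A]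
    (hsA : Function.Surjective (residue A ∘ algebraMap 𝒪 A)) (point : ι → A) (hgen : ∀ a : A,
      ∃ s ∈ Algebra.adjoin 𝒪 (Set.range point), a - s ∈ maximalIdeal A ^ 2)
    (W : Submodule (ResidueField 𝒪) (ι → ResidueField 𝒪))
    [FiniteDimensional (ResidueField 𝒪) W] {g : ℕ}
    (hg : Module.finrank (ResidueField 𝒪) W ≤ g)
    (hW : ∀ φ : A →ₐ[𝒪] DualNumber (ResidueField 𝒪),
      (∀ b ∈ maximalIdeal B, φ (algebraMap B A b) = 0) → (fun i => (φ (point i)).snd) ∈ W) :
    ∃ φ : MvPowerSeries (Fin g) B →ₐ[B] A,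
      IsLocalHom (φ : MvPowerSeries (Fin g) B →+* A) ∧ Function.Surjective φ := by
  obtain ⟨y, hy, hle⟩ := exists_relative_generators hsA point hgen W hg hW
  obtain ⟨φ, hφ, hφX⟩ := exists_algHom_powerSeries (B := B) y hy
  have : IsAdicComplete (maximalIdeal (MvPowerSeries (Fin g) B)) (MvPowerSeries (Fin g) B) :=
    isAdicComplete_mvPowerSeries
  refine ⟨φ, hφ, surjective_of_cotangent (φ : MvPowerSeries (Fin g) B →+* A) (fun z => ?_)
    (hle.trans (sup_le_sup_right (sup_le ?_ ?_) _))⟩
  · obtain ⟨u, hu⟩ := hsA z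
    refine ⟨algebraMap B _ (algebraMap 𝒪 B u), ?_⟩
    show residue A (φ (algebraMap B _ (algebraMap 𝒪 B u))) = z
    rw [φ.commutes, ← IsScalarTower.algebraMap_apply]
    exact hu
  · refine Ideal.map_le_iff_le_comap.mpr fun b hb => ?_
    rw [Ideal.mem_comap, ← φ.commutes]
    refine Ideal.mem_map_of_mem (φ : MvPowerSeries (Fin g) B →+* A) ?_
    rw [mem_maximalIdeal_iff_constantCoeff, MvPowerSeries.algebraMap_apply,
      MvPowerSeries.constantCoeff_C]
    simpa using hb
  · rw [Ideal.span_le]
    rintro _ ⟨l, rfl⟩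
    rw [← hφX l]
    exact Ideal.mem_map_of_mem (φ : MvPowerSeries (Fin g) B →+* A) (X_mem_maximalIdeal l)

end Criterion

end Fermat.Agent.Deform
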