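import Fermat.Agent.Deform.Global
import Fermat.Agent.Deform.Relative
import Fermat.Agent.Deform.Adjoint

/-!
# The relative tangent space of a global framed ring

Tangent vectors of the global framed functor which are trivial at the framed places lie in a space
of dimension at most (the classes locally trivial at those places) + (local invariants) + (number
of extra coordinates).
-/

set_option autoImplicit false

open IsLocalRing GaloisRep Fermat.Agent.DefRing Fermat.Agent.GalCoh

namespace Fermat.Agent.Deform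

attribute [local instance 10000] dualAlgebra

variable {𝒪 : Type} [CommRing 𝒪] [IsLocalRing 𝒪] (D : NormalData 𝒪)

local notation "M₂k" => Matrix (Fin 2) (Fin 2) (ResidueField 𝒪)

/-- The cocycles of normalised first order lifts form a subspace. -/
def normalCocycles : Submodule (ResidueField 𝒪) (GQ → M₂k) where
  carrier := {c | ∃ hc : ∀ g h, c (g * h) = adRep D.rbar g (c h) + c g,
    D.IsNormal (liftOf D.rbar c hc)}
  zero_mem' := by
    refine ⟨fun g h => by simp, ?_⟩
    have : liftOf D.rbar (0 : GQ → M₂k) (fun g h => by simp) =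
        mapRep (algebraMap (ResidueField 𝒪) (DualNumber (ResidueField 𝒪))) D.rbar := by
      refine MonoidHom.ext fun g => Matrix.ext fun a b => ?_
      show dualMat (D.rbar g) (0 * D.rbar g) a b = _
      simp [dualMat, TrivSqZeroExt.algebraMap_eq_inl]
    rw [this]
    exact D.isNormal_rbar.map
      ({ algebraMap (ResidueField 𝒪) (DualNumber (ResidueField 𝒪)) with commutes' := fun o => rfl } :
        ResidueField 𝒪 →ₐ[𝒪] DualNumber (ResidueField 𝒪))
  add_mem' := by
    rintro c c' ⟨hc, h1, h2, h3⟩ ⟨hc', h1', h2', h3'⟩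
    have hcc : ∀ g h, (c + c') (g * h) = adRep D.rbar g ((c + c') h) + (c + c') g := fun g h => by
      simp only [Pi.add_apply, hc g h, hc' g h, map_add]; abel
    refine ⟨hcc, ?_⟩
    have key : ∀ (x : MonoidAlgebra 𝒪 GQ) a b,
        (evRep (liftOf D.rbar (c + c') hcc) x a b).snd =
          (evRep (liftOf D.rbar c hc) x a b).snd + (evRep (liftOf D.rbar c' hc') x a b).snd ∧
        (evRep (liftOf D.rbar (c + c') hcc) x a b).fst = (evRep (liftOf D.rbar c hc) x a b).fst := by
      intro x
      induction x using MonoidAlgebra.induction_linear with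
      | zero => intro a b; simp
      | add x y hx hy =>
        intro a b
        obtain ⟨x1, x2⟩ := hx a b
        obtain ⟨y1, y2⟩ := hy a b
        simp only [map_add, Matrix.add_apply, TrivSqZeroExt.snd_add, TrivSqZeroExt.fst_add, x1, x2,
          y1, y2]
        refine ⟨?_, trivial⟩; abel
      | single σ o =>
        intro a b
        simp only [evRep, MonoidAlgebra.lift_single, Matrix.smul_apply, Algebra.smul_def,
          dual_algebraMap]
        simp [liftOf, dualMat, add_mul]
        ring
    obtain ⟨a1, a2⟩ := key D.u 1 0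
    obtain ⟨b1, b2⟩ := key D.w 0 0
    obtain ⟨c1, c2⟩ := key D.w 1 0
    refine ⟨TrivSqZeroExt.ext ?_ ?_, TrivSqZeroExt.ext ?_ ?_, TrivSqZeroExt.ext ?_ ?_⟩ <;>
      simp [a1, a2, b1, b2, c1, c2, h1, h2, h3, h1', h2', h3']
  smul_mem' := by
    rintro r c ⟨hc, h1, h2, h3⟩
    have hrc : ∀ g h, (r • c) (g * h) = adRep D.rbar g ((r • c) h) + (r • c) g := fun g h => by
      simp only [Pi.smul_apply, hc g h, map_smul, smul_add]
    refine ⟨hrc, ?_⟩
    have key : ∀ (x : MonoidAlgebra 𝒪 GQ) a b,
        (evRep (liftOf D.rbar (r • c) hrc) x a b).snd = r * (evRep (liftOf D.rbar c hc) x a b).snd ∧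
        (evRep (liftOf D.rbar (r • c) hrc) x a b).fst = (evRep (liftOf D.rbar c hc) x a b).fst := by
      intro x
      induction x using MonoidAlgebra.induction_linear with
      | zero => intro a b; simp
      | add x y hx hy =>
        intro a b
        obtain ⟨x1, x2⟩ := hx a b
        obtain ⟨y1, y2⟩ := hy a b
        simp only [map_add, Matrix.add_apply, TrivSqZeroExt.snd_add, TrivSqZeroExt.fst_add, x1, x2,
          y1, y2]
        refine ⟨?_, trivial⟩; ring
      | single σ o =>
        intro a b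
        have hσ : liftOf D.rbar (r • c) hrc σ a b = TrivSqZeroExt.inl (D.rbar σ a b) +
            TrivSqZeroExt.inr (r * (c σ * D.rbar σ) a b) := by
          show dualMat (D.rbar σ) ((r • c σ) * D.rbar σ) a b = _
          rw [smul_mul_assoc]
          simp [dualMat]
        simp only [evRep, MonoidAlgebra.lift_single, Matrix.smul_apply, hσ]
        simp only [Algebra.smul_def, dual_algebraMap]
        simp [liftOf, dualMat]
        ring
    obtain ⟨a1, a2⟩ := key D.u 1 0
    obtain ⟨b1, b2⟩ := key D.w 0 0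
    obtain ⟨c1, c2⟩ := key D.w 1 0
    refine ⟨TrivSqZeroExt.ext ?_ ?_, TrivSqZeroExt.ext ?_ ?_, TrivSqZeroExt.ext ?_ ?_⟩ <;>
      simp [a1, a2, b1, b2, c1, c2, h1, h2, h3]

variable {D}

/-- A normalised cocycle which is a coboundary vanishes. -/
theorem eq_zero_of_mem_normalCocycles_of_mem_B1 [Finite (ResidueField 𝒪)] {c : GQ → M₂k}
    (hn : c ∈ normalCocycles D) (hb : c ∈ B1 (adRep D.rbar)) : c = 0 := by
  obtain ⟨hc, hcn⟩ := hn
  obtain ⟨h0, h0n⟩ := (normalCocycles D).zero_mem
  obtain ⟨X, rfl⟩ := hb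
  have hT := isArtinianTestAlgebra_dual (𝒪 := 𝒪)
  have hred : ∀ (d : GQ → M₂k) (hd : ∀ g h, d (g * h) = adRep D.rbar g (d h) + d g),
      D.Reduces hT.isLocalHom hT.residue_surjective (liftOf D.rbar d hd) := by
    intro d hd
    have hfst : toResidue hT.isLocalHom hT.residue_surjective =
        ({ TrivSqZeroExt.fstHom (ResidueField 𝒪) (ResidueField 𝒪) (ResidueField 𝒪) with
          commutes' := fun o => rfl } : DualNumber (ResidueField 𝒪) →ₐ[𝒪] ResidueField 𝒪) := by
      refine (algHom_residueField_unique hT.isLocalHom hT.residue_surjective _ fun a ha => ?_).symm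
      by_contra hne
      exact ha ((TrivSqZeroExt.isUnit_iff_isUnit_fst).mpr (isUnit_iff_ne_zero.mpr hne))
    refine MonoidHom.ext fun g => Matrix.ext fun a b => ?_
    show toResidue hT.isLocalHom hT.residue_surjective (dualMat _ _ a b) = _
    rw [hfst]
    exact congrFun (congrFun (fst_dualMat (D.rbar g) (d g * D.rbar g)) a) b
  have heq : liftOf D.rbar 0 h0 = liftOf D.rbar _ hc := by
    refine NormalData.eq_of_conj h0n hcn (hred _ _) (hred _ _) (epsUnit (-X)) fun g => ?_
    show dualMat 1 (-X) * dualMat _ _ = dualMat _ _ * dualMat 1 (-X)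
    rw [dualMat_mul, dualMat_mul, one_mul, mul_one, one_mul, mul_one]
    congr 1
    simp only [Pi.zero_apply, zero_mul, zero_add, d0_apply, adRep_apply, sub_mul, mul_neg,
      neg_mul, mul_assoc, rho_inv_mul, mul_one]
    abel
  have := congrArg (fun N => cocOf D.rbar N) heq
  simp only [cocOf_liftOf] at this
  exact this.symm

section Bound

variable {V E : Type} {G : V → Type} [∀ v, Group (G v)] (f : ∀ v, G v →* GQ)
  (Zc : Submodule (ResidueField 𝒪) (GQ → Matrix (Fin 2) (Fin 2) (ResidueField 𝒪)))

variable (D) in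
/-- The classes of cocycles in `Zc` whose restrictions to the framed places are coboundaries. -/
noncomputable def relSelmer (L : Levels GQ) :
    Submodule (ResidueField 𝒪) (H1 L (adRep D.rbar)) :=
  Submodule.map (H1mk L (adRep D.rbar)) (Submodule.comap (Z1 L (adRep D.rbar)).subtype
    (Zc ⊓ ⨅ v, (B1 (MonoidHom.comp (adRep D.rbar) (f v))).comap
      (LinearMap.funLeft (ResidueField 𝒪) M₂k (f v))))

variable (D) in
/-- The parameter space of relative tangent vectors. -/
noncomputable def relSpace : Submodule (ResidueField 𝒪) ((GQ → M₂k) × (V → M₂k) × (E → ResidueField 𝒪)) :=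
  (Zc ⊓ normalCocycles D).comap (LinearMap.fst _ _ _) ⊓ ⨅ v,
    LinearMap.ker ((LinearMap.funLeft (ResidueField 𝒪) M₂k (f v)) ∘ₗ LinearMap.fst _ _ _ +
      (d0 (MonoidHom.comp (adRep D.rbar) (f v))) ∘ₗ LinearMap.proj v ∘ₗ LinearMap.fst _ _ _ ∘ₗ
        LinearMap.snd _ _ _)

theorem mem_relSpace {t : (GQ → M₂k) × (V → M₂k) × (E → ResidueField 𝒪)} :
    t ∈ relSpace D f Zc ↔ (t.1 ∈ Zc ∧ t.1 ∈ normalCocycles D) ∧
      ∀ v h, t.1 (f v h) + (adRep D.rbar (f v h) (t.2.1 v) - t.2.1 v) = 0 := by
  simp [relSpace, funext_iff, LinearMap.funLeft_apply, -adRep_apply]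

variable [Finite (ResidueField 𝒪)] [Fintype V] [Fintype E]

theorem finrank_relSpace_le {L : Levels GQ} (hZc : Zc ≤ Z1 L (adRep D.rbar))
    [FiniteDimensional (ResidueField 𝒪) Zc] :
    FiniteDimensional (ResidueField 𝒪) (relSpace D (E := E) f Zc) ∧
    Module.finrank (ResidueField 𝒪) (relSpace D (E := E) f Zc) ≤
      Module.finrank (ResidueField 𝒪) (relSelmer D f Zc L) +
        (∑ v, Module.finrank (ResidueField 𝒪)
          (Representation.invariants (MonoidHom.comp (adRep D.rbar) (f v)))) + Fintype.card E := by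
  classical
  set T := relSpace D (E := E) f Zc
  have hfin : FiniteDimensional (ResidueField 𝒪) T := by
    refine FiniteDimensional.of_injective
      ((LinearMap.codRestrict Zc ((LinearMap.fst _ _ _).comp T.subtype)
        fun t => ((mem_relSpace f Zc).mp t.2).1.1).prod
        ((LinearMap.snd _ _ _).comp T.subtype)) ?_
    intro t t' h
    obtain ⟨h1, h2⟩ := Prod.ext_iff.mp h
    exact Subtype.ext (Prod.ext (congrArg Subtype.val h1) h2)
  refine ⟨hfin, ?_⟩
  let Φ : T →ₗ[ResidueField 𝒪] H1 L (adRep D.rbar) :=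
    (H1mk L (adRep D.rbar)).comp (LinearMap.codRestrict (Z1 L (adRep D.rbar))
      ((LinearMap.fst _ _ _).comp T.subtype) fun t => hZc ((mem_relSpace f Zc).mp t.2).1.1)
  have hrange : LinearMap.range Φ ≤ relSelmer D f Zc L := by
    rintro _ ⟨t, rfl⟩
    refine ⟨_, ⟨((mem_relSpace f Zc).mp t.2).1.1, Submodule.mem_iInf _ |>.mpr fun v => ?_⟩, rfl⟩
    refine ⟨-(t.1.2.1 v), funext fun h => ?_⟩
    have := eq_neg_of_add_eq_zero_left (((mem_relSpace f Zc).mp t.2).2 v h)
    show _ = t.1.1 (f v h)
    rw [this, d0_apply, map_neg]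
    show -(adRep D.rbar (f v h) (t.1.2.1 v)) - -(t.1.2.1 v) = _
    abel
  have hker0 : ∀ t : LinearMap.ker Φ, t.1.1.1 = 0 := fun t =>
    eq_zero_of_mem_normalCocycles_of_mem_B1 ((mem_relSpace f Zc).mp t.1.2).1.2
      (H1mk_eq_zero_iff.mp t.2)
  let Ψ : LinearMap.ker Φ →ₗ[ResidueField 𝒪]
      (∀ v, Representation.invariants (MonoidHom.comp (adRep D.rbar) (f v))) ×
        (E → ResidueField 𝒪) :=
    (LinearMap.pi fun v => LinearMap.codRestrict
        (Representation.invariants (MonoidHom.comp (adRep D.rbar) (f v)))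
        ((LinearMap.proj v).comp ((LinearMap.fst _ _ _).comp ((LinearMap.snd _ _ _).comp
          (T.subtype.comp (LinearMap.ker Φ).subtype))))
        fun t h => by
          have := ((mem_relSpace f Zc).mp t.1.2).2 v h
          rw [hker0, Pi.zero_apply, zero_add, sub_eq_zero] at this
          exact this).prod
      ((LinearMap.snd _ _ _).comp ((LinearMap.snd _ _ _).comp
          (T.subtype.comp (LinearMap.ker Φ).subtype)))
  have hΨ : Function.Injective Ψ := by
    intro t t' h
    obtain ⟨h1, h2⟩ := Prod.ext_iff.mp h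
    refine Subtype.ext (Subtype.ext (Prod.ext ((hker0 t).trans (hker0 t').symm) (Prod.ext ?_ h2)))
    exact funext fun v => congrArg Subtype.val (congrFun h1 v)
  have h1 := LinearMap.finrank_range_add_finrank_ker Φ
  have h2 := LinearMap.finrank_le_finrank_of_injective hΨ
  rw [Module.finrank_prod, Module.finrank_pi_fintype, Module.finrank_pi] at h2
  have : FiniteDimensional (ResidueField 𝒪) (relSelmer D f Zc L) := by
    let K := Submodule.comap (Z1 L (adRep D.rbar)).subtype
      (Zc ⊓ ⨅ v, (B1 (MonoidHom.comp (adRep D.rbar) (f v))).comap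
        (LinearMap.funLeft (ResidueField 𝒪) (Matrix (Fin 2) (Fin 2) (ResidueField 𝒪)) (f v)))
    have : FiniteDimensional (ResidueField 𝒪) K := FiniteDimensional.of_injective
      (LinearMap.codRestrict Zc ((Z1 L (adRep D.rbar)).subtype.comp K.subtype) fun x => x.2.1)
      fun x y h => Subtype.ext (Subtype.ext (congrArg Subtype.val h :))
    exact Module.Finite.map K (H1mk L (adRep D.rbar))
  have h3 := Submodule.finrank_mono hrange
  omega

end Bound

/-- A point over any Artinian test algebra reached from the universal ring. -/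
theorem PointFunctor.UniversalPoint.mem_map {ι : Type} {F : PointFunctor 𝒪 ι} (P : F.UniversalPoint)
    {B : Type} [CommRing B] [IsLocalRing B] [Algebra 𝒪 B] (hB : IsArtinianTestAlgebra 𝒪 B)
    (φ : P.R →ₐ[𝒪] B) (hφ : IsLocalHom (φ : P.R →+* B)) : F.mem fun i => φ (P.point i) := by
  have := hB.isArtinian
  obtain ⟨N, hN⟩ := isNilpotent_maximalIdeal_of_isArtinianRing (A := B)
  obtain ⟨Q, _, _, _, q, hQ, hq, hqs, hker⟩ :=
    Closed.exists_quotient_level P.instIsLocalHom P.residue_surjective N
  obtain ⟨θ, hθ⟩ := exists_comp_eq hqs φ fun r hr => by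
    have h1 := mem_pow_of_algHom (φ : P.R →+* B) hφ
      (Ideal.pow_le_pow_right (Nat.le_succ N) ((hker r).mp hr))
    rw [hN, Ideal.zero_eq_bot, Ideal.mem_bot] at h1
    exact h1
  have h1 := F.map hQ hB θ (P.mem' hQ q hq hqs)
  convert h1 using 2 with i
  rw [← hθ, AlgHom.comp_apply]

/-- A map to the dual numbers is local. -/
theorem isLocalHom_toDual {R : Type} [CommRing R] [IsLocalRing R] [Algebra 𝒪 R]
    (φ : R →ₐ[𝒪] DualNumber (ResidueField 𝒪)) :
    IsLocalHom (φ : R →+* DualNumber (ResidueField 𝒪)) := by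
  refine ⟨fun x hx => ?_⟩
  let π : R →+* ResidueField 𝒪 :=
    (TrivSqZeroExt.fstHom (ResidueField 𝒪) (ResidueField 𝒪) (ResidueField 𝒪)).toRingHom.comp
      (φ : R →+* DualNumber (ResidueField 𝒪))
  have hπ : Function.Surjective π := fun z => by
    obtain ⟨o, rfl⟩ := IsLocalRing.residue_surjective z
    exact ⟨algebraMap 𝒪 R o, by simp [π, dual_algebraMap]⟩
  have hmax := RingHom.ker_isMaximal_of_surjective _ hπ
  by_contra hu
  have h1 : π x = 0 := (IsLocalRing.eq_maximalIdeal hmax).ge hu
  have h2 : IsUnit (π x) := TrivSqZeroExt.isUnit_iff_isUnit_fst.mp hx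
  exact h2.ne_zero h1

end Fermat.Agent.Deform
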