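import Fermat.Agent.Deform.Hermite
import Fermat.Agent.Deform.TangentBound

/-!
# Finiteness for deformations unramified outside a finite set of primes
-/

set_option autoImplicit false

open IsLocalRing GaloisRep Fermat.Agent.DefRing Fermat.Agent.GalCoh

namespace Fermat.Agent.Deform

local notation "Ω" => AlgebraicClosure ℚ

local instance isAlgebraicQbar_dfin : Algebra.IsAlgebraic ℚ (AlgebraicClosure ℚ) :=
  AlgebraicClosure.isAlgebraic ℚ
local instance isGaloisQbar_dfin : IsGalois ℚ (AlgebraicClosure ℚ) :=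
  have : IsAlgClosure ℚ (AlgebraicClosure ℚ) := ⟨inferInstance, inferInstance⟩
  have : Normal ℚ (AlgebraicClosure ℚ) := IsAlgClosure.normal ℚ (AlgebraicClosure ℚ)
  IsGalois.mk

/-- A finite level representation killing inertia outside `S` is trivial on a level of `G_{ℚ,S}`. -/
theorem exists_levelS_trivial {M : Type} [Monoid M] {S : Finset Nat.Primes} (N : GQ →* M)
    (hL : ∃ L : IntermediateField ℚ Ω, FiniteDimensional ℚ L ∧
      ∀ σ : GQ, (∀ x ∈ L, σ x = x) → N σ = 1)
    (hS : ∀ q : Nat.Primes, q ∉ S → ∀ P : ValuationSubring Ω, P.LiesOverPrime (q : ℕ) →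
      ∀ σ ∈ P.inertiaSubgroupIn ℚ, N σ = 1) :
    ∃ U, (levelsS S).mem U ∧ ∀ s ∈ U, N s = 1 := by
  obtain ⟨L, hL, h1⟩ := hL
  let H : Subgroup GQ := N.toHomUnits.ker
  have hle : L.fixingSubgroup ≤ H := fun σ hσ =>
    Units.ext (h1 σ fun x hx => (IntermediateField.mem_fixingSubgroup_iff L σ).mp hσ x hx)
  have hopen : IsOpen (H : Set GQ) := Subgroup.isOpen_mono hle L.fixingSubgroup_isOpen
  have hfix : (IntermediateField.fixedField H).fixingSubgroup = H :=
    InfiniteGalois.fixingSubgroup_fixedField ⟨H, H.isClosed_of_isOpen hopen⟩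
  have hFL : IntermediateField.fixedField H ≤ L := by
    rw [← InfiniteGalois.fixedField_fixingSubgroup L]
    exact IntermediateField.fixedField_antitone hle
  refine ⟨H, ⟨IntermediateField.fixedField H, ⟨FiniteDimensional.of_injective
      (IntermediateField.inclusion hFL).toLinearMap (IntermediateField.inclusion_injective hFL),
    fun q hq P hP σ hσ => ?_⟩, hfix.le⟩, fun s hs => congrArg Units.val hs⟩
  rw [hfix]
  exact Units.ext (hS q hq P hP σ hσ)

/-- Unramified adic representations, in matrices. -/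
theorem matrix_eq_one_of_isUnramifiedAt {A : Type} [CommRing A] [IsLocalRing A] {N : MRep A}
    {hc : IsCont N} {q : ℕ} (h : (toAdic N hc).IsUnramifiedAt q) {P : ValuationSubring Ω}
    (hP : P.LiesOverPrime q) {σ : GQ} (hσ : σ ∈ P.inertiaSubgroupIn ℚ) : N σ = 1 := by
  have h1 := h P hP σ hσ
  exact (Matrix.toLinAlgEquiv' (R := A) (n := Fin 2)).injective (h1.trans (map_one _).symm)

attribute [local instance 10000] dualAlgebra

variable {𝒪 : Type} [CommRing 𝒪] [IsLocalRing 𝒪] [Finite (ResidueField 𝒪)] {D : NormalData 𝒪}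
  {𝒟 : ∀ ⦃A : Type⦄ [CommRing A] [IsLocalRing A] [Algebra 𝒪 A], GaloisRepAdic A → Prop}

/-- First order deformations unramified outside `S` are trivial on a level of `G_{ℚ,S}`. -/
theorem tangentSet_trivial_levelS {S : Finset Nat.Primes}
    (hS : ∀ ⦃A : Type⦄ [CommRing A] [IsLocalRing A] [Algebra 𝒪 A] (ρ : GaloisRepAdic A), 𝒟 ρ →
      ∀ q : Nat.Primes, q ∉ S → ρ.IsUnramifiedAt (q : ℕ))
    (N : TangentSet D 𝒟) : ∃ U, (levelsS S).mem U ∧ ∀ s ∈ U, N.1 s = 1 := by
  have := (isArtinianTestAlgebra_dual (𝒪 := 𝒪)).isArtinian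
  exact exists_levelS_trivial N.1 N.2.cont.finite_level fun q hq P hP σ hσ =>
    matrix_eq_one_of_isUnramifiedAt (hS _ N.2.type q hq) hP hσ

/-- Finitely many first order deformations unramified outside a finite set. -/
theorem finite_tangentSet_of_unramifiedOutside {S : Finset Nat.Primes}
    (hS : ∀ ⦃A : Type⦄ [CommRing A] [IsLocalRing A] [Algebra 𝒪 A] (ρ : GaloisRepAdic A), 𝒟 ρ →
      ∀ q : Nat.Primes, q ∉ S → ρ.IsUnramifiedAt (q : ℕ)) : Finite (TangentSet D 𝒟) := by
  have : Finite (DualNumber (ResidueField 𝒪)) :=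
    inferInstanceAs (Finite (ResidueField 𝒪 × ResidueField 𝒪))
  obtain ⟨U, hU, hN⟩ := exists_level_forall_hom S (Matrix (Fin 2) (Fin 2) (DualNumber (ResidueField 𝒪)))
  have := (levelsS S).finiteIndex hU
  have : Finite (GQ ⧸ U) := Subgroup.finite_quotient_of_finiteIndex
  refine Finite.of_injective (fun (N : TangentSet D 𝒟) (x : GQ ⧸ U) => N.1 x.out) fun N N' h => ?_
  refine Subtype.ext (MonoidHom.ext fun g => ?_)
  obtain ⟨u, hu⟩ := QuotientGroup.mk_out_eq_mul U g
  have key : ∀ M : TangentSet D 𝒟, M.1 ((g : GQ ⧸ U).out) = M.1 g := fun M => by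
    rw [hu, map_mul, hN M.1 (tangentSet_trivial_levelS hS M) _ u.2, mul_one]
  rw [← key N, ← key N']
  exact congrFun h (g : GQ ⧸ U)

/-- The adjoint cocycles of `G_{ℚ,S}` are finite. -/
theorem finite_Z1_levelS (S : Finset Nat.Primes)
    (hρ : ∃ U, (levelsS S).mem U ∧ ∀ s ∈ U, D.rbar s = 1) :
    Finite (Z1 (levelsS S) (adRep D.rbar)) := by
  have : Finite (DualNumber (ResidueField 𝒪)) :=
    inferInstanceAs (Finite (ResidueField 𝒪 × ResidueField 𝒪))
  obtain ⟨U, hU, hN⟩ := exists_level_forall_hom S (Matrix (Fin 2) (Fin 2) (DualNumber (ResidueField 𝒪)))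
  have := (levelsS S).finiteIndex hU
  have : Finite (GQ ⧸ U) := Subgroup.finite_quotient_of_finiteIndex
  refine Finite.of_injective (fun (c : Z1 (levelsS S) (adRep D.rbar)) (x : GQ ⧸ U) => c.1 x.out)
    fun c c' h => ?_
  refine Subtype.ext (funext fun g => ?_)
  obtain ⟨u, hu⟩ := QuotientGroup.mk_out_eq_mul U g
  have key : ∀ d : Z1 (levelsS S) (adRep D.rbar), d.1 ((g : GQ ⧸ U).out) = d.1 g := fun d => by
    obtain ⟨hd, V, hV, hV'⟩ := mem_Z1_iff.mp d.2
    obtain ⟨W, hW, hρW⟩ := hρ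
    have hlift := hN (liftOf D.rbar d.1 hd) ⟨V ⊓ W, (levelsS S).inf_mem hV hW, fun s hs => by
      show dualMat _ _ = 1
      have h0 : d.1 s = 0 := by
        have := hV' 1 s hs.1
        rwa [one_mul, Z1.map_one d.2] at this
      rw [h0, hρW s hs.2, zero_mul, dualMat_one]⟩ u u.2
    have h1 := congrArg (fun A => A.map TrivSqZeroExt.fst) hlift
    have h2 := congrArg (fun A => A.map TrivSqZeroExt.snd) hlift
    rw [← dualMat_one] at h1 h2
    change (dualMat _ _).map _ = _ at h1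
    change (dualMat _ _).map _ = _ at h2
    simp only [fst_dualMat] at h1
    simp only [snd_dualMat] at h2
    rw [h1, mul_one] at h2
    rw [hu, hd, h2, map_zero, zero_add]
  rw [← key c, ← key c']
  exact congrFun h (g : GQ ⧸ U)

/-- The cocycle of a first order deformation unramified outside `S`. -/
theorem cocOf_mem_Z1_levelS {S : Finset Nat.Primes}
    (hS : ∀ ⦃A : Type⦄ [CommRing A] [IsLocalRing A] [Algebra 𝒪 A] (ρ : GaloisRepAdic A), 𝒟 ρ →
      ∀ q : Nat.Primes, q ∉ S → ρ.IsUnramifiedAt (q : ℕ))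
    (N : TangentSet D 𝒟) : cocOf D.rbar N.1 ∈ Z1 (levelsS S) (adRep D.rbar) := by
  have hT := isArtinianTestAlgebra_dual (𝒪 := 𝒪)
  refine cocOf_mem_Z1 (fun g => Matrix.ext fun a b => ?_) (tangentSet_trivial_levelS hS N)
  have h1 := congrFun (congrFun (DFunLike.congr_fun N.2.reduces g) a) b
  rw [← h1, Matrix.map_apply]
  obtain ⟨o, ho⟩ := exists_algebraMap_add_mem hT.residue_surjective (N.1 g a b)
  have h2 := (toResidue_eq_zero_iff hT.isLocalHom hT.residue_surjective).mpr ho
  rw [map_sub, sub_eq_zero, AlgHom.commutes] at h2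
  show _ = toResidue hT.isLocalHom hT.residue_surjective (N.1 g a b)
  rw [h2]
  by_contra hne
  exact ho (TrivSqZeroExt.isUnit_iff_isUnit_fst.mpr (isUnit_iff_ne_zero.mpr (by
    rw [TrivSqZeroExt.fst_sub, dual_algebraMap, TrivSqZeroExt.fst_inl, sub_ne_zero]
    exact hne)))

end Fermat.Agent.Deform
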