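import Fermat.Agent.Deform.Adjoint

/-!
# The adjoint representation on trace zero matrices
-/

set_option autoImplicit false

noncomputable section

open Fermat.Agent.GalCoh

namespace Fermat.Agent.Deform

variable {k : Type} [Field k] {G : Type} [Group G]

variable (k) in
/-- Trace zero matrices. -/
def traceZero : Submodule k (Matrix (Fin 2) (Fin 2) k) :=
  LinearMap.ker (Matrix.traceLinearMap (Fin 2) k k)

theorem mem_traceZero {X : Matrix (Fin 2) (Fin 2) k} : X ∈ traceZero k ↔ X.trace = 0 := Iff.rfl

theorem trace_adRep (ρ : G →* Matrix (Fin 2) (Fin 2) k) (g : G) (X : Matrix (Fin 2) (Fin 2) k) :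
    (adRep ρ g X).trace = X.trace := by
  rw [adRep_apply, Matrix.trace_mul_comm, ← mul_assoc, rho_inv_mul, one_mul]

/-- The adjoint representation on trace zero matrices. -/
def slRep (ρ : G →* Matrix (Fin 2) (Fin 2) k) : Representation k G (traceZero k) where
  toFun g := (adRep ρ g).restrict fun X hX => by
    rw [mem_traceZero] at hX ⊢
    rw [trace_adRep, hX]
  map_one' := LinearMap.ext fun X => Subtype.ext (by simp [LinearMap.restrict_apply])
  map_mul' g h := LinearMap.ext fun X => Subtype.ext (by simp [LinearMap.restrict_apply, mul_assoc])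

@[simp]
theorem coe_slRep (ρ : G →* Matrix (Fin 2) (Fin 2) k) (g : G) (X : traceZero k) :
    (slRep ρ g X : Matrix (Fin 2) (Fin 2) k) = adRep ρ g X := rfl

end Fermat.Agent.Deform
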