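import Fermat.Agent.Deform.Points

/-!
# Matrix families as coordinate vectors

A family of `2 × 2` matrices indexed by a group as a vector of coordinates, and natural matrix
valued functions of coordinates as coordinate maps.
-/

set_option autoImplicit false

open IsLocalRing GaloisRep Fermat.Agent.DefRing

namespace Fermat.Agent.Deform

variable {𝒪 : Type} [CommRing 𝒪] [IsLocalRing 𝒪] {G : Type} [Group G]

/-- The matrix at a group element of a coordinate vector. -/
def matAt {A : Type} (e : G × Fin 2 × Fin 2 → A) (g : G) : Matrix (Fin 2) (Fin 2) A :=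
  Matrix.of fun a b => e (g, a, b)

/-- The coordinates of a family of matrices. -/
def coordsOf {A : Type} (N : G → Matrix (Fin 2) (Fin 2) A) : G × Fin 2 × Fin 2 → A :=
  fun p => N p.1 p.2.1 p.2.2

omit [Group G] in
@[simp]
theorem matAt_coordsOf {A : Type} (N : G → Matrix (Fin 2) (Fin 2) A) (g : G) :
    matAt (coordsOf N) g = N g := rfl

omit [Group G] in
theorem coordsOf_matAt {A : Type} (e : G × Fin 2 × Fin 2 → A) : coordsOf (matAt e) = e := rfl

/-- Entries of a natural matrix valued function, as a coordinate map. -/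
def CoordMap.ofMatrix {ι α : Type}
    (val : α → ∀ ⦃A : Type⦄ [CommRing A] [Algebra 𝒪 A], (ι → A) → Matrix (Fin 2) (Fin 2) A)
    (natural : ∀ (x : α) ⦃A B : Type⦄ [CommRing A] [Algebra 𝒪 A] [CommRing B] [Algebra 𝒪 B]
      (φ : A →ₐ[𝒪] B) (e : ι → A), (val x e).map φ = val x (fun i => φ (e i))) :
    CoordMap 𝒪 ι (α × Fin 2 × Fin 2) where
  val _A _ _ e p := val p.1 e p.2.1 p.2.2
  natural _ _ _ _ _ _ φ e p := congrFun (congrFun (natural p.1 φ e) p.2.1) p.2.2

end Fermat.Agent.Deform
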