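import Fermat.Agent.DefRing.Levels

/-!
# Point functors and their universal points

A point functor assigns to each Artinian test algebra `A` a set of "coordinate vectors"
`e : ι → A`, functorial, stable under descent along injections and under fibre products, with a
given residual point. Framed, normalised, product and "extra coordinate" deformation functors
are all of this shape.
-/

set_option autoImplicit false

open IsLocalRing GaloisRep Fermat.Agent.DefRing

namespace Fermat.Agent.Deform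

variable (𝒪 : Type) [CommRing 𝒪] [IsLocalRing 𝒪]

/-- A subfunctor of `A ↦ (ι → A)` on test algebras, with a given residual point. -/
structure PointFunctor (ι : Type) where
  /-- the points over a test algebra -/
  mem : ∀ ⦃A : Type⦄ [CommRing A] [IsLocalRing A] [Algebra 𝒪 A], (ι → A) → Prop
  /-- the residual point -/
  base : ι → ResidueField 𝒪
  mem_base : mem base
  residue_eq : ∀ ⦃A : Type⦄ [CommRing A] [IsLocalRing A] [Algebra 𝒪 A]
    (hA : IsArtinianTestAlgebra 𝒪 A) ⦃e : ι → A⦄, mem e →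
      ∀ i, toResidue hA.isLocalHom hA.residue_surjective (e i) = base i
  map : ∀ ⦃A B : Type⦄ [CommRing A] [IsLocalRing A] [Algebra 𝒪 A] [CommRing B] [IsLocalRing B]
    [Algebra 𝒪 B], IsArtinianTestAlgebra 𝒪 A → IsArtinianTestAlgebra 𝒪 B →
      ∀ (φ : A →ₐ[𝒪] B) ⦃e : ι → A⦄, mem e → mem (fun i => φ (e i))
  descend : ∀ ⦃A B : Type⦄ [CommRing A] [IsLocalRing A] [Algebra 𝒪 A] [CommRing B] [IsLocalRing B]
    [Algebra 𝒪 B], IsArtinianTestAlgebra 𝒪 A → IsArtinianTestAlgebra 𝒪 B →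
      ∀ (φ : A →ₐ[𝒪] B), Function.Injective φ → ∀ ⦃e : ι → A⦄,
        mem (fun i => φ (e i)) → mem e
  fibre : ∀ ⦃A B C P : Type⦄ [CommRing A] [IsLocalRing A] [Algebra 𝒪 A]
    [CommRing B] [IsLocalRing B] [Algebra 𝒪 B] [CommRing C] [IsLocalRing C] [Algebra 𝒪 C]
    [CommRing P] [IsLocalRing P] [Algebra 𝒪 P],
    IsArtinianTestAlgebra 𝒪 A → IsArtinianTestAlgebra 𝒪 B → IsArtinianTestAlgebra 𝒪 C →
    IsArtinianTestAlgebra 𝒪 P →
    ∀ (f : A →ₐ[𝒪] C) (g : B →ₐ[𝒪] C) (pA : P →ₐ[𝒪] A) (pB : P →ₐ[𝒪] B),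
      f.comp pA = g.comp pB →
      Function.Injective (fun x => (pA x, pB x)) →
      (∀ a b, f a = g b → ∃ x, pA x = a ∧ pB x = b) →
      ∀ ⦃e : ι → P⦄, mem (fun i => pA (e i)) → mem (fun i => pB (e i)) → mem e

variable {𝒪} {ι : Type}

namespace PointFunctor

attribute [local instance 10000] dualAlgebra

/-- The tangent points. -/
abbrev Tangent (F : PointFunctor 𝒪 ι) : Type :=
  {e : ι → DualNumber (ResidueField 𝒪) // F.mem e}

/-- Points over a complete local algebra: every Artinian quotient is a point. -/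
def Mem' (F : PointFunctor 𝒪 ι) {A : Type} [CommRing A] [IsLocalRing A] [Algebra 𝒪 A]
    (e : ι → A) : Prop :=
  ∀ ⦃B : Type⦄ [CommRing B] [IsLocalRing B] [Algebra 𝒪 B], IsArtinianTestAlgebra 𝒪 B →
    ∀ q : A →ₐ[𝒪] B, IsLocalHom (q : A →+* B) → Function.Surjective q →
      F.mem (fun i => q (e i))

/-- A generated point killed by `m ^ n`. -/
structure LevelAlg (F : PointFunctor 𝒪 ι) (n : ℕ) : Type 1 where
  carrier : Type
  [commRing : CommRing carrier]
  [localRing : IsLocalRing carrier]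
  [algebra : Algebra 𝒪 carrier]
  test : IsArtinianTestAlgebra 𝒪 carrier
  point : ι → carrier
  mem : F.mem point
  gen : Algebra.adjoin 𝒪 (Set.range point) = ⊤
  pow : maximalIdeal carrier ^ n = ⊥

attribute [instance] LevelAlg.commRing LevelAlg.localRing LevelAlg.algebra

variable (F : PointFunctor 𝒪 ι)

omit [IsLocalRing 𝒪] in
theorem algHom_eq_of_point {A B : Type} [CommRing A] [Algebra 𝒪 A] [CommRing B] [Algebra 𝒪 B]
    {e : ι → A} (hgen : Algebra.adjoin 𝒪 (Set.range e) = ⊤) {φ ψ : A →ₐ[𝒪] B}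
    (h : ∀ i, φ (e i) = ψ (e i)) : φ = ψ :=
  AlgHom.ext_of_adjoin_eq_top hgen (by rintro _ ⟨i, rfl⟩; exact h i)

omit [IsLocalRing 𝒪] in
theorem surjective_of_point {A B : Type} [CommRing A] [Algebra 𝒪 A] [CommRing B] [Algebra 𝒪 B]
    {e : ι → B} (hgen : Algebra.adjoin 𝒪 (Set.range e) = ⊤) (φ : A →ₐ[𝒪] B) {e' : ι → A}
    (h : ∀ i, φ (e' i) = e i) : Function.Surjective φ := by
  rw [← AlgHom.range_eq_top, eq_top_iff, ← hgen]
  refine Algebra.adjoin_le ?_
  rintro _ ⟨i, rfl⟩
  exact ⟨e' i, h i⟩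

variable {F} [Finite (ResidueField 𝒪)]

theorem exists_generators {A : Type} [CommRing A] [IsLocalRing A] [Algebra 𝒪 A]
    (hA : IsArtinianTestAlgebra 𝒪 A) {e : ι → A} (he : F.mem e)
    (hgen : Algebra.adjoin 𝒪 (Set.range e) = ⊤) :
    ∃ x : (F.Tangent → ResidueField 𝒪) → A, (∀ t, x t ∈ maximalIdeal A) ∧
      ∀ a ∈ maximalIdeal A, ∃ t,
        a - x t ∈ maximalIdeal A ^ 2 ⊔ (maximalIdeal 𝒪).map (algebraMap 𝒪 A) := by
  classical
  let Φ : A → (F.Tangent → ResidueField 𝒪) := fun a τ =>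
    if h : ∃ φ : A →ₐ[𝒪] DualNumber (ResidueField 𝒪), ∀ i, φ (e i) = τ.1 i
      then (h.choose a).snd else 0
  let x : (F.Tangent → ResidueField 𝒪) → A := fun t =>
    if h : ∃ a ∈ maximalIdeal A, Φ a = t then h.choose else 0
  have hx : ∀ t, x t ∈ maximalIdeal A := fun t => by
    by_cases h : ∃ a ∈ maximalIdeal A, Φ a = t
    · simp only [x, dif_pos h]; exact h.choose_spec.1
    · simp only [x, dif_neg h]; exact zero_mem _
  refine ⟨x, hx, fun a ha => ⟨Φ a, ?_⟩⟩
  by_contra hK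
  obtain ⟨φ, hφ⟩ := exists_algHom_dual_snd_ne_zero hA.isLocalHom hA.residue_surjective
    (sub_mem ha (hx (Φ a))) hK
  let τ : F.Tangent := ⟨fun i => φ (e i), F.map hA isArtinianTestAlgebra_dual φ he⟩
  have hτ : ∀ c, Φ c τ = (φ c).snd := by
    intro c
    have h : ∃ ψ : A →ₐ[𝒪] DualNumber (ResidueField 𝒪), ∀ i, ψ (e i) = τ.1 i := ⟨φ, fun i => rfl⟩
    simp only [Φ, dif_pos h]
    rw [algHom_eq_of_point hgen h.choose_spec]
  have h : ∃ c ∈ maximalIdeal A, Φ c = Φ a := ⟨a, ha, rfl⟩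
  have := congrFun h.choose_spec.2 τ
  rw [hτ, hτ] at this
  apply hφ
  rw [map_sub, TrivSqZeroExt.snd_sub]
  simp only [x, dif_pos h, this, sub_self]

namespace LevelAlg

variable {n : ℕ}

theorem finite (X : LevelAlg F n) : Finite X.carrier := finite_of_isArtinianTestAlgebra X.test

theorem exists_surjective [Finite F.Tangent] (X : LevelAlg F n) :
    ∃ ψ : MvPowerSeries (F.Tangent → ResidueField 𝒪) 𝒪 →ₐ[𝒪] X.carrier,
      Function.Surjective ψ := by
  have := X.test.isArtinian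
  have hnil := isNilpotent_maximalIdeal_of_isArtinianRing (A := X.carrier)
  obtain ⟨x, hx, hgen⟩ := PointFunctor.exists_generators X.test X.mem X.gen
  obtain ⟨ψ, hψ⟩ := exists_algHom_X_eq (O := 𝒪) hnil x hx
  refine ⟨ψ, ?_⟩
  rw [← AlgHom.range_eq_top]
  refine subalgebra_eq_top hnil X.test.residue_surjective _ fun a ha => ?_
  obtain ⟨t, ht⟩ := hgen a ha
  obtain ⟨y, hy, z, hz, hyz⟩ := Submodule.mem_sup.mp ht
  obtain ⟨o, -, ho⟩ := map_algebraMap_maximalIdeal_le X.test.isLocalHom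
    X.test.residue_surjective hz
  refine ⟨x t + algebraMap 𝒪 X.carrier o, ⟨MvPowerSeries.X t + algebraMap 𝒪 _ o, by
    exact (map_add ψ _ _).trans (congrArg₂ (· + ·) (hψ t) (ψ.commutes o))⟩, ?_⟩
  rw [← sub_sub, ← hyz, add_sub_assoc]
  exact add_mem hy ho

theorem exists_max [IsNoetherianRing 𝒪] [Finite F.Tangent] (hn : 0 < n) :
    ∃ X : LevelAlg F n, ∀ Y : LevelAlg F n, Nat.card Y.carrier ≤ Nat.card X.carrier := by
  have hm : maximalIdeal (ResidueField 𝒪) = ⊥ :=
    (Ideal.eq_bot_or_top _).resolve_right (Ideal.IsMaximal.ne_top inferInstance)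
  have : Nonempty (LevelAlg F n) := ⟨{
    carrier := ResidueField 𝒪
    test := isArtinianTestAlgebra_of_toField (AlgHom.id 𝒪 _) fun c hc => ⟨1, by simpa using hc⟩
    point := F.base
    mem := F.mem_base
    gen := Algebra.eq_top_iff.mpr fun c => by
      obtain ⟨o, rfl⟩ := residue_surjective c
      exact Subalgebra.algebraMap_mem _ o
    pow := by rw [hm, Ideal.bot_pow (by omega)] }⟩
  have hbound : ∀ Y : LevelAlg F n, Nat.card Y.carrier ≤
      Nat.card (MvPowerSeries (F.Tangent → ResidueField 𝒪) 𝒪 ⧸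
        maximalIdeal (MvPowerSeries (F.Tangent → ResidueField 𝒪) 𝒪) ^ n) := by
    intro Y
    obtain ⟨ψ, hψ⟩ := Y.exists_surjective
    have hker : ∀ f ∈ maximalIdeal (MvPowerSeries (F.Tangent → ResidueField 𝒪) 𝒪) ^ n,
        ψ.toRingHom f = 0 := fun f hf => by
      have := mem_pow_of_algHom ψ.toRingHom (isLocalHom_of_surjective' _ hψ) hf
      rwa [Y.pow, Ideal.mem_bot] at this
    have := finite_quotient_pow_maximalIdeal (O := 𝒪) (σ := F.Tangent → ResidueField 𝒪) n
    exact Nat.card_le_card_of_surjective _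
      (Ideal.Quotient.lift_surjective_of_surjective _ hker hψ)
  have hfin : (Set.range fun Y : LevelAlg F n => Nat.card Y.carrier).Finite :=
    (Set.finite_Iic _).subset (Set.range_subset_iff.mpr hbound)
  obtain ⟨_, ⟨X, rfl⟩, hX⟩ := Set.exists_max_image _ id hfin (Set.range_nonempty _)
  exact ⟨X, fun Y => hX _ ⟨Y, rfl⟩⟩

/-- The subalgebra generated by a point. -/
theorem exists_generated {P : Type} [CommRing P] [IsLocalRing P] [Algebra 𝒪 P]
    (hP : IsArtinianTestAlgebra 𝒪 P) {e : ι → P} (he : F.mem e)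
    (hpow : maximalIdeal P ^ n = ⊥) :
    ∃ (Y : LevelAlg F n) (v : Y.carrier →ₐ[𝒪] P), ∀ i, v (Y.point i) = e i := by
  have := finite_of_isArtinianTestAlgebra hP
  let S : Subalgebra 𝒪 P := Algebra.adjoin 𝒪 (Set.range e)
  let π : S →ₐ[𝒪] ResidueField 𝒪 := (toResidue hP.isLocalHom hP.residue_surjective).comp S.val
  have hnil : ∀ c : S, π c = 0 → IsNilpotent c := fun c hc => ⟨n, Subtype.ext (by
    have h := Ideal.pow_mem_pow
      ((toResidue_eq_zero_iff hP.isLocalHom hP.residue_surjective).mp hc) n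
    rw [hpow, Ideal.mem_bot] at h
    simpa using h)⟩
  have : IsLocalRing S := isLocalRing_of_toField (C := S) π hnil
  have hS : IsArtinianTestAlgebra 𝒪 S := isArtinianTestAlgebra_of_toField π hnil
  have := hS.isArtinian
  let e' : ι → S := fun i => ⟨e i, Algebra.subset_adjoin ⟨i, rfl⟩⟩
  have hgen : Algebra.adjoin 𝒪 (Set.range e') = ⊤ := by
    refine eq_top_iff.mpr ((Algebra.adjoin_adjoin_coe_preimage (R := 𝒪)
      (s := Set.range e)).ge.trans (Algebra.adjoin_mono ?_))
    rintro c ⟨i, hc⟩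
    exact ⟨i, Subtype.ext hc⟩
  have hpowS : maximalIdeal S ^ n = ⊥ := by
    refine eq_bot_iff.mpr fun c hc => Ideal.mem_bot.mpr (Subtype.ext ?_)
    have h := mem_pow_of_algHom (S.val : S →+* P) (isLocalHom_of_isArtinianRing _) hc
    rw [hpow, Ideal.mem_bot] at h
    simpa using h
  exact ⟨⟨S, hS, e', F.descend hS hP S.val Subtype.val_injective he, hgen, hpowS⟩, S.val,
    fun i => rfl⟩

/-- The largest point maps to every point killed by `m ^ n`. -/
theorem exists_algHom_of_max (X : LevelAlg F n)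
    (hX : ∀ Y : LevelAlg F n, Nat.card Y.carrier ≤ Nat.card X.carrier) {B : Type} [CommRing B]
    [IsLocalRing B] [Algebra 𝒪 B] (hB : IsArtinianTestAlgebra 𝒪 B) {e : ι → B} (he : F.mem e)
    (hpow : maximalIdeal B ^ n = ⊥) :
    ∃ φ : X.carrier →ₐ[𝒪] B, ∀ i, φ (X.point i) = e i := by
  have := X.finite
  have := finite_of_isArtinianTestAlgebra hB
  let πA := toResidue X.test.isLocalHom X.test.residue_surjective
  let πB := toResidue hB.isLocalHom hB.residue_surjective
  let P : Subalgebra 𝒪 (X.carrier × B) :=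
    AlgHom.equalizer (πA.comp (AlgHom.fst 𝒪 X.carrier B)) (πB.comp (AlgHom.snd 𝒪 X.carrier B))
  let pA : P →ₐ[𝒪] X.carrier := (AlgHom.fst 𝒪 X.carrier B).comp P.val
  let pB : P →ₐ[𝒪] B := (AlgHom.snd 𝒪 X.carrier B).comp P.val
  let πP : P →ₐ[𝒪] ResidueField 𝒪 := πA.comp pA
  have hjoint : ∀ a b : P, pA a = pA b → pB a = pB b → a = b := fun a b h1 h2 =>
    Subtype.ext (Prod.ext h1 h2)
  have hnil : ∀ c : P, πP c = 0 → IsNilpotent c := fun c hc => ⟨n, by
    have hc' : πB (pB c) = 0 := (c.2 : πA (pA c) = πB (pB c)).symm.trans hc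
    have e1 := Ideal.pow_mem_pow
      ((toResidue_eq_zero_iff X.test.isLocalHom X.test.residue_surjective).mp hc) n
    have e2 := Ideal.pow_mem_pow
      ((toResidue_eq_zero_iff hB.isLocalHom hB.residue_surjective).mp hc') n
    rw [X.pow, Ideal.mem_bot] at e1
    rw [hpow, Ideal.mem_bot] at e2
    exact hjoint _ _ (by rw [map_pow, map_zero]; exact e1) (by rw [map_pow, map_zero]; exact e2)⟩
  have : IsLocalRing P := isLocalRing_of_toField (C := P) πP hnil
  have hP : IsArtinianTestAlgebra 𝒪 P := isArtinianTestAlgebra_of_toField πP hnil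
  have := hP.isArtinian
  let eP : ι → P := fun i => ⟨(X.point i, e i),
    show πA (X.point i) = πB (e i) from
      (F.residue_eq X.test X.mem i).trans (F.residue_eq hB he i).symm⟩
  have hC : IsArtinianTestAlgebra 𝒪 (ResidueField 𝒪) :=
    isArtinianTestAlgebra_of_toField (AlgHom.id 𝒪 _) fun c hc => ⟨1, by simpa using hc⟩
  have hmem : F.mem eP := F.fibre X.test hB hC hP πA πB pA pB (AlgHom.ext fun c => c.2)
    (fun a b h => hjoint a b (congrArg Prod.fst h) (congrArg Prod.snd h))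
    (fun a b h => ⟨⟨(a, b), h⟩, rfl, rfl⟩) X.mem he
  have hpowP : maximalIdeal P ^ n = ⊥ := by
    refine eq_bot_iff.mpr fun c hc => Ideal.mem_bot.mpr (hjoint _ _ ?_ ?_)
    · have h := mem_pow_of_algHom (pA : P →+* X.carrier) (isLocalHom_of_isArtinianRing _) hc
      rw [X.pow, Ideal.mem_bot] at h
      exact h.trans (map_zero pA).symm
    · have h := mem_pow_of_algHom (pB : P →+* B) (isLocalHom_of_isArtinianRing _) hc
      rw [hpow, Ideal.mem_bot] at h
      exact h.trans (map_zero pB).symm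
  obtain ⟨Y, v, hv⟩ := exists_generated hP hmem hpowP
  have := Y.finite
  have hp : ∀ i, pA.comp v (Y.point i) = X.point i := fun i => by
    rw [AlgHom.comp_apply, hv]; rfl
  have hbij : Function.Bijective (pA.comp v) :=
    (surjective_of_point X.gen _ hp).bijective_of_nat_card_le (hX Y)
  let E := AlgEquiv.ofBijective (pA.comp v) hbij
  refine ⟨(pB.comp v).comp E.symm.toAlgHom, fun i => ?_⟩
  have : E.symm (X.point i) = Y.point i := by
    rw [AlgEquiv.symm_apply_eq]; exact (hp i).symm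
  show pB (v (E.symm (X.point i))) = e i
  rw [this, hv]
  rfl

end LevelAlg

end PointFunctor

end Fermat.Agent.Deform
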