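import Fermat.Agent.Deform.Framed

/-!
# Global deformation functors with frames at chosen places and extra coordinates

Normalised deformations of `G_ℚ` of a given type, frames `(g, g⁻¹)` at finitely many places with
conditions on the representations read in the frames, and extra coordinates (for instance adjoined
Frobenius eigenvalues) subject to any closed condition.
-/

set_option autoImplicit false

open IsLocalRing GaloisRep Fermat.Agent.DefRing

namespace Fermat.Agent.Deform

/-- Re-indexing of coordinates. -/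
def CoordMap.reindex (𝒪 : Type) [CommRing 𝒪] [IsLocalRing 𝒪] {ι κ : Type} (f : κ → ι) :
    CoordMap 𝒪 ι κ where
  val _A _ _ e j := e (f j)
  natural _ _ _ _ _ _ _ _ _ := rfl

variable {𝒪 : Type} [CommRing 𝒪] [IsLocalRing 𝒪]

variable (D : NormalData 𝒪)
  {𝒟 : ∀ ⦃A : Type⦄ [CommRing A] [IsLocalRing A] [Algebra 𝒪 A], GaloisRepAdic A → Prop}

omit [IsLocalRing 𝒪] in
theorem mem_toAdic_congr {A : Type} [CommRing A] [IsLocalRing A] [Algebra 𝒪 A] {M M' : MRep A}
    (hM : M = M') {hc : IsCont M} (hc' : IsCont M') (h : 𝒟 (toAdic M hc)) : 𝒟 (toAdic M' hc') := by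
  subst hM
  exact h

/-- Normalised representations of type `𝒟`, as a closed condition on coordinates. -/
noncomputable def globalClosed (h𝒟 : IsDeformationCondition 𝒪 𝒟) :
    Closed 𝒪 (GQ × Fin 2 × Fin 2) where
  mem A _ _ _ e := ∃ N : MRep A, coordsOf (⇑N) = e ∧ D.IsNormal N ∧ ∃ hc : IsCont N, 𝒟 (toAdic N hc)
  map A B _ _ _ _ _ _ hA hB φ e h := by
    have := hA.isArtinian
    obtain ⟨N, rfl, hn, hc, h⟩ := h
    have hφ : IsLocalHom (φ : A →+* B) := isLocalHom_of_isArtinianRing _
    exact ⟨mapRep (φ : A →+* B) N, rfl, hn.map φ, hc.map _ hφ,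
      h𝒟.of_isEquiv hB (baseChangeAlong_toAdic_isEquiv N hc _ hφ)
        (h𝒟.baseChangeAlong hA hB φ hφ h)⟩
  descend A B _ _ _ _ _ _ hA hB φ hi e h := by
    have := hA.isArtinian
    have := hB.isArtinian
    obtain ⟨M, hM, hn, hc, h⟩ := h
    have hφ : IsLocalHom (φ : A →+* B) := isLocalHom_of_isArtinianRing _
    have hmat : ∀ σ, (matAt e σ).map φ = M σ := fun σ => Matrix.ext fun a b =>
      (congrFun hM (σ, a, b)).symm
    have hone : (1 : Matrix (Fin 2) (Fin 2) A).map φ = 1 :=
      Matrix.map_one _ (map_zero φ) (map_one φ)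
    let N : MRep A :=
      { toFun := matAt e
        map_one' := Matrix.map_injective hi
          (show (matAt e 1).map φ = (1 : Matrix (Fin 2) (Fin 2) A).map φ by
            rw [hmat, hone, map_one])
        map_mul' := fun σ τ => Matrix.map_injective hi
          (show (matAt e (σ * τ)).map φ = (matAt e σ * matAt e τ).map φ by
            rw [Matrix.map_mul, hmat, hmat, hmat, map_mul]) }
    have hNM : mapRep (φ : A →+* B) N = M := MonoidHom.ext hmat
    have hcont : IsCont N := by
      obtain ⟨L, hL, h1⟩ := hc.finite_level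
      exact isCont_of_finite_level ⟨L, hL, fun σ hσ => Matrix.map_injective hi
        ((hmat σ).trans ((h1 σ hσ).trans hone.symm))⟩
    refine ⟨N, coordsOf_matAt e, ?_, hcont, ?_⟩
    · obtain ⟨h1, h2, h3⟩ := hn
      simp only [← hNM, ← map_evRep φ N, Matrix.map_apply] at h1 h2 h3
      exact ⟨hi (h1.trans (map_zero φ).symm), hi (h2.trans (map_zero φ).symm),
        hi (h3.trans (map_one φ).symm)⟩
    · exact h𝒟.of_baseChangeAlong_injective hA hB φ hφ hi
        (h𝒟.of_isEquiv hB (isEquiv_symm (baseChangeAlong_toAdic_isEquiv N hcont _ hφ))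
          (mem_toAdic_congr hNM.symm _ h))
  fibre A B C P _ _ _ _ _ _ _ _ _ _ _ _ hA hB hC hP f g pA pB hcomp hi hs e a b := by
    have := hA.isArtinian
    have := hB.isArtinian
    have := hP.isArtinian
    obtain ⟨M, hM, hn, hc, h⟩ := a
    obtain ⟨M', hM', hn', hc', h'⟩ := b
    have hmat : ∀ σ, (matAt e σ).map pA = M σ := fun σ => Matrix.ext fun i j =>
      (congrFun hM (σ, i, j)).symm
    have hmat' : ∀ σ, (matAt e σ).map pB = M' σ := fun σ => Matrix.ext fun i j =>
      (congrFun hM' (σ, i, j)).symm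
    have hext : ∀ {X Y : Matrix (Fin 2) (Fin 2) P}, X.map pA = Y.map pA → X.map pB = Y.map pB →
        X = Y := fun {X Y} h1 h2 => Matrix.ext fun i j =>
      hi (Prod.ext (congrFun (congrFun h1 i) j) (congrFun (congrFun h2 i) j))
    let N : MRep P :=
      { toFun := matAt e
        map_one' := hext (by rw [hmat, map_one, Matrix.map_one _ (map_zero pA) (map_one pA)])
          (by rw [hmat', map_one, Matrix.map_one _ (map_zero pB) (map_one pB)])
        map_mul' := fun σ τ => hext
          (by rw [Matrix.map_mul, hmat, hmat, hmat, map_mul])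
          (by rw [Matrix.map_mul, hmat', hmat', hmat', map_mul]) }
    have hNM : mapRep (pA : P →+* A) N = M := MonoidHom.ext hmat
    have hNM' : mapRep (pB : P →+* B) N = M' := MonoidHom.ext hmat'
    have hpA : IsLocalHom (pA : P →+* A) := isLocalHom_of_isArtinianRing _
    have hpB : IsLocalHom (pB : P →+* B) := isLocalHom_of_isArtinianRing _
    have hcont : IsCont N := by
      obtain ⟨L, hL, h1⟩ := hc.finite_level
      obtain ⟨L', hL', h1'⟩ := hc'.finite_level
      refine isCont_of_finite_level ⟨L ⊔ L', IntermediateField.finiteDimensional_sup L L',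
        fun σ hσ => hext ?_ ?_⟩
      · exact ((hmat σ).trans (h1 σ fun x hx => hσ x (le_sup_left (a := L) hx))).trans
          (Matrix.map_one _ (map_zero pA) (map_one pA)).symm
      · exact ((hmat' σ).trans (h1' σ fun x hx => hσ x (le_sup_right (a := L) hx))).trans
          (Matrix.map_one _ (map_zero pB) (map_one pB)).symm
    refine ⟨N, coordsOf_matAt e, ?_, hcont, ?_⟩
    · rw [← hNM] at hn
      rw [← hNM'] at hn'
      obtain ⟨h1, h2, h3⟩ := hn
      obtain ⟨h1', h2', h3'⟩ := hn'
      simp only [← map_evRep pA N, Matrix.map_apply] at h1 h2 h3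
      simp only [← map_evRep pB N, Matrix.map_apply] at h1' h2' h3'
      refine ⟨hi ?_, hi ?_, hi ?_⟩ <;>
        simp only [h1, h2, h3, h1', h2', h3', map_zero, map_one]
    · exact h𝒟.of_fibreProduct hA hB hC hP f g pA pB hpA hpB hcomp hi hs
        (h𝒟.of_isEquiv hA (isEquiv_symm (baseChangeAlong_toAdic_isEquiv N hcont _ hpA))
          (mem_toAdic_congr hNM.symm _ h))
        (h𝒟.of_isEquiv hB (isEquiv_symm (baseChangeAlong_toAdic_isEquiv N hcont _ hpB))
          (mem_toAdic_congr hNM'.symm _ h'))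

theorem mem'_globalClosed {h𝒟 : IsDeformationCondition 𝒪 𝒟} {A : Type} [CommRing A]
    [IsLocalRing A] [IsNoetherianRing A] [IsAdicComplete (maximalIdeal A) A] [Algebra 𝒪 A]
    (hl : IsLocalHom (algebraMap 𝒪 A)) (hs : Function.Surjective (residue A ∘ algebraMap 𝒪 A))
    {e : GQ × Fin 2 × Fin 2 → A} :
    (globalClosed D h𝒟).Mem' e ↔
      ∃ N : MRep A, coordsOf (⇑N) = e ∧ D.IsNormal N ∧ ∃ hc : IsCont N, 𝒟 (toAdic N hc) := by
  constructor
  · intro h
    have hzero : ∀ {x : A}, (∀ n, x ∈ maximalIdeal A ^ (n + 1)) → x = 0 := by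
      intro x hx
      refine IsHausdorff.haus (inferInstance : IsHausdorff (maximalIdeal A) A) _ fun n => ?_
      rw [SModEq.zero, smul_eq_mul, Ideal.mul_top]
      exact Ideal.pow_le_pow_right (show n ≤ n + 1 by omega) (hx n)
    have hlev : ∀ n, ∃ (B : Type) (_ : CommRing B) (_ : Algebra 𝒪 B)
        (q : A →ₐ[𝒪] B), (∀ a, q a = 0 ↔ a ∈ maximalIdeal A ^ (n + 1)) ∧
          ∃ M : MRep B, (∀ σ, (matAt e σ).map q = M σ) ∧ D.IsNormal M ∧
            ∃ L : IntermediateField ℚ (AlgebraicClosure ℚ), FiniteDimensional ℚ L ∧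
              ∀ σ : GQ, (∀ x ∈ L, σ x = x) → M σ = 1 := by
      intro n
      obtain ⟨B, _, _, _, q, hB, hq, hqs, hker⟩ := Closed.exists_quotient_level hl hs n
      have := hB.isArtinian
      obtain ⟨M, hM, hn, hc, -⟩ := h hB q hq hqs
      exact ⟨B, _, _, q, hker, M, fun σ => Matrix.ext fun a b => (congrFun hM (σ, a, b)).symm,
        hn, hc.finite_level⟩
    let N : MRep A :=
      { toFun := matAt e
        map_one' := Matrix.ext fun a b => sub_eq_zero.mp (hzero fun n => by
          obtain ⟨B, _, _, q, hker, M, hM, -, -⟩ := hlev n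
          rw [← hker, map_sub, sub_eq_zero]
          have h1 := congrFun (congrFun (hM 1) a) b
          rw [map_one, Matrix.map_apply] at h1
          rw [h1, Matrix.one_apply, Matrix.one_apply]
          split_ifs <;> simp)
        map_mul' := fun σ τ => Matrix.ext fun a b => sub_eq_zero.mp (hzero fun n => by
          obtain ⟨B, _, _, q, hker, M, hM, -, -⟩ := hlev n
          rw [← hker, map_sub, sub_eq_zero]
          have h1 : ∀ ω i j, q (matAt e ω i j) = M ω i j := fun ω i j =>
            congrFun (congrFun (hM ω) i) j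
          simp only [Matrix.mul_apply, Fin.sum_univ_two, map_add, map_mul, h1]) }
    have hval : ∀ n, ∃ (B : Type) (_ : CommRing B) (_ : Algebra 𝒪 B) (q : A →ₐ[𝒪] B),
        (∀ a, q a = 0 ↔ a ∈ maximalIdeal A ^ (n + 1)) ∧
          D.IsNormal (mapRep (q : A →+* B) N) := by
      intro n
      obtain ⟨B, _, _, q, hker, M, hM, hn, -⟩ := hlev n
      refine ⟨B, _, _, q, hker, ?_⟩
      rwa [show mapRep (q : A →+* B) N = M from MonoidHom.ext hM]
    have hnormal : D.IsNormal N := by
      refine ⟨hzero fun n => ?_, hzero fun n => ?_, sub_eq_zero.mp (hzero fun n => ?_)⟩ <;>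
        obtain ⟨B, _, _, q, hker, h1, h2, h3⟩ := hval n <;>
        simp only [← map_evRep q N, Matrix.map_apply] at h1 h2 h3 <;>
        rw [← hker] <;> simp [h1, h2, h3]
    have hcont : IsCont N := by
      intro n
      obtain ⟨B, _, _, q, hker, M, hM, -, L, hL, h1⟩ := hlev n
      refine ⟨L, hL, fun σ hσ a b => Ideal.pow_le_pow_right (show n ≤ n + 1 by omega) ?_⟩
      rw [← hker, Matrix.sub_apply, map_sub, sub_eq_zero]
      have h2 := congrFun (congrFun ((hM σ).trans (h1 σ hσ)) a) b
      rw [Matrix.map_apply] at h2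
      show q (matAt e σ a b) = _
      rw [h2, Matrix.one_apply, Matrix.one_apply]
      split_ifs <;> simp
    refine ⟨N, coordsOf_matAt e, hnormal, hcont, (h𝒟.iff_forall_surjective hl hs _).mpr ?_⟩
    intro B _ _ _ hB q hq hqs
    obtain ⟨M, hM, -, hc, hD⟩ := h hB q hq hqs
    refine h𝒟.of_isEquiv hB (isEquiv_symm (baseChangeAlong_toAdic_isEquiv N hcont _ hq))
      (mem_toAdic_congr ?_ _ hD)
    exact MonoidHom.ext fun σ => Matrix.ext fun a b => congrFun hM (σ, a, b)
  · rintro ⟨N, rfl, hn, hc, hD⟩ B _ _ _ hB q hq hqs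
    exact ⟨mapRep (q : A →+* B) N, rfl, hn.map q, hc.map _ hq,
      h𝒟.of_isEquiv hB (baseChangeAlong_toAdic_isEquiv N hc _ hq)
        ((h𝒟.iff_forall_surjective hl hs _).mp hD hB q hq hqs)⟩

section Frames

variable (V E : Type)

/-- Coordinates: representation, frames and their inverses, extra variables. -/
abbrev GlobalCoord : Type := (GQ × Fin 2 × Fin 2) ⊕ (V × Bool × Fin 2 × Fin 2) ⊕ E

variable {V E}

/-- The frame (`false`) or its inverse (`true`) at a place. -/
def frameAt {A : Type} (e : GlobalCoord V E → A) (v : V) (t : Bool) : Matrix (Fin 2) (Fin 2) A :=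
  Matrix.of fun a b => e (Sum.inr (Sum.inl (v, t, a, b)))

/-- The coordinate vector of a representation, frames and extra variables. -/
def globalCoords {A : Type} [CommRing A] (N : GQ → Matrix (Fin 2) (Fin 2) A)
    (g : V → (Matrix (Fin 2) (Fin 2) A)ˣ) (c : E → A) : GlobalCoord V E → A :=
  Sum.elim (coordsOf N) (Sum.elim
    (fun p => (if p.2.1 then ((g p.1)⁻¹ : (Matrix (Fin 2) (Fin 2) A)ˣ).1 else (g p.1).1) p.2.2.1 p.2.2.2)
    c)

variable (𝒪 V E)

/-- The equations `g g' = 1`. -/
def frameMap : CoordMap 𝒪 (GlobalCoord V E) (V × Fin 2 × Fin 2) :=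
  CoordMap.ofMatrix (fun v _A _ _ e => frameAt e v false * frameAt e v true - 1)
    fun v A B _ _ _ _ φ e => by
      rw [Matrix.map_sub _ (map_sub φ), Matrix.map_mul, Matrix.map_one _ (map_zero φ) (map_one φ)]
      rfl

variable {𝒪 V E} {G : V → Type}

/-- The representation at a place, read in its frame. -/
noncomputable def localMap [∀ v, Group (G v)] (f : ∀ v, G v →* GQ) (v : V) :
    CoordMap 𝒪 (GlobalCoord V E) (G v × Fin 2 × Fin 2) :=
  CoordMap.ofMatrix (fun h _A _ _ e =>
      frameAt e v true * matAt (fun i => e (Sum.inl i)) (f v h) * frameAt e v false)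
    fun h A B _ _ _ _ φ e => by
      rw [Matrix.map_mul, Matrix.map_mul]
      rfl

/-- A representation read in a frame. -/
noncomputable def inFrame {A : Type} [CommRing A] {H : Type} [Group H] (N : MRep A) (f : H →* GQ)
    (g : (Matrix (Fin 2) (Fin 2) A)ˣ) : H →* Matrix (Fin 2) (Fin 2) A where
  toFun h := (g⁻¹ : (Matrix (Fin 2) (Fin 2) A)ˣ).1 * N (f h) * g.1
  map_one' := by simp
  map_mul' h h' := by simp [mul_assoc]

variable [∀ v, Group (G v)]

/-- Residual data of a global functor. -/
structure FrameData (V E : Type) (G : V → Type) [∀ v, Group (G v)] where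
  /-- the maps from the local groups -/
  map : ∀ v, G v →* GQ
  /-- residual frames -/
  frame : V → (Matrix (Fin 2) (Fin 2) (ResidueField 𝒪))ˣ
  /-- residual extra coordinates -/
  extra : E → ResidueField 𝒪
  /-- the local conditions -/
  cond : ∀ v, Closed 𝒪 (G v × Fin 2 × Fin 2)
  /-- a further condition -/
  further : Closed 𝒪 (GlobalCoord V E)

variable {D} (h𝒟 : IsDeformationCondition 𝒪 𝒟) (X : FrameData (𝒪 := 𝒪) V E G)

/-- The residual point of the data satisfies all the conditions. -/
structure FrameData.IsResidualPoint (D : NormalData 𝒪)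
    (h𝒟 : IsDeformationCondition 𝒪 𝒟) (X : FrameData (𝒪 := 𝒪) V E G) : Prop where
  cont : IsCont D.rbar
  type : 𝒟 (toAdic D.rbar cont)
  cond : ∀ v, (X.cond v).mem (coordsOf (⇑(inFrame D.rbar (X.map v) (X.frame v))))
  further : X.further.mem (globalCoords (⇑D.rbar) X.frame X.extra)

/-- The global functor with frames and extra coordinates. -/
noncomputable def globalFramed (h : X.IsResidualPoint D h𝒟) :
    PointFunctor 𝒪 (GlobalCoord V E) :=
  ((((PointFunctor.free (globalCoords (⇑D.rbar) X.frame X.extra)).inter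
    ((globalClosed D h𝒟).comap (CoordMap.reindex 𝒪 Sum.inl))
      ⟨D.rbar, rfl, D.isNormal_rbar, h.cont, h.type⟩).inter
    (Closed.equations (frameMap 𝒪 V E)) (by
      rintro ⟨v, a, b⟩
      show ((X.frame v).1 * ((X.frame v)⁻¹ : (Matrix (Fin 2) (Fin 2) _)ˣ).1 - 1) a b = 0
      rw [Units.mul_inv, sub_self, Matrix.zero_apply])).inter
    (Closed.iInter fun v => (X.cond v).comap (localMap X.map v)) (fun v => h.cond v)).inter
    X.further h.further

/-- A framed deformation over a complete local ring. -/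
structure IsGlobalFramed {A : Type} [CommRing A] [IsLocalRing A] [Algebra 𝒪 A]
    (hl : IsLocalHom (algebraMap 𝒪 A)) (hs : Function.Surjective (residue A ∘ algebraMap 𝒪 A))
    (D : NormalData 𝒪) (h𝒟 : IsDeformationCondition 𝒪 𝒟) (X : FrameData (𝒪 := 𝒪) V E G)
    (N : MRep A) (g : V → (Matrix (Fin 2) (Fin 2) A)ˣ) (c : E → A) : Prop where
  isDef : IsDef D 𝒟 hl hs N
  frame : ∀ v, (g v).1.map (toResidue hl hs) = (X.frame v).1
  extra : ∀ i, toResidue hl hs (c i) = X.extra i
  cond : ∀ v, (X.cond v).Mem' (coordsOf (⇑(inFrame N (X.map v) (g v))))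
  further : X.further.Mem' (globalCoords (⇑N) g c)

theorem mem'_globalFramed_iff {h : X.IsResidualPoint D h𝒟} {A : Type} [CommRing A]
    [IsLocalRing A] [IsNoetherianRing A] [IsAdicComplete (maximalIdeal A) A] [Algebra 𝒪 A]
    (hl : IsLocalHom (algebraMap 𝒪 A)) (hs : Function.Surjective (residue A ∘ algebraMap 𝒪 A))
    {e : GlobalCoord V E → A} :
    (globalFramed h𝒟 X h).Mem' e ↔
      ∃ N g c, IsGlobalFramed hl hs D h𝒟 X N g c ∧ globalCoords (⇑N) g c = e := by
  refine (PointFunctor.mem'_inter.trans (and_congr (PointFunctor.mem'_inter.trans (and_congr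
    (PointFunctor.mem'_inter.trans (and_congr (PointFunctor.mem'_inter.trans (and_congr
      (PointFunctor.mem'_free hl hs) (Closed.mem'_comap.trans (mem'_globalClosed D hl hs))))
      (Closed.mem'_equations hl hs)))
    (Closed.mem'_iInter.trans (forall_congr' fun v => Closed.mem'_comap)))) Iff.rfl)).trans ?_
  constructor
  · rintro ⟨⟨⟨⟨hres, N, hN, hn, hc, hD⟩, hg⟩, hcond⟩, hfur⟩
    have hmul : ∀ v, frameAt e v false * frameAt e v true = 1 := fun v =>
      Matrix.ext fun a b => sub_eq_zero.mp (hg (v, a, b))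
    let g : V → (Matrix (Fin 2) (Fin 2) A)ˣ := fun v =>
      ⟨frameAt e v false, frameAt e v true, hmul v, mul_eq_one_comm.mp (hmul v)⟩
    have hN' : ∀ σ a b, e (Sum.inl (σ, a, b)) = N σ a b := fun σ a b =>
      (congrFun hN (σ, a, b)).symm
    have hcoords : globalCoords (⇑N) g (fun i => e (Sum.inr (Sum.inr i))) = e := by
      funext x
      rcases x with ⟨σ, a, b⟩ | ⟨v, t, a, b⟩ | i
      · exact (hN' σ a b).symm
      · cases t <;> rfl
      · rfl
    refine ⟨N, g, _, ⟨⟨hn, ?_, hc, hD⟩, fun v => Matrix.ext fun a b => ?_, fun i => hres _, ?_, ?_⟩,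
      hcoords⟩
    · refine MonoidHom.ext fun σ => Matrix.ext fun a b => ?_
      show toResidue hl hs (N σ a b) = _
      rw [← hN']
      exact hres (Sum.inl (σ, a, b))
    · exact hres (Sum.inr (Sum.inl (v, false, a, b)))
    · intro v
      rw [← hcoords] at hcond
      exact hcond v
    · rw [hcoords]
      exact hfur
  · rintro ⟨N, g, c, hX, rfl⟩
    refine ⟨⟨⟨⟨?_, N, rfl, hX.isDef.normal, hX.isDef.cont, hX.isDef.type⟩, ?_⟩, fun v => hX.cond v⟩,
      hX.further⟩
    · rintro (⟨σ, a, b⟩ | ⟨v, t, a, b⟩ | i)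
      · exact congrFun (congrFun (DFunLike.congr_fun hX.isDef.reduces σ) a) b
      · cases t
        · exact congrFun (congrFun (hX.frame v) a) b
        · have hinv : (g v)⁻¹.1.map (toResidue hl hs) = (X.frame v)⁻¹.1 := by
            refine (Units.inv_eq_of_mul_eq_one_right ?_).symm
            rw [← hX.frame v, ← Matrix.map_mul, Units.mul_inv,
              Matrix.map_one _ (map_zero _) (map_one _)]
          exact congrFun (congrFun hinv a) b
      · exact hX.extra i
    · rintro ⟨v, a, b⟩
      show ((g v).1 * (g v)⁻¹.1 - 1) a b = 0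
      rw [Units.mul_inv, sub_self, Matrix.zero_apply]

attribute [local instance 10000] dualAlgebra

theorem finite_tangent_globalFramed [Finite (ResidueField 𝒪)] [Finite V] [Finite E]
    (h : X.IsResidualPoint D h𝒟) (hfin : Finite (TangentSet D 𝒟)) :
    Finite (globalFramed h𝒟 X h).Tangent := by
  have : Finite (DualNumber (ResidueField 𝒪)) :=
    inferInstanceAs (Finite (ResidueField 𝒪 × ResidueField 𝒪))
  have hT := isArtinianTestAlgebra_dual (𝒪 := 𝒪)
  have key : ∀ t : (globalFramed h𝒟 X h).Tangent, ∃ N : TangentSet D 𝒟,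
      coordsOf (⇑N.1) = fun i => t.1 (Sum.inl i) := by
    rintro ⟨e, ⟨⟨⟨hfree, N, hN, hn, hc, hD⟩, -⟩, -⟩, -⟩
    refine ⟨⟨N, hn, MonoidHom.ext fun σ => Matrix.ext fun a b => ?_, hc, hD⟩, hN⟩
    show toResidue hT.isLocalHom hT.residue_surjective (N σ a b) = _
    rw [show N σ a b = e (Sum.inl (σ, a, b)) from congrFun hN (σ, a, b)]
    exact (PointFunctor.free _).residue_eq hT hfree (Sum.inl (σ, a, b))
  choose N hN using key
  refine Finite.of_injective (fun t => (N t,
    fun (x : (V × Bool × Fin 2 × Fin 2) ⊕ E) => t.1 (Sum.inr x))) ?_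
  intro t t' htt'
  obtain ⟨h1, h2⟩ := Prod.ext_iff.mp htt'
  refine Subtype.ext (funext fun x => ?_)
  rcases x with i | x
  · have h1' : N t = N t' := h1
    rw [← congrFun (hN t) i, ← congrFun (hN t') i, h1']
  · exact congrFun h2 x

end Frames

end Fermat.Agent.Deform
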