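import Fermat.Agent.GalCoh.GlobalLevels

/-!
# Hermite–Minkowski: finitely many fields of bounded degree unramified outside a finite set

The different of a Galois number field is bounded by a trace argument: if `z` is congruent to `1`
at a prime and to `0` at its conjugates, the trace of `z` is congruent to the order of the
decomposition group.
-/

set_option autoImplicit false

open NumberField
open scoped Pointwise NumberField

noncomputable section

namespace Fermat.Agent.Deform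

section Different

variable {L : Type} [Field L] [NumberField L]

theorem pow_dvd_of_intCast_mem_pow {P : Ideal (𝓞 L)} [P.IsPrime] {p : ℕ} (hp : p.Prime)
    (hP : (p : 𝓞 L) ∈ P) {k : ℤ} {s : ℕ}
    (hk : (k : 𝓞 L) ∈ P ^ (Module.finrank ℚ L * s)) : (p : ℤ) ^ s ∣ k := by
  have h1 : p ∣ Ideal.absNorm P := by
    have hunder : P.comap (algebraMap ℤ (𝓞 L)) = Ideal.span {(p : ℤ)} := by
      refine ((PrincipalIdealRing.isMaximal_of_irreducible
        (Nat.prime_iff_prime_int.mp hp).irreducible).eq_of_le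
          (Ideal.IsPrime.ne_top inferInstance) ?_).symm
      rw [Ideal.span_le, Set.singleton_subset_iff]
      show algebraMap ℤ (𝓞 L) (p : ℤ) ∈ P
      simpa using hP
    have : ((Ideal.absNorm P : ℕ) : ℤ) ∈ Ideal.span {(p : ℤ)} := by
      rw [← hunder, Ideal.mem_comap]
      simpa using Ideal.absNorm_mem P
    rw [Ideal.mem_span_singleton] at this
    exact Int.natCast_dvd_natCast.mp this
  have h2 := Ideal.absNorm_dvd_absNorm_of_le (S := 𝓞 L)
    ((Ideal.span_singleton_le_iff_mem _).mpr hk)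
  rw [map_pow, Ideal.absNorm_span_singleton] at h2
  have h3 : (Algebra.norm ℤ (k : 𝓞 L)).natAbs = k.natAbs ^ Module.finrank ℚ L := by
    rw [show (k : 𝓞 L) = algebraMap ℤ (𝓞 L) k by simp, Algebra.norm_algebraMap,
      RingOfIntegers.rank, Int.natAbs_pow]
  rw [h3] at h2
  have h4 : (p ^ s) ^ Module.finrank ℚ L ∣ k.natAbs ^ Module.finrank ℚ L := by
    refine dvd_trans ?_ h2
    rw [← pow_mul, mul_comm s]
    exact pow_dvd_pow_of_dvd h1 _
  have h5 := (Nat.pow_dvd_pow_iff Module.finrank_pos.ne').mp h4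
  exact_mod_cast Int.natCast_dvd.mpr h5

variable [IsGalois ℚ L]

/-- A trace-integral element times `p ^ (s + 1)` has positive valuation at a prime over `p` whose
stabiliser has order not divisible by `p ^ (s + 1)`. -/
theorem mem_pow_succ_of_trace {P : Ideal (𝓞 L)} [P.IsPrime] {p : ℕ} (hp : p.Prime)
    (hP : (p : 𝓞 L) ∈ P) {s : ℕ}
    (hs : ¬ p ^ (s + 1) ∣ Nat.card (MulAction.stabilizer (L ≃ₐ[ℚ] L) P)) {x : L}
    (hx : ∀ y : 𝓞 L, ∃ t : ℤ, Algebra.trace ℚ L (x * y) = t) {a b : 𝓞 L} (hb : b ≠ 0)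
    (hab : (a : L) = (p : L) ^ (s + 1) * x * b) {j : ℕ} (hbj : b ∈ P ^ j) : a ∈ P ^ (j + 1) := by
  classical
  by_contra ha
  have hP0 : P ≠ ⊥ := by
    rintro rfl
    exact (Nat.cast_ne_zero.mpr hp.ne_zero) (Ideal.mem_bot.mp hP)
  have hPmax : P.IsMaximal := Ideal.IsPrime.isMaximal inferInstance hP0
  have ha0 : a ≠ 0 := fun h => ha (h ▸ zero_mem _)
  obtain ⟨i, I, hI, hspan⟩ := WfDvdMonoid.max_power_factor
    (a₀ := Ideal.span {a}) (x := P) (by simpa using ha0) (Ideal.prime_of_isPrime hP0 inferInstance).irreducible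
  have hij : i ≤ j := by
    by_contra hlt
    refine ha ?_
    have h1 : Ideal.span {a} ≤ P ^ (j + 1) :=
      hspan ▸ (Ideal.mul_le_left.trans (Ideal.pow_le_pow_right (by omega)))
    exact h1 (Ideal.mem_span_singleton_self a)
  set N := Module.finrank ℚ L * (s + 1) with hN
  let G := L ≃ₐ[ℚ] L
  let out : Finset G := Finset.univ.filter fun σ => σ • P ≠ P
  have hcop : IsCoprime (P ^ N) (I * ∏ σ ∈ out, (σ⁻¹ • P) ^ N) := by
    refine IsCoprime.mul_right ?_ (IsCoprime.prod_right fun σ hσ => ?_)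
    · refine (IsCoprime.pow_left ?_)
      rw [Ideal.isCoprime_iff_sup_eq]
      by_contra h
      exact hI (Ideal.dvd_iff_le.mpr
        ((hPmax.eq_of_le h le_sup_left).ge.trans' le_sup_right))
    · refine IsCoprime.pow ?_
      rw [Ideal.isCoprime_iff_sup_eq]
      by_contra h
      have h1 : σ⁻¹ • P ≤ P := (hPmax.eq_of_le h le_sup_left).ge.trans' le_sup_right
      have h2 : σ⁻¹ • P = P := by
        have hmax : (σ⁻¹ • P).IsMaximal := by
          rw [Ideal.pointwise_smul_eq_comap]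
          exact Ideal.comap_isMaximal_of_surjective _ (MulSemiringAction.toRingEquiv _ _ _).surjective
        exact hmax.eq_of_le hPmax.ne_top h1
      refine (Finset.mem_filter.mp hσ).2 ?_
      have := congrArg (σ • ·) h2
      simpa using this.symm
  obtain ⟨u, hu, z, hz, huz⟩ := Ideal.isCoprime_iff_exists.mp hcop
  have hzb : z * b ∈ Ideal.span {a} := by
    rw [hspan, mul_comm z b]
    exact Ideal.mul_mem_mul (Ideal.pow_le_pow_right hij hbj) (Ideal.mul_le_left hz)
  obtain ⟨c, hc⟩ := Ideal.mem_span_singleton'.mp hzb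
  obtain ⟨t, ht⟩ := hx c
  have hbL : (b : L) ≠ 0 := by simpa using hb
  have hzL : (z : L) = (p : L) ^ (s + 1) * (x * c) := by
    refine mul_right_cancel₀ hbL ?_
    have h1 : (c : L) * (a : L) = (z : L) * (b : L) := by
      have := congrArg (algebraMap (𝓞 L) L) hc
      rwa [map_mul, map_mul] at this
    rw [← h1, hab]
    ring
  have hsum : (∑ σ : G, σ • z : 𝓞 L) = (((p : ℤ) ^ (s + 1) * t : ℤ) : 𝓞 L) := by
    refine RingOfIntegers.ext ?_
    have h1 : Algebra.trace ℚ L (z : L) = ((p : ℚ) ^ (s + 1) * t) := by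
      rw [hzL, show (p : L) ^ (s + 1) * (x * c) = ((p : ℚ) ^ (s + 1)) • (x * (c : L)) by
        rw [Algebra.smul_def]; simp, map_smul, ht, smul_eq_mul]
    have h2 := trace_eq_sum_automorphisms (K := ℚ) (z : L)
    rw [h1] at h2
    show algebraMap (𝓞 L) L _ = algebraMap (𝓞 L) L _
    rw [map_sum, map_intCast]
    simp only [map_mul, map_pow, map_natCast, map_intCast] at h2
    push_cast
    exact h2.symm
  have hsmul : ∀ (σ : G) (w : 𝓞 L) (Q : Ideal (𝓞 L)), w ∈ Q ^ N → σ • w ∈ (σ • Q) ^ N := by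
    intro σ w Q hw
    rw [Ideal.pointwise_smul_def, ← Ideal.map_pow]
    exact Ideal.mem_map_of_mem _ hw
  have hterm : ∀ σ : G, σ • z - (if σ • P = P then 1 else 0) ∈ P ^ N := by
    intro σ
    by_cases hσ : σ • P = P
    · rw [if_pos hσ]
      have h1 : z - 1 ∈ P ^ N := by
        rw [← huz, sub_add_cancel_right]
        exact neg_mem hu
      have := hsmul σ _ P h1
      rw [hσ, smul_sub, smul_one] at this
      exact this
    · rw [if_neg hσ, sub_zero]
      have h1 : z ∈ (σ⁻¹ • P) ^ N := by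
        refine (Ideal.mul_le_right.trans ?_) hz
        exact Ideal.prod_le_inf.trans (Finset.inf_le (f := fun τ : G => (τ⁻¹ • P) ^ N)
          (Finset.mem_filter.mpr ⟨Finset.mem_univ σ, hσ⟩))
      have := hsmul σ _ _ h1
      rwa [smul_inv_smul] at this
  have hmem : ((((p : ℤ) ^ (s + 1) * t - (Nat.card (MulAction.stabilizer G P) : ℕ)) : ℤ) : 𝓞 L) ∈
      P ^ N := by
    have hcard : (∑ σ : G, if σ • P = P then (1 : 𝓞 L) else 0) =
        ((Nat.card (MulAction.stabilizer G P) : ℕ) : 𝓞 L) := by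
      rw [Finset.sum_boole, ← Fintype.card_subtype, ← Nat.card_eq_fintype_card]
      rfl
    rw [Int.cast_sub, ← hsum, Int.cast_natCast, ← hcard, ← Finset.sum_sub_distrib]
    exact Submodule.sum_mem _ fun σ _ => hterm σ
  have hdvd := pow_dvd_of_intCast_mem_pow hp hP hmem
  have h3 : (p : ℤ) ^ (s + 1) ∣ ((Nat.card (MulAction.stabilizer G P) : ℕ) : ℤ) := by
    simpa using dvd_sub (dvd_mul_right ((p : ℤ) ^ (s + 1)) t) hdvd
  exact hs (by exact_mod_cast h3)

/-- The different divides an integer depending only on the degree and the ramified primes. -/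
theorem natAbs_discr_le (T : Finset ℕ) (n : ℕ) (hn : Module.finrank ℚ L ≤ n)
    (hT : ∀ p : ℕ, p.Prime → p ∉ T → ∀ Q : Ideal (𝓞 L), Q.IsPrime → (p : 𝓞 L) ∈ Q →
      (p : 𝓞 L) ∉ Q ^ 2) :
    (discr L).natAbs ≤
      ((∏ p ∈ (T ∪ Finset.range (n + 1)).filter Nat.Prime, p) ^ (n + 1)) ^ n := by
  classical
  set T' := (T ∪ Finset.range (n + 1)).filter Nat.Prime with hT'
  set M := (∏ p ∈ T', p) ^ (n + 1) with hM
  have hM0 : 0 < M := pow_pos (Finset.prod_pos fun p hp => (Finset.mem_filter.mp hp).2.pos) _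
  have hcard : ∀ P : Ideal (𝓞 L),
      0 < Nat.card (MulAction.stabilizer (L ≃ₐ[ℚ] L) P) ∧
        Nat.card (MulAction.stabilizer (L ≃ₐ[ℚ] L) P) ≤ n := fun P =>
    ⟨Nat.card_pos, ((Subgroup.card_le_card_group _).trans
      (IsGalois.card_aut_eq_finrank ℚ L).le).trans hn⟩
  have key : ∀ x : L, (∀ y : 𝓞 L, ∃ t : ℤ, Algebra.trace ℚ L (x * y) = t) →
      ∃ r : 𝓞 L, (r : L) = (M : L) * x := by
    intro x hx
    obtain ⟨a0, b0, hb0, rfl⟩ := IsFractionRing.div_surjective (A := 𝓞 L) x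
    have hb : b0 ≠ 0 := nonZeroDivisors.ne_zero hb0
    have hbL : (b0 : L) ≠ 0 := by simpa using hb
    let C : Ideal (𝓞 L) := (Ideal.span {b0}).colon {(M : 𝓞 L) * a0}
    suffices h : C = ⊤ by
      have h1 : (1 : 𝓞 L) ∈ C := h ▸ Submodule.mem_top
      rw [Submodule.mem_colon_singleton, one_smul, Ideal.mem_span_singleton'] at h1
      obtain ⟨r, hr⟩ := h1
      refine ⟨r, ?_⟩
      have := congrArg (fun w : 𝓞 L => (w : L)) hr
      simp only [map_mul, map_natCast] at this
      rw [← mul_div_assoc, eq_div_iff hbL]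
      exact this
    by_contra hC
    obtain ⟨Q, hQ, hCQ⟩ := Ideal.exists_le_maximal C hC
    have hQ0 : Q ≠ ⊥ := Ring.ne_bot_of_isMaximal_of_not_isField hQ (RingOfIntegers.not_isField L)
    obtain ⟨j, I, hI, hbI⟩ := WfDvdMonoid.max_power_factor (a₀ := Ideal.span {b0}) (x := Q)
      (by simpa using hb) (Ideal.prime_of_isPrime hQ0 inferInstance).irreducible
    obtain ⟨c, hc, hcQ⟩ : ∃ c ∈ I, c ∉ Q := by
      by_contra h
      push Not at h
      exact hI (Ideal.dvd_iff_le.mpr h)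
    have hbQ : b0 ∈ Q ^ j :=
      (hbI ▸ Ideal.mul_le_left : Ideal.span {b0} ≤ Q ^ j) (Ideal.mem_span_singleton_self b0)
    obtain ⟨p, hp, hpQ⟩ : ∃ p : ℕ, p.Prime ∧ (p : 𝓞 L) ∈ Q := by
      have hne : Q.comap (algebraMap ℤ (𝓞 L)) ≠ ⊥ := Ideal.IsIntegral.comap_ne_bot (A := 𝓞 L) ℤ hQ0
      obtain ⟨g, hg⟩ := (inferInstance : (Q.comap (algebraMap ℤ (𝓞 L))).IsPrincipal)
      have hg0 : g ≠ 0 := by
        rintro rfl
        exact hne (by simpa using hg)
      have hgp : Prime g := (Ideal.span_singleton_prime hg0).mp (by rw [show Ideal.span {g} = _ from hg.symm]; infer_instance)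
      refine ⟨g.natAbs, Int.prime_iff_natAbs_prime.mp hgp, ?_⟩
      have h1 : ((g.natAbs : ℕ) : ℤ) ∈ Q.comap (algebraMap ℤ (𝓞 L)) := by
        rw [hg]
        exact Ideal.mem_span_singleton.mpr (Int.dvd_natAbs.mpr dvd_rfl)
      rwa [Ideal.mem_comap, map_natCast] at h1
    have hMQ : (M : 𝓞 L) * a0 ∈ Q ^ j := by
      by_cases hpT : p ∈ T'
      · have h1 := mem_pow_succ_of_trace hp hpQ (s := n) (fun h => absurd
          ((Nat.le_of_dvd (hcard Q).1 h).trans (hcard Q).2)
          (not_le.mpr ((Nat.lt_pow_self hp.one_lt).trans (Nat.pow_lt_pow_right hp.one_lt n.lt_succ_self))))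
          hx (a := (p : 𝓞 L) ^ (n + 1) * a0) hb
          (by simp only [map_mul, map_pow, map_natCast]; field_simp) hbQ
        obtain ⟨m, hm⟩ : p ^ (n + 1) ∣ M :=
          pow_dvd_pow_of_dvd (Finset.dvd_prod_of_mem _ hpT) _
        rw [hm, Nat.cast_mul, Nat.cast_pow, mul_right_comm]
        exact Ideal.mul_mem_right _ _ (Ideal.pow_le_pow_right (Nat.le_succ j) h1)
      · have hpn : n < p := by
          by_contra h
          exact hpT (Finset.mem_filter.mpr
            ⟨Finset.mem_union_right _ (Finset.mem_range.mpr (by omega)), hp⟩)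
        have hp2 := hT p hp (fun h => hpT (Finset.mem_filter.mpr
          ⟨Finset.mem_union_left _ h, hp⟩)) Q inferInstance hpQ
        have h1 := mem_pow_succ_of_trace hp hpQ (s := 0) (fun h => absurd
          ((Nat.le_of_dvd (hcard Q).1 h).trans (hcard Q).2) (by simpa using hpn))
          hx (a := (p : 𝓞 L) * a0) hb
          (by simp only [map_mul, map_natCast]; field_simp; ring) hbQ
        obtain ⟨P', hP'⟩ : Q ∣ Ideal.span {(p : 𝓞 L)} :=
          Ideal.dvd_iff_le.mpr ((Ideal.span_singleton_le_iff_mem _).mpr hpQ)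
        have hQP' : ¬ Q ∣ P' := fun h => hp2 ((Ideal.span_singleton_le_iff_mem _).mp
          (Ideal.dvd_iff_le.mp (pow_two Q ▸ hP' ▸ mul_dvd_mul_left Q h)))
        have h2 : Q * Q ^ j ∣ Q * (P' * Ideal.span {a0}) := by
          rw [← mul_assoc, ← hP', Ideal.span_singleton_mul_span_singleton, ← pow_succ']
          exact Ideal.dvd_iff_le.mpr ((Ideal.span_singleton_le_iff_mem _).mpr h1)
        have h3 := (Ideal.prime_of_isPrime hQ0 inferInstance).pow_dvd_of_dvd_mul_left j hQP'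
          ((mul_dvd_mul_iff_left hQ0).mp h2)
        exact Ideal.mul_mem_left _ _
          ((Ideal.span_singleton_le_iff_mem _).mp (Ideal.dvd_iff_le.mp h3))
    refine hcQ (hCQ ?_)
    rw [Submodule.mem_colon_singleton, smul_eq_mul, hbI, mul_comm c]
    exact Ideal.mul_mem_mul hMQ hc
  have hMD : (M : 𝓞 L) ∈ differentIdeal ℤ (𝓞 L) := by
    have h : algebraMap (𝓞 L) L (M : 𝓞 L) ∈
        (↑(differentIdeal ℤ (𝓞 L)) : FractionalIdeal (nonZeroDivisors (𝓞 L)) L) := by
      rw [coeIdeal_differentIdeal ℤ ℚ L (𝓞 L),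
        FractionalIdeal.mem_inv_iff (FractionalIdeal.dual_ne_zero ℤ ℚ (one_ne_zero (α := FractionalIdeal (nonZeroDivisors (𝓞 L)) L)))]
      intro y hy
      rw [FractionalIdeal.mem_dual (one_ne_zero (α := FractionalIdeal (nonZeroDivisors (𝓞 L)) L))] at hy
      obtain ⟨r, hr⟩ := key y fun w => by
        obtain ⟨t, ht⟩ := hy (algebraMap (𝓞 L) L w)
          ((FractionalIdeal.mem_one_iff _).mpr ⟨w, rfl⟩)
        exact ⟨t, by simpa [Algebra.traceForm_apply] using ht.symm⟩
      exact (FractionalIdeal.mem_one_iff _).mpr ⟨r, by rw [map_natCast]; exact hr⟩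
    obtain ⟨w, hw, hwM⟩ := (FractionalIdeal.mem_coeIdeal _).mp h
    exact (RingOfIntegers.coe_injective hwM : w = M) ▸ hw
  have h1 := Ideal.absNorm_dvd_absNorm_of_le ((Ideal.span_singleton_le_iff_mem _).mpr hMD)
  rw [absNorm_differentIdeal (K := L), Ideal.absNorm_span_singleton,
    show (M : 𝓞 L) = algebraMap ℤ (𝓞 L) (M : ℤ) by simp, Algebra.norm_algebraMap,
    RingOfIntegers.rank, Int.natAbs_pow, Int.natAbs_natCast] at h1
  exact (Nat.le_of_dvd (pow_pos hM0 _) h1).trans (Nat.pow_le_pow_right hM0 hn)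

end Different

section Finiteness

local notation "Ω" => AlgebraicClosure ℚ
local notation "Γ" => (AlgebraicClosure ℚ ≃ₐ[ℚ] AlgebraicClosure ℚ)

local instance isAlgebraicQbar_herm : Algebra.IsAlgebraic ℚ (AlgebraicClosure ℚ) :=
  AlgebraicClosure.isAlgebraic ℚ
local instance isGaloisQbar_herm : IsGalois ℚ (AlgebraicClosure ℚ) :=
  have : IsAlgClosure ℚ (AlgebraicClosure ℚ) := ⟨inferInstance, inferInstance⟩
  have : Normal ℚ (AlgebraicClosure ℚ) := IsAlgClosure.normal ℚ (AlgebraicClosure ℚ)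
  IsGalois.mk

/-- A prime outside `S` is not a square at any place of a field unramified outside `S`. -/
theorem not_mem_sq_of_isUnramifiedOutside {S : Finset Nat.Primes} {F : IntermediateField ℚ Ω}
    [IsGalois ℚ F] [NumberField F] (hF : F.IsUnramifiedOutside S) {q : Nat.Primes} (hq : q ∉ S)
    {Q : Ideal (𝓞 F)} [Q.IsPrime] (hqQ : ((q : ℕ) : 𝓞 F) ∈ Q) : ((q : ℕ) : 𝓞 F) ∉ Q ^ 2 := by
  intro hsq
  have hQ0 : Q ≠ ⊥ := by
    rintro rfl
    exact (Nat.cast_ne_zero.mpr q.2.ne_zero) (Ideal.mem_bot.mp hqQ)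
  have hQmax : Q.IsMaximal := Ideal.IsPrime.isMaximal inferInstance hQ0
  obtain ⟨A, hA⟩ := FreyReducible.exists_valuationSubring_over F Q
  have hQA : (FreyReducible.placeIdeal A).under (𝓞 F) = Q :=
    (hQmax.eq_of_le (Ideal.IsPrime.ne_top inferInstance) hA).symm
  have hAq : A.LiesOverPrime (q : ℕ) := by
    have := hA hqQ
    simpa [Ideal.mem_comap, FreyReducible.mem_placeIdeal, ValuationSubring.LiesOverPrime] using this
  have hinert : Q.inertia (F ≃ₐ[ℚ] F) = ⊥ := by
    refine (Subgroup.eq_bot_iff_forall _).mpr fun g hg => ?_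
    obtain ⟨σ, hσ, hσg⟩ := FreyReducible.exists_mem_inertiaSubgroupIn_extending q.2.ne_zero hAq F g
      fun b => by
        have h := hg b
        change g • b - b ∈ Q at h
        rw [← hQA] at h
        exact FreyReducible.mem_placeIdeal.mp (Ideal.mem_comap.mp h)
    refine AlgEquiv.ext fun x => Subtype.ext ?_
    show ((g x : F) : Ω) = (x : Ω)
    rw [← hσg]
    exact (IntermediateField.mem_fixingSubgroup_iff F σ).mp (hF.2 q hq A hAq hσ) _ x.2
  have : IsGaloisGroup (F ≃ₐ[ℚ] F) ℤ (𝓞 F) :=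
    IsGaloisGroup.of_isFractionRing (F ≃ₐ[ℚ] F) ℤ (𝓞 F) ℚ F
  have hmax : (Ideal.span {((q : ℕ) : ℤ)}).IsMaximal :=
    PrincipalIdealRing.isMaximal_of_irreducible (Nat.prime_iff_prime_int.mp q.2).irreducible
  have hQu : Q.under ℤ = Ideal.span {((q : ℕ) : ℤ)} := by
    refine (hmax.eq_of_le (Ideal.IsPrime.ne_top inferInstance) ?_).symm
    rw [Ideal.span_le, Set.singleton_subset_iff]
    show algebraMap ℤ (𝓞 F) ((q : ℕ) : ℤ) ∈ Q
    simpa using hqQ
  have : Q.LiesOver (Ideal.span {((q : ℕ) : ℤ)}) := ⟨hQu.symm⟩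
  have : Finite (ℤ ⧸ Ideal.span {((q : ℕ) : ℤ)}) :=
    have : NeZero (q : ℕ) := ⟨q.2.ne_zero⟩
    Finite.of_equiv _ (Int.quotientSpanNatEquivZMod (q : ℕ)).symm.toEquiv
  have : Finite (Ideal.span {((q : ℕ) : ℤ)}).ResidueField :=
    Finite.of_surjective _ (Ideal.bijective_algebraMap_quotient_residueField _).2
  have hcard := Ideal.card_inertia_eq_ramificationIdxIn (G := F ≃ₐ[ℚ] F)
    (Ideal.span {((q : ℕ) : ℤ)}) Q
  rw [hinert, Subgroup.card_bot, Ideal.ramificationIdxIn_eq_ramificationIdx _ Q (F ≃ₐ[ℚ] F)]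
    at hcard
  have hmap : (Ideal.span {((q : ℕ) : ℤ)}).map (algebraMap ℤ (𝓞 F)) =
      Ideal.span {((q : ℕ) : 𝓞 F)} := by
    rw [Ideal.map_span, Set.image_singleton, map_natCast]
  have hne : (Ideal.span {((q : ℕ) : ℤ)}).map (algebraMap ℤ (𝓞 F)) ≠ ⊥ := by
    rw [hmap, Ne, Ideal.span_singleton_eq_bot]
    exact Nat.cast_ne_zero.mpr q.2.ne_zero
  rw [Ideal.IsDedekindDomain.ramificationIdx_eq_multiplicity (Ideal.span {((q : ℕ) : ℤ)}) Q hne] at hcard
  have hfin : FiniteMultiplicity Q ((Ideal.span {((q : ℕ) : ℤ)}).map (algebraMap ℤ (𝓞 F))) :=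
    FiniteMultiplicity.of_prime_left (Ideal.prime_of_isPrime hQ0 inferInstance) hne
  have h2 : 2 ≤ multiplicity Q ((Ideal.span {((q : ℕ) : ℤ)}).map (algebraMap ℤ (𝓞 F))) := by
    rw [← hfin.pow_dvd_iff_le_multiplicity, hmap, Ideal.dvd_span_singleton]
    exact hsq
  omega

/-- **Hermite–Minkowski**: one open subgroup of `G_{ℚ,S}` lies in all the normal ones of bounded
index. -/
theorem exists_level_le_of_index_le (S : Finset Nat.Primes) (n : ℕ) :
    ∃ U, (GalCoh.levelsS S).mem U ∧ ∀ H : Subgroup Γ, H.Normal → (GalCoh.levelsS S).mem H →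
      H.index ≤ n → U ≤ H := by
  classical
  let Fs : Set (IntermediateField ℚ Ω) :=
    {F | F.IsUnramifiedOutside S ∧ IsGalois ℚ F ∧ Module.finrank ℚ F ≤ n}
  let N : ℕ := ((∏ p ∈ (S.image Subtype.val ∪ Finset.range (n + 1)).filter Nat.Prime, p) ^ (n + 1)) ^ n
  have hfin : Fs.Finite := by
    refine ((NumberField.finite_of_discr_bdd Ω N).image Subtype.val).subset fun F hF => ?_
    obtain ⟨hF1, hF2, hF3⟩ := hF
    have := hF1.1
    have : NumberField F := { to_charZero := inferInstance, to_finiteDimensional := inferInstance }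
    refine ⟨⟨F, hF1.1⟩, ?_, rfl⟩
    have h := natAbs_discr_le (L := F) (S.image Subtype.val) n hF3 fun p hp hpS Q hQ hpQ =>
      not_mem_sq_of_isUnramifiedOutside (q := ⟨p, hp⟩) hF1
        (fun hm => hpS (Finset.mem_image.mpr ⟨_, hm, rfl⟩)) hpQ
    show |discr F| ≤ (N : ℤ)
    rw [Int.abs_eq_natAbs]
    exact_mod_cast h
  refine ⟨hfin.toFinset.inf fun F => F.fixingSubgroup, ?_, fun H hH hmem hindex => ?_⟩
  · refine Finset.inf_induction (GalCoh.levelsS S).top_mem
      (fun a ha b hb => (GalCoh.levelsS S).inf_mem ha hb) fun F hF => ?_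
    exact ⟨F, ((hfin.mem_toFinset).mp hF).1, le_rfl⟩
  · obtain ⟨F₀, hF₀, hle⟩ := hmem
    have := hF₀.1
    have := hH
    let F := IntermediateField.fixedField H
    have hopen : IsOpen (H : Set Γ) := Subgroup.isOpen_mono hle F₀.fixingSubgroup_isOpen
    have hfix : F.fixingSubgroup = H :=
      InfiniteGalois.fixingSubgroup_fixedField ⟨H, H.isClosed_of_isOpen hopen⟩
    have hFle : F ≤ F₀ := by
      rw [← InfiniteGalois.fixedField_fixingSubgroup F₀]
      exact IntermediateField.fixedField_antitone hle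
    have hgal : IsGalois ℚ F :=
      (InfiniteGalois.normal_iff_isGalois F).mp (by rw [hfix]; infer_instance)
    have hmemF : F ∈ Fs := by
      refine ⟨hF₀.of_le hFle, hgal, ?_⟩
      have := (hF₀.of_le hFle).1
      rw [IntermediateField.finrank_eq_fixingSubgroup_index, hfix]
      exact hindex
    exact (Finset.inf_le (hfin.mem_toFinset.mpr hmemF)).trans hfix.le

/-- Homomorphisms to groups of bounded order, trivial on some level of `G_{ℚ,S}`, share a common
kernel level. -/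
theorem exists_level_forall_hom (S : Finset Nat.Primes) (H : Type) [Monoid H] [Finite H] :
    ∃ U, (GalCoh.levelsS S).mem U ∧ ∀ N : Γ →* H,
      (∃ V, (GalCoh.levelsS S).mem V ∧ ∀ s ∈ V, N s = 1) → ∀ s ∈ U, N s = 1 := by
  obtain ⟨U, hU, hle⟩ := exists_level_le_of_index_le S (Nat.card H)
  refine ⟨U, hU, fun N ⟨V, hV, hN⟩ s hs => ?_⟩
  have hker := hle N.toHomUnits.ker inferInstance
    ((GalCoh.levelsS S).mono hV fun t ht => Units.ext (hN t ht)) ?_ hs
  · exact congrArg Units.val hker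
  · rw [Subgroup.index_ker]
    exact (Subgroup.card_le_card_group _).trans
      (Nat.card_le_card_of_injective Units.val Units.val_injective)

end Finiteness

end Fermat.Agent.Deform
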