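import Fermat.Agent.Deform.Traces
import Fermat.Agent.Deform.Residual
import Fermat.Agent.Deform.Chevalley
import Fermat.Agent.Frobenius.Exists
import Fermat.Prelude.Def_GaloisRep_DeformationRingData
import Fermat.Prelude.Thm_IsLocalRing_isAdicComplete_of_module_finite
import Fermat.Prelude.Thm_IsAdicComplete_of_module_finite

/-!
# The Frobenius elements outside a finite set of primes
-/

set_option autoImplicit false

open IsLocalRing GaloisRep Fermat.Agent.DefRing

namespace Fermat.Agent.Deform

/-- The Frobenius elements outside a finite set of primes. -/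
def frobeniusSet (S : Finset ℕ) : Set GQ :=
  {τ : GQ | ∃ ℓ : ℕ, ℓ.Prime ∧ ℓ ∉ S ∧ ∃ P : ValuationSubring (AlgebraicClosure ℚ),
    P.LiesOverPrime ℓ ∧ P.IsFrobeniusAt τ ℓ}

end Fermat.Agent.Deform
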