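import Fermat.Agent.Deform.Conditions

/-!
# Twisting deformations by a character
-/

set_option autoImplicit false

open IsLocalRing GaloisRep Fermat.Agent.DefRing

namespace Fermat.Agent.Deform

variable {𝒪 : Type} [CommRing 𝒪]

/-- A representation twisted by a character with values in the coefficient ring. -/
noncomputable def twistMat (ψ : GQ →* 𝒪ˣ) {A : Type} [CommRing A] [Algebra 𝒪 A] (N : MRep A) :
    MRep A where
  toFun σ := algebraMap 𝒪 A (ψ σ : 𝒪) • N σ
  map_one' := by simp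
  map_mul' σ τ := by
    simp only [map_mul, Units.val_mul]
    rw [smul_mul_smul_comm]

variable {ψ : GQ →* 𝒪ˣ} {A B : Type} [CommRing A] [Algebra 𝒪 A] [CommRing B] [Algebra 𝒪 B]

theorem twistMat_apply (N : MRep A) (σ : GQ) :
    twistMat ψ N σ = algebraMap 𝒪 A (ψ σ : 𝒪) • N σ := rfl

variable [IsLocalRing 𝒪] [IsLocalRing A]

/-- A continuous twist of a continuous representation is continuous. -/
theorem isCont_twistMat (hψ : ∀ n : ℕ, ∃ L : IntermediateField ℚ (AlgebraicClosure ℚ),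
      FiniteDimensional ℚ L ∧ ∀ σ : GQ, (∀ x ∈ L, σ x = x) →
        (ψ σ : 𝒪) - 1 ∈ maximalIdeal 𝒪 ^ n)
    (hl : IsLocalHom (algebraMap 𝒪 A)) {N : MRep A} (hN : IsCont N) : IsCont (twistMat ψ N) := by
  intro n
  obtain ⟨L, hL, h1⟩ := hψ n
  obtain ⟨L', hL', h2⟩ := hN n
  refine ⟨L ⊔ L', IntermediateField.finiteDimensional_sup L L', fun σ hσ i j => ?_⟩
  have a1 : algebraMap 𝒪 A (ψ σ : 𝒪) - 1 ∈ maximalIdeal A ^ n := by
    rw [← map_one (algebraMap 𝒪 A), ← map_sub]
    exact mem_pow_of_algHom (algebraMap 𝒪 A) hl (h1 σ fun x hx => hσ x (le_sup_left (a := L) hx))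
  have a2 := h2 σ (fun x hx => hσ x (le_sup_right (a := L) hx)) i j
  have : (twistMat ψ N σ - 1) i j =
      (algebraMap 𝒪 A (ψ σ : 𝒪) - 1) * N σ i j + (N σ - 1) i j := by
    simp [twistMat_apply, Matrix.sub_apply, -algebraMap_smul]
    ring
  rw [this]
  exact add_mem (Ideal.mul_mem_right _ _ a1) a2

end Fermat.Agent.Deform
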